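import Mathlib
import Fermat.Prelude.Def_AlgebraicCurve_DivisorClassGroup
import Fermat.Prelude.Def_AlgebraicCurve_IsCurveOver
import Fermat.Prelude.Def_AlgebraicCurve_Repartitions

/-!
# Values of functions at places (algebraically closed constant field)
-/

set_option autoImplicit false

noncomputable section

open AlgebraicCurve Polynomial

namespace Fermat.Agent.S27C

section General

variable {K F : Type*} [Field K] [Field F] [Algebra K F]

theorem mem_iff_adic (v : Place K F) (f : F) :
    f ∈ v.toValuationSubring ↔ v.adicValuation f ≤ 1 := by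
  refine ⟨v.adicValuation_le_one_of_mem, fun h => ?_⟩
  rcases v.toValuationSubring.mem_or_inv_mem f with h1 | h1
  · exact h1
  · by_cases hf : f = 0
    · rw [hf]; exact v.toValuationSubring.zero_mem
    have h2 := v.adicValuation_le_one_of_mem h1
    have h3 : v.adicValuation f = 1 := by
      apply le_antisymm h
      rw [map_inv₀] at h2
      have h0 : v.adicValuation f ≠ 0 := v.adicValuation_ne_zero hf
      exact (inv_le_one₀ (zero_lt_iff.2 h0)).1 h2
    have h4 : v.adicValuation ((⟨f⁻¹, h1⟩ : v.toValuationSubring) : F) = 1 := by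
      change v.adicValuation f⁻¹ = 1
      rw [map_inv₀, h3, inv_one]
    rw [v.adicValuation_coe_eq_one_iff] at h4
    obtain ⟨u, hu⟩ := h4
    have h5 : ((u⁻¹ : v.toValuationSubringˣ) : v.toValuationSubring) * ⟨f⁻¹, h1⟩ = 1 := by
      rw [← hu, Units.inv_mul]
    have h6 := congrArg (Subtype.val) h5
    change (((u⁻¹ : v.toValuationSubringˣ) : v.toValuationSubring) : F) * f⁻¹ = 1 at h6
    have h7 : (((u⁻¹ : v.toValuationSubringˣ) : v.toValuationSubring) : F) = f := by
      field_simp at h6
      exact h6
    rw [← h7]
    exact Subtype.mem _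

theorem mem_iff_ord (v : Place K F) (f : F) :
    f ∈ v.toValuationSubring ↔ f = 0 ∨ 0 ≤ v.ord f := by
  rw [mem_iff_adic, v.adicValuation_le_one_iff]

theorem mem_of_ord_nonneg {v : Place K F} {f : F} (h : 0 ≤ v.ord f) :
    f ∈ v.toValuationSubring := (mem_iff_ord v f).2 (Or.inr h)

theorem adic_lt_one_iff (v : Place K F) (f : F) :
    v.adicValuation f < 1 ↔ f = 0 ∨ 0 < v.ord f := by
  rcases eq_or_ne f 0 with rfl | hf
  · simp
  · rw [v.adicValuation_eq_exp_neg_ord hf, or_iff_right hf]
    rw [show (1 : WithZero (Multiplicative ℤ)) = WithZero.exp (0 : ℤ) from rfl, WithZero.exp_lt_exp]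
    constructor <;> intro h <;> linarith

theorem mem_maximal_iff (v : Place K F) (f : v.toValuationSubring) :
    f ∈ IsLocalRing.maximalIdeal v.toValuationSubring ↔ v.adicValuation (f : F) < 1 := by
  rw [IsLocalRing.mem_maximalIdeal, mem_nonunits_iff, ← v.adicValuation_coe_eq_one_iff]
  constructor
  · intro h
    exact lt_of_le_of_ne (v.adicValuation_le_one_of_mem f.2) h
  · intro h
    exact h.ne

theorem mem_algebraMap (v : Place K F) (a : K) : algebraMap K F a ∈ v.toValuationSubring :=
  v.algebraMap_mem' a

/-- A valuation subring containing another one which is a place is that place or everything. -/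
theorem ord_add_ge (v : Place K F) {f g : F} {n : ℤ} (hf : f = 0 ∨ n ≤ v.ord f)
    (hg : g = 0 ∨ n ≤ v.ord g) : f + g = 0 ∨ n ≤ v.ord (f + g) := by
  have h1 : v.adicValuation f ≤ WithZero.exp (-n) := by
    rw [v.adicValuation_le_exp_iff]; simpa using hf
  have h2 : v.adicValuation g ≤ WithZero.exp (-n) := by
    rw [v.adicValuation_le_exp_iff]; simpa using hg
  have h3 : v.adicValuation (f + g) ≤ WithZero.exp (-n) :=
    (Valuation.map_add _ _ _).trans (max_le h1 h2)
  rw [v.adicValuation_le_exp_iff] at h3
  simpa using h3

end General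

section AlgClosed

variable {K F : Type*} [Field K] [Field F] [Algebra K F] [IsAlgClosed K] [IsCurveOver K F]

theorem residue_bijective (v : Place K F) :
    Function.Bijective (algebraMap K v.ResidueField) := by
  have : Module.Finite K v.ResidueField := IsCurveOver.finiteResidue v
  have : Algebra.IsIntegral K v.ResidueField := Algebra.IsIntegral.of_finite K v.ResidueField
  exact IsAlgClosed.algebraMap_bijective_of_isIntegral

theorem exists_val (v : Place K F) (f : F) (hf : f ∈ v.toValuationSubring) :
    ∃ c : K, v.adicValuation (f - algebraMap K F c) < 1 := by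
  obtain ⟨c, hc⟩ := (residue_bijective v).2 (IsLocalRing.residue _ ⟨f, hf⟩)
  refine ⟨c, ?_⟩
  have h : (⟨f, hf⟩ - algebraMap K v.toValuationSubring c : v.toValuationSubring) ∈
      IsLocalRing.maximalIdeal v.toValuationSubring := by
    rw [← IsLocalRing.residue_eq_zero_iff, map_sub, ← hc]
    exact sub_self _
  rw [mem_maximal_iff] at h
  exact h

open Classical in
/-- The value of a function at a place (junk value `0` at a pole). -/
def val (v : Place K F) (f : F) : K :=
  if h : f ∈ v.toValuationSubring then (exists_val v f h).choose else 0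

theorem val_spec (v : Place K F) {f : F} (hf : f ∈ v.toValuationSubring) :
    v.adicValuation (f - algebraMap K F (val v f)) < 1 := by
  unfold val
  rw [dif_pos hf]
  exact (exists_val v f hf).choose_spec

omit [IsAlgClosed K] [IsCurveOver K F] in
theorem adic_algebraMap (v : Place K F) {c : K} (hc : c ≠ 0) :
    v.adicValuation (algebraMap K F c) = 1 := by
  apply le_antisymm (v.adicValuation_algebraMap_le_one c)
  have h1 := v.adicValuation_algebraMap_le_one c⁻¹
  rw [map_inv₀, map_inv₀] at h1
  have h0 : v.adicValuation (algebraMap K F c) ≠ 0 :=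
    v.adicValuation_ne_zero ((_root_.map_ne_zero _).2 hc)
  exact (inv_le_one₀ (zero_lt_iff.2 h0)).1 h1

omit [IsAlgClosed K] [IsCurveOver K F] in
theorem val_unique' (v : Place K F) {f : F} {c d : K}
    (hc : v.adicValuation (f - algebraMap K F c) < 1)
    (hd : v.adicValuation (f - algebraMap K F d) < 1) : c = d := by
  by_contra hcd
  have h1 : v.adicValuation (algebraMap K F (c - d)) < 1 := by
    have : algebraMap K F (c - d) = (f - algebraMap K F d) - (f - algebraMap K F c) := by
      rw [map_sub]; ring
    rw [this]
    exact lt_of_le_of_lt (Valuation.map_sub _ _ _) (max_lt hd hc)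
  rw [adic_algebraMap v (sub_ne_zero.2 hcd)] at h1
  exact lt_irrefl _ h1

omit [IsAlgClosed K] [IsCurveOver K F] in
theorem mem_of_hasVal (v : Place K F) {f : F} {c : K}
    (hc : v.adicValuation (f - algebraMap K F c) < 1) : f ∈ v.toValuationSubring := by
  have h1 : f - algebraMap K F c ∈ v.toValuationSubring := (mem_iff_adic v _).2 hc.le
  have h2 := v.toValuationSubring.add_mem _ _ h1 (mem_algebraMap v c)
  simpa using h2

theorem val_eq_of (v : Place K F) {f : F} {c : K}
    (hc : v.adicValuation (f - algebraMap K F c) < 1) : val v f = c :=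
  val_unique' v (val_spec v (mem_of_hasVal v hc)) hc

@[simp]
theorem val_algebraMap (v : Place K F) (c : K) : val v (algebraMap K F c) = c :=
  val_eq_of v (by simp)

@[simp]
theorem val_zero (v : Place K F) : val v (0 : F) = 0 := by
  have := val_algebraMap (F := F) v (0 : K)
  simpa using this

@[simp]
theorem val_one (v : Place K F) : val v (1 : F) = 1 := by
  have := val_algebraMap (F := F) v (1 : K)
  simpa using this

theorem val_add (v : Place K F) {f g : F} (hf : f ∈ v.toValuationSubring)
    (hg : g ∈ v.toValuationSubring) : val v (f + g) = val v f + val v g := by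
  apply val_eq_of
  have : f + g - algebraMap K F (val v f + val v g) =
      (f - algebraMap K F (val v f)) + (g - algebraMap K F (val v g)) := by
    rw [map_add]; ring
  rw [this]
  exact lt_of_le_of_lt (Valuation.map_add _ _ _) (max_lt (val_spec v hf) (val_spec v hg))

theorem val_mul (v : Place K F) {f g : F} (hf : f ∈ v.toValuationSubring)
    (hg : g ∈ v.toValuationSubring) : val v (f * g) = val v f * val v g := by
  apply val_eq_of
  have : f * g - algebraMap K F (val v f * val v g) =
      (f - algebraMap K F (val v f)) * g + algebraMap K F (val v f) * (g - algebraMap K F (val v g)) := by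
    rw [map_mul]; ring
  rw [this]
  refine lt_of_le_of_lt (Valuation.map_add _ _ _) (max_lt ?_ ?_)
  · rw [map_mul]
    exact (mul_le_of_le_one_right' (v.adicValuation_le_one_of_mem hg)).trans_lt (val_spec v hf)
  · rw [map_mul]
    exact (mul_le_of_le_one_left' (v.adicValuation_algebraMap_le_one _)).trans_lt (val_spec v hg)

theorem val_neg (v : Place K F) {f : F} (hf : f ∈ v.toValuationSubring) :
    val v (-f) = -val v f := by
  have h := val_add v hf (v.toValuationSubring.neg_mem _ hf)
  rw [add_neg_cancel, val_zero] at h
  exact (neg_eq_of_add_eq_zero_right h.symm).symm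

theorem val_sub (v : Place K F) {f g : F} (hf : f ∈ v.toValuationSubring)
    (hg : g ∈ v.toValuationSubring) : val v (f - g) = val v f - val v g := by
  rw [sub_eq_add_neg, val_add v hf (v.toValuationSubring.neg_mem _ hg), val_neg v hg,
    sub_eq_add_neg]

theorem val_eq_zero_iff (v : Place K F) {f : F} (hf : f ∈ v.toValuationSubring) :
    val v f = 0 ↔ v.adicValuation f < 1 := by
  constructor
  · intro h
    have := val_spec v hf
    rw [h] at this
    simpa using this
  · intro h
    apply val_eq_of
    simpa using h

theorem val_eq_zero_iff_ord (v : Place K F) {f : F} (hf : f ∈ v.toValuationSubring) :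
    val v f = 0 ↔ f = 0 ∨ 0 < v.ord f := by
  rw [val_eq_zero_iff v hf, adic_lt_one_iff]

theorem val_of_ord_pos (v : Place K F) {f : F} (hf : 0 < v.ord f) : val v f = 0 :=
  (val_eq_zero_iff_ord v (mem_of_ord_nonneg hf.le)).2 (Or.inr hf)

theorem ord_eq_zero_of_val_ne (v : Place K F) {f : F} (hf : f ∈ v.toValuationSubring)
    (h : val v f ≠ 0) : f ≠ 0 ∧ v.ord f = 0 := by
  have hf0 : f ≠ 0 := by
    rintro rfl
    exact h (val_zero v)
  refine ⟨hf0, ?_⟩
  have h1 := ((mem_iff_ord v f).1 hf).resolve_left hf0
  by_contra h2
  exact h (val_of_ord_pos v (lt_of_le_of_ne h1 (Ne.symm h2)))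

theorem inv_mem_of_val_ne (v : Place K F) {f : F} (hf : f ∈ v.toValuationSubring)
    (h : val v f ≠ 0) : f⁻¹ ∈ v.toValuationSubring := by
  obtain ⟨h0, h1⟩ := ord_eq_zero_of_val_ne v hf h
  apply mem_of_ord_nonneg
  rw [v.ord_inv, h1, neg_zero]

theorem val_inv (v : Place K F) {f : F} (hf : f ∈ v.toValuationSubring)
    (h : val v f ≠ 0) : val v f⁻¹ = (val v f)⁻¹ := by
  obtain ⟨h0, h1⟩ := ord_eq_zero_of_val_ne v hf h
  have h2 := val_mul v hf (inv_mem_of_val_ne v hf h)
  rw [mul_inv_cancel₀ h0, val_one] at h2
  exact (inv_eq_of_mul_eq_one_right h2.symm).symm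

theorem div_mem_of_val_ne (v : Place K F) {f g : F} (hf : f ∈ v.toValuationSubring)
    (hg : g ∈ v.toValuationSubring) (h : val v g ≠ 0) : f / g ∈ v.toValuationSubring := by
  rw [div_eq_mul_inv]
  exact v.toValuationSubring.mul_mem _ _ hf (inv_mem_of_val_ne v hg h)

theorem val_div (v : Place K F) {f g : F} (hf : f ∈ v.toValuationSubring)
    (hg : g ∈ v.toValuationSubring) (h : val v g ≠ 0) : val v (f / g) = val v f / val v g := by
  rw [div_eq_mul_inv, val_mul v hf (inv_mem_of_val_ne v hg h), val_inv v hg h, div_eq_mul_inv]

/-- Evaluation as an algebra homomorphism from the local ring at `v`. -/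
def evalHom (v : Place K F) : v.toValuationSubring →ₐ[K] K where
  toFun f := val v (f : F)
  map_one' := val_one v
  map_mul' f g := val_mul v f.2 g.2
  map_zero' := val_zero v
  map_add' f g := val_add v f.2 g.2
  commutes' c := val_algebraMap v c

@[simp]
theorem evalHom_apply (v : Place K F) (f : v.toValuationSubring) : evalHom v f = val v (f : F) :=
  rfl

omit [IsAlgClosed K] [IsCurveOver K F] in
theorem aevalAeval_mem (v : Place K F) {z y : F} (hz : z ∈ v.toValuationSubring)
    (hy : y ∈ v.toValuationSubring) (p : K[X][X]) :
    aevalAeval (R := K) z y p ∈ v.toValuationSubring := by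
  have h : aevalAeval (R := K) z y p =
      ((aevalAeval (R := K) (⟨z, hz⟩ : v.toValuationSubring) ⟨y, hy⟩ p : v.toValuationSubring) : F) := by
    induction p using Polynomial.induction_on' with
    | add p q hp hq => rw [map_add, map_add, hp, hq]; rfl
    | monomial n a =>
      rw [← C_mul_X_pow_eq_monomial, map_mul, map_mul, map_pow, map_pow]
      simp only [aevalAeval_C, aevalAeval_Y]
      have h2 : (aeval z) a = (((aeval (⟨z, hz⟩ : v.toValuationSubring)) a :
          v.toValuationSubring) : F) := by
        induction a using Polynomial.induction_on' with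
        | add p q hp hq => rw [map_add, map_add, hp, hq]; rfl
        | monomial n a =>
          rw [aeval_monomial, aeval_monomial]; rfl
      rw [h2]
      rfl
  rw [h]
  exact Subtype.mem _

theorem val_aevalAeval (v : Place K F) {z y : F} (hz : z ∈ v.toValuationSubring)
    (hy : y ∈ v.toValuationSubring) (p : K[X][X]) :
    val v (aevalAeval (R := K) z y p) = p.evalEval (val v z) (val v y) := by
  induction p using Polynomial.induction_on' with
  | add p q hp hq =>
    rw [map_add, val_add v (aevalAeval_mem v hz hy p) (aevalAeval_mem v hz hy q), hp, hq,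
      evalEval_add]
  | monomial n a =>
    have hz' : ∀ b : K[X], aeval z b ∈ v.toValuationSubring := by
      intro b
      have := aevalAeval_mem v hz hy (C b)
      simpa using this
    have hza : val v (aeval z a) = a.eval (val v z) := by
      induction a using Polynomial.induction_on' with
      | add p q hp hq =>
        rw [map_add, val_add v (hz' p) (hz' q), hp, hq, eval_add]
      | monomial n a =>
        rw [aeval_monomial, eval_monomial, val_mul v (mem_algebraMap v a)
          (pow_mem hz _), val_algebraMap]
        congr 1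
        have := map_pow (evalHom v) ⟨z, hz⟩ n
        simpa using this
    rw [← C_mul_X_pow_eq_monomial, map_mul, map_pow, aevalAeval_C, aevalAeval_Y, evalEval_mul,
      evalEval_pow, evalEval_X, evalEval_C, val_mul v (hz' a) (pow_mem hy _),
      hza]
    congr 1
    have := map_pow (evalHom v) ⟨y, hy⟩ n
    simpa using this

end AlgClosed

end Fermat.Agent.S27C
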