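import Mathlib
import Fermat.Prelude.Def_AlgebraicCurve_DivisorClassGroup
import Fermat.Prelude.Def_AlgebraicCurve_IsCurveOver
import Fermat.Prelude.Def_AlgebraicCurve_Repartitions
import Fermat.Agent.S27C.Eval

/-!
# Classes of principal parts in `H1 0`
-/

set_option autoImplicit false

noncomputable section

open AlgebraicCurve

namespace Fermat.Agent.S27C

section Cls

variable {K F : Type*} [Field K] [Field F] [Algebra K F]

open Classical in
/-- The repartition with entry `f` at `v` and `0` elsewhere. -/
def singleRep (v : Place K F) (f : F) : repartitions K F :=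
  ⟨Pi.single v f, mem_repartitions_of_finite (by
    refine (Set.finite_singleton v).subset fun w hw => ?_
    by_contra hwv
    rw [Set.mem_singleton_iff] at hwv
    apply hw
    rw [Pi.single_eq_of_ne hwv]
    simp)⟩

theorem singleRep_same (v : Place K F) (f : F) : (singleRep v f : Place K F → F) v = f := by
  classical
  unfold singleRep
  simp

theorem singleRep_ne {v w : Place K F} (h : w ≠ v) (f : F) :
    (singleRep v f : Place K F → F) w = 0 := by
  classical
  unfold singleRep
  simp [Pi.single_eq_of_ne h]

/-- `singleRep` as a linear map. -/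
def singleRepLin (v : Place K F) : F →ₗ[K] repartitions K F where
  toFun f := singleRep v f
  map_add' f g := by
    apply Subtype.ext
    funext w
    change (singleRep v (f + g) : Place K F → F) w =
      (singleRep v f : Place K F → F) w + (singleRep v g : Place K F → F) w
    by_cases h : w = v
    · subst h; rw [singleRep_same, singleRep_same, singleRep_same]
    · rw [singleRep_ne h, singleRep_ne h, singleRep_ne h, add_zero]
  map_smul' c f := by
    apply Subtype.ext
    funext w
    change (singleRep v (c • f) : Place K F → F) w =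
      c • (singleRep v f : Place K F → F) w
    by_cases h : w = v
    · subst h; rw [singleRep_same, singleRep_same]
    · rw [singleRep_ne h, singleRep_ne h, smul_zero]

/-- The class in `H1 0` of the principal part `f` at `v`. -/
def cls (v : Place K F) : F →ₗ[K] H1 (0 : Divisor K F) :=
  (Submodule.mkQ (repartitionsOf (0 : Divisor K F) ⊔ principalRepartitions K F)) ∘ₗ singleRepLin v

theorem cls_apply (v : Place K F) (f : F) :
    cls v f = Submodule.Quotient.mk (singleRep v f) := rfl

theorem mem_repartitionsOf_zero {α : repartitions K F} :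
    α ∈ repartitionsOf (0 : Divisor K F) ↔
      ∀ v : Place K F, (α : Place K F → F) v ∈ v.toValuationSubring := by
  change (∀ v : Place K F, v.adicValuation ((α : Place K F → F) v) ≤
    WithZero.exp ((0 : Divisor K F) v)) ↔ _
  refine forall_congr' fun v => ?_
  rw [mem_iff_adic]
  rfl

theorem cls_eq_zero_of_mem {v : Place K F} {f : F} (hf : f ∈ v.toValuationSubring) :
    cls v f = 0 := by
  rw [cls_apply, Submodule.Quotient.mk_eq_zero]
  apply Submodule.mem_sup_left
  rw [mem_repartitionsOf_zero]
  intro w
  by_cases h : w = v
  · subst h; rwa [singleRep_same]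
  · rw [singleRep_ne h]; exact w.toValuationSubring.zero_mem

theorem cls_congr {v : Place K F} {f g : F} (hf : f - g ∈ v.toValuationSubring) :
    cls v f = cls v g := by
  have := cls_eq_zero_of_mem hf
  rwa [map_sub, sub_eq_zero] at this

theorem coe_sum_singleRep (S : Finset (Place K F)) (f : Place K F → F) (w : Place K F)
    [Decidable (w ∈ S)] :
    ((∑ v ∈ S, singleRep v (f v) : repartitions K F) : Place K F → F) w =
      if w ∈ S then f w else 0 := by
  classical
  rw [AddSubmonoidClass.coe_finset_sum, Finset.sum_apply]
  split_ifs with h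
  · rw [Finset.sum_eq_single w]
    · rw [singleRep_same]
    · intro v _ hv
      exact singleRep_ne (Ne.symm hv) _
    · intro hw; exact absurd h hw
  · apply Finset.sum_eq_zero
    intro v hv
    apply singleRep_ne
    rintro rfl
    exact h hv

theorem sum_cls (S : Finset (Place K F)) (f : Place K F → F) :
    ∑ v ∈ S, cls v (f v) = Submodule.Quotient.mk (∑ v ∈ S, singleRep v (f v)) := by
  rw [← Submodule.mkQ_apply, map_sum]
  rfl

/-- The sum of all principal parts of a global function vanishes in `H1 0`. -/
theorem sum_cls_eq_zero (S : Finset (Place K F)) (g : F)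
    (hg : ∀ v ∉ S, g ∈ v.toValuationSubring) : ∑ v ∈ S, cls v g = 0 := by
  classical
  rw [sum_cls S (fun _ => g), Submodule.Quotient.mk_eq_zero]
  have h1 : (∑ v ∈ S, singleRep v g : repartitions K F) =
      ((∑ v ∈ S, singleRep v g : repartitions K F) - algebraMap F (repartitions K F) g) +
        algebraMap F (repartitions K F) g := by ring
  rw [h1]
  apply Submodule.add_mem_sup
  · rw [mem_repartitionsOf_zero]
    intro w
    change ((∑ v ∈ S, singleRep v g : repartitions K F) : Place K F → F) w -
      ((algebraMap F (repartitions K F) g : repartitions K F) : Place K F → F) w ∈ _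
    rw [coe_sum_singleRep S (fun _ => g) w]
    change (if w ∈ S then g else 0) - g ∈ _
    split_ifs with h
    · rw [sub_self]; exact w.toValuationSubring.zero_mem
    · rw [zero_sub]; exact w.toValuationSubring.neg_mem _ (hg w h)
  · rw [mem_principalRepartitions_iff]
    exact ⟨g, rfl⟩

/-- If the sum of some principal parts vanishes in `H1 0`, they are the principal parts
of a global function. -/
theorem exists_of_sum_cls_eq_zero (S : Finset (Place K F)) (f : Place K F → F)
    (h : ∑ v ∈ S, cls v (f v) = 0) :
    ∃ g : F, (∀ v ∈ S, g - f v ∈ v.toValuationSubring) ∧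
      ∀ v ∉ S, g ∈ v.toValuationSubring := by
  classical
  rw [sum_cls, Submodule.Quotient.mk_eq_zero, Submodule.mem_sup] at h
  obtain ⟨α, hα, β, hβ, hαβ⟩ := h
  rw [mem_principalRepartitions_iff] at hβ
  obtain ⟨g, hg⟩ := hβ
  rw [mem_repartitionsOf_zero] at hα
  have key : ∀ w : Place K F, (α : Place K F → F) w + g = if w ∈ S then f w else 0 := by
    intro w
    rw [← coe_sum_singleRep S f w, ← hαβ]
    change _ = (α : Place K F → F) w + (β : Place K F → F) w
    rw [hg]
  refine ⟨g, fun v hv => ?_, fun v hv => ?_⟩
  · have h1 := key v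
    rw [if_pos hv] at h1
    have h2 : g - f v = -(α : Place K F → F) v := by rw [← h1]; ring
    rw [h2]
    exact v.toValuationSubring.neg_mem _ (hα v)
  · have h1 := key v
    rw [if_neg hv] at h1
    have h2 : g = -(α : Place K F → F) v := by
      rw [eq_neg_iff_add_eq_zero, add_comm]; exact h1
    rw [h2]
    exact v.toValuationSubring.neg_mem _ (hα v)

/-- Indexed version of `exists_of_sum_cls_eq_zero`. -/
theorem exists_of_sum_cls_eq_zero' {ι : Type*} [Fintype ι] (p : ι → Place K F)
    (hp : Function.Injective p) (f : ι → F) (h : ∑ i, cls (p i) (f i) = 0) :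
    ∃ g : F, (∀ i, g - f i ∈ (p i).toValuationSubring) ∧
      ∀ v : Place K F, (∀ i, p i ≠ v) → g ∈ v.toValuationSubring := by
  classical
  obtain ⟨g, hg1, hg2⟩ := exists_of_sum_cls_eq_zero (Finset.univ.map ⟨p, hp⟩)
    (fun v => if h : ∃ i, p i = v then f h.choose else 0) (by
      rw [Finset.sum_map, ← h]
      refine Finset.sum_congr rfl fun i _ => ?_
      have hex : ∃ j, p j = p i := ⟨i, rfl⟩
      simp only [Function.Embedding.coeFn_mk]
      rw [dif_pos hex, hp hex.choose_spec])
  refine ⟨g, fun i => ?_, fun v hv => ?_⟩
  · have h1 := hg1 (p i) (by simp)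
    have hex : ∃ j, p j = p i := ⟨i, rfl⟩
    rw [dif_pos hex, hp hex.choose_spec] at h1
    exact h1
  · apply hg2
    simp only [Finset.mem_map, Finset.mem_univ, Function.Embedding.coeFn_mk, true_and, not_exists]
    exact hv

theorem sum_cls_eq_zero' {ι : Type*} [Fintype ι] (p : ι → Place K F)
    (hp : Function.Injective p) (g : F)
    (hg : ∀ v : Place K F, (∀ i, p i ≠ v) → g ∈ v.toValuationSubring) :
    ∑ i, cls (p i) g = 0 := by
  classical
  have := sum_cls_eq_zero (Finset.univ.map ⟨p, hp⟩) g (by
    intro v hv
    apply hg
    intro i hi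
    apply hv
    simp only [Finset.mem_map, Finset.mem_univ, Function.Embedding.coeFn_mk, true_and]
    exact ⟨i, hi⟩)
  rw [Finset.sum_map] at this
  exact this

end Cls

end Fermat.Agent.S27C
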