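import Mathlib
import Fermat.Agent.S27C.Cls
import Fermat.Agent.FunField.Setup

/-!
# Analytic charts on the set of places of a function field over `ℂ`
-/

set_option autoImplicit false

noncomputable section

open AlgebraicCurve Filter Metric
open scoped Topology

namespace Fermat.Agent.S27C

variable {F : Type*} [Field F] [Algebra ℂ F] [IsCurveOver ℂ F]

/-- An analytic disc of places around `Q`. -/
structure Chart (Q : Place ℂ F) where
  z : F
  pt : ℂ → Place ℂ F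
  r : ℝ
  r_pos : 0 < r
  pt_zero : pt 0 = Q
  z_mem : ∀ t ∈ ball (0 : ℂ) r, z ∈ (pt t).toValuationSubring
  z_val : ∀ t ∈ ball (0 : ℂ) r, val (pt t) z = t
  ord_z : ∀ t ∈ ball (0 : ℂ) r, (pt t).ord (z - algebraMap ℂ F t) = 1
  an : ∀ t ∈ ball (0 : ℂ) r, ∀ f ∈ (pt t).toValuationSubring,
    AnalyticAt ℂ (fun u => val (pt u) f) t ∧ ∀ᶠ u in 𝓝 t, f ∈ (pt u).toValuationSubring
  anM : ∀ t ∈ ball (0 : ℂ) r, ∀ l : H1 (0 : Divisor ℂ F) →ₗ[ℂ] ℂ,
    AnalyticAt ℂ (fun u => l (cls (pt u) (z - algebraMap ℂ F u)⁻¹)) t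

namespace Chart

variable {Q : Place ℂ F} (c : Chart Q)

/-- Small discs of the chart are neighbourhoods of the centre (phrased via values of finitely
many functions). -/
def IsNhd : Prop :=
  ∀ ε : ℝ, 0 < ε → ∃ fs : Finset F, ∃ δ : ℝ, 0 < δ ∧
    (∀ f ∈ fs, f ∈ Q.toValuationSubring) ∧
    ∀ v : Place ℂ F, (∀ f ∈ fs, f ∈ v.toValuationSubring ∧ ‖val v f - val Q f‖ < δ) →
      ∃ t ∈ ball (0 : ℂ) ε, c.pt t = v

theorem zero_mem : (0 : ℂ) ∈ ball (0 : ℂ) c.r := mem_ball_self c.r_pos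

theorem ball_mem : ball (0 : ℂ) c.r ∈ 𝓝 (0 : ℂ) := ball_mem_nhds _ c.r_pos

theorem ord_z_zero : Q.ord c.z = 1 := by
  have := c.ord_z 0 c.zero_mem
  rw [c.pt_zero] at this
  simpa using this

theorem z_ne_zero : c.z ≠ 0 := by
  intro h
  have := c.ord_z_zero
  rw [h, Place.ord_zero] at this
  exact zero_ne_one this

theorem z_mem_zero : c.z ∈ Q.toValuationSubring := by
  have := c.z_mem 0 c.zero_mem
  rwa [c.pt_zero] at this

theorem z_val_zero : val Q c.z = 0 := by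
  have := c.z_val 0 c.zero_mem
  rwa [c.pt_zero] at this

theorem an_zero {f : F} (hf : f ∈ Q.toValuationSubring) :
    AnalyticAt ℂ (fun u => val (c.pt u) f) 0 ∧ ∀ᶠ u in 𝓝 (0 : ℂ),
      f ∈ (c.pt u).toValuationSubring := by
  have := c.an 0 c.zero_mem f (by rwa [c.pt_zero])
  exact this

theorem pt_injOn : Set.InjOn c.pt (ball (0 : ℂ) c.r) := by
  intro t ht u hu h
  rw [← c.z_val t ht, ← c.z_val u hu, h]

/-- Two different places have disjoint small discs. -/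
theorem separated {Q' : Place ℂ F} (c' : Chart Q') (h : Q ≠ Q') :
    ∃ δ : ℝ, 0 < δ ∧ ∀ t ∈ ball (0 : ℂ) δ, ∀ t' ∈ ball (0 : ℂ) δ, c.pt t ≠ c'.pt t' := by
  have hnle : ¬ Q.toValuationSubring ≤ Q'.toValuationSubring := fun hle =>
    h (Fermat.Agent.FunField.PlaceLemmas.eq_of_le hle)
  obtain ⟨f, hf, hf'⟩ := Set.not_subset.1 hnle
  change f ∈ Q.toValuationSubring at hf
  change f ∉ Q'.toValuationSubring at hf'
  have hf0 : f ≠ 0 := by
    rintro rfl
    exact hf' Q'.toValuationSubring.zero_mem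
  have hinv : f⁻¹ ∈ Q'.toValuationSubring :=
    (Q'.toValuationSubring.mem_or_inv_mem f).resolve_left hf'
  have hval : val Q' f⁻¹ = 0 := by
    by_contra hne
    have := inv_mem_of_val_ne Q' hinv hne
    rw [inv_inv] at this
    exact hf' this
  obtain ⟨h1, h2⟩ := c.an_zero hf
  obtain ⟨h3, h4⟩ := c'.an_zero hinv
  set R : ℝ := ‖val Q f‖ + 1 with hR
  have hRpos : 0 < R := by positivity
  have h5 : ∀ᶠ u in 𝓝 (0 : ℂ), ‖val (c.pt u) f‖ < R := by
    have hc : ContinuousAt (fun u => ‖val (c.pt u) f‖) 0 := h1.continuousAt.norm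
    have h0 : (fun u => ‖val (c.pt u) f‖) 0 < R := by
      change ‖val (c.pt 0) f‖ < R
      rw [c.pt_zero]
      linarith
    exact hc.eventually (gt_mem_nhds h0)
  have h6 : ∀ᶠ u in 𝓝 (0 : ℂ), ‖val (c'.pt u) f⁻¹‖ < R⁻¹ := by
    have hc : ContinuousAt (fun u => ‖val (c'.pt u) f⁻¹‖) 0 := h3.continuousAt.norm
    have h0 : (fun u => ‖val (c'.pt u) f⁻¹‖) 0 < R⁻¹ := by
      change ‖val (c'.pt 0) f⁻¹‖ < R⁻¹
      rw [c'.pt_zero, hval, norm_zero]
      exact inv_pos.2 hRpos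
    exact hc.eventually (gt_mem_nhds h0)
  obtain ⟨δ1, hδ1, H1⟩ := Metric.eventually_nhds_iff_ball.1 (h2.and h5)
  obtain ⟨δ2, hδ2, H2⟩ := Metric.eventually_nhds_iff_ball.1 (h4.and h6)
  refine ⟨min δ1 δ2, lt_min hδ1 hδ2, fun t ht t' ht' heq => ?_⟩
  obtain ⟨a1, a2⟩ := H1 t (ball_subset_ball (min_le_left _ _) ht)
  obtain ⟨a3, a4⟩ := H2 t' (ball_subset_ball (min_le_right _ _) ht')
  rw [heq] at a1 a2
  have h7 := val_mul (c'.pt t') a1 a3
  rw [mul_inv_cancel₀ hf0, val_one] at h7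
  have h8 : ‖(1 : ℂ)‖ < R * R⁻¹ := by
    rw [h7, norm_mul]
    exact mul_lt_mul'' a2 a4 (norm_nonneg _) (norm_nonneg _)
  rw [norm_one, mul_inv_cancel₀ hRpos.ne'] at h8
  exact lt_irrefl _ h8

theorem shift_mem {s : ℂ} {u : ℂ} (hu : u ∈ ball (0 : ℂ) (c.r - ‖s‖)) :
    s + u ∈ ball (0 : ℂ) c.r := by
  rw [mem_ball_zero_iff] at hu ⊢
  calc ‖s + u‖ ≤ ‖s‖ + ‖u‖ := norm_add_le _ _
    _ < c.r := by linarith

/-- Moving the centre of a chart. -/
def shift (s : ℂ) (hs : s ∈ ball (0 : ℂ) c.r) : Chart (c.pt s) where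
  z := c.z - algebraMap ℂ F s
  pt u := c.pt (s + u)
  r := c.r - ‖s‖
  r_pos := by rw [mem_ball_zero_iff] at hs; linarith
  pt_zero := by rw [add_zero]
  z_mem t ht := sub_mem (c.z_mem _ (c.shift_mem ht)) (mem_algebraMap _ _)
  z_val t ht := by
    rw [val_sub _ (c.z_mem _ (c.shift_mem ht)) (mem_algebraMap _ _), c.z_val _ (c.shift_mem ht),
      val_algebraMap]
    ring
  ord_z t ht := by
    have := c.ord_z _ (c.shift_mem ht)
    rw [map_add] at this
    rw [sub_sub]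
    exact this
  an t ht f hf := by
    obtain ⟨h1, h2⟩ := c.an _ (c.shift_mem ht) f hf
    constructor
    · exact h1.comp_of_eq (by fun_prop) rfl
    · have hc : Tendsto (fun u : ℂ => s + u) (𝓝 t) (𝓝 (s + t)) :=
        (continuous_const.add continuous_id).continuousAt
      exact hc.eventually h2
  anM t ht l := by
    have h1 := c.anM _ (c.shift_mem ht) l
    have h2 : AnalyticAt ℂ (fun u : ℂ => (fun u => l (cls (c.pt u) (c.z - algebraMap ℂ F u)⁻¹))
        (s + u)) t := h1.comp_of_eq (by fun_prop) rfl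
    refine h2.congr (Eventually.of_forall fun u => ?_)
    simp only [map_add, sub_sub]

@[simp] theorem shift_pt (s : ℂ) (hs : s ∈ ball (0 : ℂ) c.r) (u : ℂ) :
    (c.shift s hs).pt u = c.pt (s + u) := rfl

@[simp] theorem shift_z (s : ℂ) (hs : s ∈ ball (0 : ℂ) c.r) :
    (c.shift s hs).z = c.z - algebraMap ℂ F s := rfl

@[simp] theorem shift_r (s : ℂ) (hs : s ∈ ball (0 : ℂ) c.r) :
    (c.shift s hs).r = c.r - ‖s‖ := rfl

end Chart

end Fermat.Agent.S27C
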