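import Mathlib

/-!
# Analytic branches of a plane curve at a smooth point
-/

set_option autoImplicit false

noncomputable section

open Polynomial Metric Filter
open scoped Topology ContDiff

namespace Fermat.Agent.S27C

variable {E : Type*} [NormedAddCommGroup E] [NormedSpace ℂ E]

theorem analyticAt_eval (p : ℂ[X]) {a : E → ℂ} {x : E} (ha : AnalyticAt ℂ a x) :
    AnalyticAt ℂ (fun s => p.eval (a s)) x := by
  have := ha.aeval_polynomial p
  simpa [Polynomial.aeval_def, Polynomial.eval₂_eq_eval_map] using this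

theorem analyticAt_evalEval (P : ℂ[X][X]) {a b : E → ℂ} {x : E} (ha : AnalyticAt ℂ a x)
    (hb : AnalyticAt ℂ b x) :
    AnalyticAt ℂ (fun s => P.evalEval (a s) (b s)) x := by
  induction P using Polynomial.induction_on' with
  | add p q hp hq =>
    simp only [evalEval_add]
    exact hp.add hq
  | monomial n c =>
    simp only [← C_mul_X_pow_eq_monomial, evalEval_mul, evalEval_pow, evalEval_C, evalEval_X]
    exact (analyticAt_eval c ha).mul (hb.pow n)

theorem hasDerivAt_evalEval_right (P : ℂ[X][X]) (t w : ℂ) :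
    HasDerivAt (fun w => P.evalEval t w) (P.derivative.evalEval t w) w := by
  induction P using Polynomial.induction_on' with
  | add p q hp hq =>
    simp only [evalEval_add, derivative_add]
    exact hp.add hq
  | monomial n c =>
    simp only [← C_mul_X_pow_eq_monomial, evalEval_mul, evalEval_pow, evalEval_C, evalEval_X,
      derivative_mul, derivative_C, derivative_X_pow, zero_mul, zero_add]
    rw [show eval t (n : ℂ[X]) = n by simp]
    exact (hasDerivAt_pow n w).const_mul (c.eval t)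

theorem exists_implicit (P : ℂ[X][X]) (h0 : P.evalEval 0 0 = 0)
    (hd : P.derivative.evalEval 0 0 ≠ 0) :
    ∃ (Y : ℂ → ℂ) (r : ℝ), 0 < r ∧ Y 0 = 0 ∧
      (∀ t ∈ ball (0 : ℂ) r, AnalyticAt ℂ Y t) ∧
      (∀ t ∈ ball (0 : ℂ) r, P.evalEval t (Y t) = 0) ∧
      (∀ t ∈ ball (0 : ℂ) r, P.derivative.evalEval t (Y t) ≠ 0) ∧
      ∃ δ : ℝ, 0 < δ ∧ ∀ t w : ℂ, ‖t‖ < δ → ‖w‖ < δ → P.evalEval t w = 0 → w = Y t := by
  let G : ℂ × ℂ → ℂ := fun x => P.evalEval x.1 x.2
  have hGan : AnalyticAt ℂ G ((0 : ℂ), (0 : ℂ)) :=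
    analyticAt_evalEval P analyticAt_fst analyticAt_snd
  have hG : ContDiffAt ℂ ω G ((0 : ℂ), (0 : ℂ)) := hGan.contDiffAt
  have hG0 : G ((0 : ℂ), (0 : ℂ)) = 0 := h0
  have hGd : HasFDerivAt G (fderiv ℂ G ((0 : ℂ), (0 : ℂ))) ((0 : ℂ), (0 : ℂ)) :=
    hGan.differentiableAt.hasFDerivAt
  have h1 : (fderiv ℂ G ((0 : ℂ), (0 : ℂ)) ∘L .inr ℂ ℂ ℂ) 1 = P.derivative.evalEval 0 0 := by
    have h2 : HasFDerivAt (fun w : ℂ => ((0 : ℂ), w)) (ContinuousLinearMap.inr ℂ ℂ ℂ) 0 :=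
      hasFDerivAt_prodMk_right (0 : ℂ) (0 : ℂ)
    have h3 : HasFDerivAt (fun w : ℂ => G ((0 : ℂ), w))
      (fderiv ℂ G ((0 : ℂ), (0 : ℂ)) ∘L .inr ℂ ℂ ℂ) 0 :=
      HasFDerivAt.comp (g := G) (f := fun w : ℂ => ((0 : ℂ), w)) (0 : ℂ) hGd h2
    have h4 : HasDerivAt (fun w : ℂ => G ((0 : ℂ), w)) (P.derivative.evalEval 0 0) 0 :=
      hasDerivAt_evalEval_right P 0 0
    exact h3.hasDerivAt.unique h4
  have hinv : (fderiv ℂ G ((0 : ℂ), (0 : ℂ)) ∘L .inr ℂ ℂ ℂ).IsInvertible := by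
    refine ⟨ContinuousLinearEquiv.unitsEquivAut ℂ (Units.mk0 _ hd), ?_⟩
    ext
    rw [h1]
    simp
  set Y : ℂ → ℂ := hG.implicitFunction (by simp) hinv with hY
  have hYan : AnalyticAt ℂ Y 0 := (hG.contDiffAt_implicitFunction (by simp) hinv).analyticAt
  have hY0 : Y 0 = 0 := hG.implicitFunction_apply_self (by simp) hinv
  have e1 : ∀ᶠ t in 𝓝 (0 : ℂ), P.evalEval t (Y t) = 0 := by
    have := hG.eventually_apply_implicitFunction (by simp) hinv
    rw [hG0] at this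
    exact this
  have e2 := hG.eventually_apply_eq_iff_implicitFunction (by simp) hinv
  rw [hG0] at e2
  have e3 : ∀ᶠ t in 𝓝 (0 : ℂ), P.derivative.evalEval t (Y t) ≠ 0 := by
    have hc : ContinuousAt (fun t => P.derivative.evalEval t (Y t)) 0 :=
      (analyticAt_evalEval P.derivative analyticAt_id hYan).continuousAt
    apply hc.eventually_ne
    rw [hY0]
    exact hd
  obtain ⟨r, hr, H⟩ := Metric.eventually_nhds_iff_ball.1
    ((hYan.eventually_analyticAt.and e1).and e3)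
  refine ⟨Y, r, hr, hY0, fun t ht => (H t ht).1.1, fun t ht => (H t ht).1.2,
    fun t ht => (H t ht).2, ?_⟩
  obtain ⟨δ, hδ, H2⟩ := Metric.eventually_nhds_iff_ball.1 e2
  refine ⟨δ, hδ, fun t w ht hw hP => ?_⟩
  have hmem : ((t, w) : ℂ × ℂ) ∈ ball ((0 : ℂ), (0 : ℂ)) δ := by
    rw [mem_ball, Prod.dist_eq, dist_zero_right, dist_zero_right]
    exact max_lt ht hw
  exact ((H2 _ hmem).1 hP).symm

end Fermat.Agent.S27C
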