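import Mathlib
import Fermat.Agent.S27C.Chart

/-!
# Zeros of `1 + x θ` for small `x`
-/

set_option autoImplicit false

noncomputable section

open AlgebraicCurve Filter Metric
open scoped Topology

namespace Fermat.Agent.S27C

section Divisors

variable {K F : Type*} [Field K] [Field F] [Algebra K F] [IsAlgClosed K] [IsCurveOver K F]

theorem degree_eq_sum (D : Divisor K F) : Divisor.degree D = D.sum fun _ n => n := by
  unfold Divisor.degree
  rw [Finsupp.liftAddHom_apply]
  refine Finsupp.sum_congr fun v _ => ?_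
  rw [AddMonoidHom.coe_mulRight, IsCurveOver.deg_eq_one_of_isAlgClosed v]
  simp

theorem degree_single' (v : Place K F) (n : ℤ) :
    Divisor.degree (Finsupp.single v n : Divisor K F) = n := by
  rw [Divisor.degree_single, IsCurveOver.deg_eq_one_of_isAlgClosed v]
  simp

theorem eq_zero_of_degree_zero {D : Divisor K F} (h0 : ∀ v, 0 ≤ D v)
    (hdeg : Divisor.degree D = 0) : D = 0 := by
  rw [degree_eq_sum, Finsupp.sum] at hdeg
  have h := (Finset.sum_eq_zero_iff_of_nonneg (fun v _ => h0 v)).1 hdeg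
  ext v
  by_contra hv
  exact hv (h v (Finsupp.mem_support_iff.2 hv))

theorem isPrincipal_of_le {D : Divisor K F} (hD : Divisor.degree D = 0) {f : F} (hf : f ≠ 0)
    (h : ∀ v : Place K F, D v ≤ v.ord f) : Divisor.IsPrincipal D := by
  obtain ⟨E, hE, hE0⟩ := HasPrincipalDivisors.exists_divisor (K := K) f hf
  have h1 : E - D = 0 := by
    apply eq_zero_of_degree_zero
    · intro v
      rw [Finsupp.sub_apply, hE v]
      linarith [h v]
    · rw [map_sub, hE0, hD, sub_zero]
  have h2 : D = E := (sub_eq_zero.1 h1).symm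
  refine ⟨f, hf, fun v => ?_⟩
  rw [h2, hE v]

end Divisors

section RootCurve

/-- Root of `u + x k(u) = 0` near zero. -/
theorem exists_root_curve (k : ℂ → ℂ) (hk : AnalyticAt ℂ k 0) :
    ∃ ψ : ℂ → ℂ, ψ 0 = 0 ∧ HasStrictDerivAt ψ (-(k 0)) 0 ∧
      (∀ᶠ x : ℂ × ℂ in 𝓝 (0, 0), (x.2 + x.1 * k x.2 = 0 ↔ ψ x.1 = x.2)) ∧
      ∀ᶠ x in 𝓝 (0 : ℂ), ψ x + x * k (ψ x) = 0 := by
  let G : ℂ × ℂ → ℂ := fun x => x.2 + x.1 * k x.2
  let G' : ℂ × ℂ →L[ℂ] ℂ := ContinuousLinearMap.snd ℂ ℂ ℂ + (k 0) • ContinuousLinearMap.fst ℂ ℂ ℂ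
  have hG : HasStrictFDerivAt G G' ((0 : ℂ), (0 : ℂ)) := by
    have h1 : HasStrictDerivAt k (deriv k 0) 0 := hk.hasStrictDerivAt
    have h2 : HasStrictFDerivAt (fun x : ℂ × ℂ => k x.2)
        ((deriv k 0) • ContinuousLinearMap.snd ℂ ℂ ℂ) ((0 : ℂ), (0 : ℂ)) :=
      h1.comp_hasStrictFDerivAt (x := ((0 : ℂ), (0 : ℂ))) (f := Prod.snd) hasStrictFDerivAt_snd
    have h3 : HasStrictFDerivAt (fun x : ℂ × ℂ => x.1 * k x.2) _ ((0 : ℂ), (0 : ℂ)) :=
      (hasStrictFDerivAt_fst (𝕜 := ℂ) (E := ℂ) (F := ℂ)).mul h2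
    have h4 := (hasStrictFDerivAt_snd (𝕜 := ℂ) (E := ℂ) (F := ℂ) (p := ((0 : ℂ), (0 : ℂ)))).add h3
    refine h4.congr_fderiv ?_
    ext <;> simp [G']
  have hinv : (G' ∘L .inr ℂ ℂ ℂ).IsInvertible := by
    have : G' ∘L .inr ℂ ℂ ℂ = ContinuousLinearMap.id ℂ ℂ := by
      ext; simp [G']
    rw [this]
    exact ⟨ContinuousLinearEquiv.refl ℂ ℂ, rfl⟩
  have hG0 : G (0, 0) = 0 := by simp [G]
  set ψ := hG.implicitFunctionOfProdDomain hinv with hψ
  have h5 := hG.eventually_apply_eq_iff_implicitFunctionOfProdDomain hinv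
  rw [hG0] at h5
  have h6 : ψ 0 = 0 := h5.self_of_nhds.1 hG0
  have h7 := hG.hasStrictFDerivAt_implicitFunctionOfProdDomain hinv
  refine ⟨ψ, h6, ?_, h5, ?_⟩
  · have h8 : HasStrictDerivAt ψ _ (0 : ℂ) := h7.hasStrictDerivAt
    refine h8.congr_deriv ?_
    have h9 : G' ∘L .inr ℂ ℂ ℂ = ContinuousLinearMap.id ℂ ℂ := by
      ext; simp [G']
    rw [h9]
    simp [G']
  · have h10 := hG.eventually_apply_implicitFunctionOfProdDomain hinv
    rw [hG0] at h10
    exact h10

end RootCurve

section Pencil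

variable {F : Type*} [Field F] [Algebra ℂ F] [IsCurveOver ℂ F]

/-- The divisor `∑ (pt_i (u_i) - b_i)`. -/
def moveDiv {ι : Type*} [Fintype ι] (a b : ι → Place ℂ F) : Divisor ℂ F :=
  ∑ i, (Finsupp.single (a i) 1 - Finsupp.single (b i) 1)

theorem degree_moveDiv {ι : Type*} [Fintype ι] (a b : ι → Place ℂ F) :
    Divisor.degree (moveDiv a b) = 0 := by
  unfold moveDiv
  rw [map_sum]
  apply Finset.sum_eq_zero
  intro i _
  rw [map_sub, degree_single', degree_single', sub_self]

open Classical in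
omit [IsCurveOver ℂ F] in
theorem moveDiv_apply {ι : Type*} [Fintype ι] (a b : ι → Place ℂ F) (v : Place ℂ F) :
    moveDiv a b v = ∑ i, ((if a i = v then (1 : ℤ) else 0) - (if b i = v then 1 else 0)) := by
  unfold moveDiv
  rw [Finsupp.finsetSum_apply]
  refine Finset.sum_congr rfl fun i _ => ?_
  rw [Finsupp.sub_apply, Finsupp.single_apply, Finsupp.single_apply]

/-- The pencil lemma. -/
theorem pencil {ι : Type*} [Fintype ι] (b : ι → Place ℂ F) (hb : Function.Injective b)
    (c : ∀ i, Chart (b i)) (w : ι → ℂ) (θ : F)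
    (hθ : ∀ i, θ - algebraMap ℂ F (w i) * (c i).z⁻¹ ∈ (b i).toValuationSubring)
    (hθ' : ∀ v : Place ℂ F, (∀ i, b i ≠ v) → θ ∈ v.toValuationSubring) :
    ∃ ψ : ι → ℂ → ℂ, (∀ i, ψ i 0 = 0) ∧ (∀ i, HasStrictDerivAt (ψ i) (-(w i)) 0) ∧
      ∀ᶠ x in 𝓝 (0 : ℂ), Divisor.IsPrincipal (moveDiv (fun i => (c i).pt (ψ i x)) b) := by
  classical
  -- the functions `z_i θ`
  have hz0 : ∀ i, (c i).z ≠ 0 := fun i => (c i).z_ne_zero
  have hzθ : ∀ i, (c i).z * θ ∈ (b i).toValuationSubring := by
    intro i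
    have h1 : (c i).z * θ = (c i).z * (θ - algebraMap ℂ F (w i) * (c i).z⁻¹) +
        algebraMap ℂ F (w i) := by
      have := hz0 i
      field_simp
      ring
    rw [h1]
    exact add_mem (mul_mem (c i).z_mem_zero (hθ i)) (mem_algebraMap _ _)
  have hzθval : ∀ i, val (b i) ((c i).z * θ) = w i := by
    intro i
    have h1 : (c i).z * θ = (c i).z * (θ - algebraMap ℂ F (w i) * (c i).z⁻¹) +
        algebraMap ℂ F (w i) := by
      have := hz0 i
      field_simp
      ring
    rw [h1, val_add _ (mul_mem (c i).z_mem_zero (hθ i)) (mem_algebraMap _ _),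
      val_mul _ (c i).z_mem_zero (hθ i), (c i).z_val_zero, zero_mul, zero_add, val_algebraMap]
  let k : ι → ℂ → ℂ := fun i u => val ((c i).pt u) ((c i).z * θ)
  have hk0 : ∀ i, k i 0 = w i := by
    intro i
    change val ((c i).pt 0) ((c i).z * θ) = w i
    rw [(c i).pt_zero, hzθval]
  have hkan : ∀ i, AnalyticAt ℂ (k i) 0 := fun i => ((c i).an_zero (hzθ i)).1
  choose ψ hψ0 hψd _ hψ using fun i => exists_root_curve (k i) (hkan i)
  refine ⟨ψ, hψ0, fun i => by rw [← hk0 i]; exact hψd i, ?_⟩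
  -- smallness conditions
  obtain ⟨δ, hδ, hsep⟩ : ∃ δ : ℝ, 0 < δ ∧ ∀ i j, i ≠ j → ∀ t ∈ ball (0 : ℂ) δ,
      ∀ t' ∈ ball (0 : ℂ) δ, (c i).pt t ≠ (c j).pt t' := by
    have h1 : ∀ p : ι × ι, ∃ δ : ℝ, 0 < δ ∧ (p.1 ≠ p.2 → ∀ t ∈ ball (0 : ℂ) δ,
        ∀ t' ∈ ball (0 : ℂ) δ, (c p.1).pt t ≠ (c p.2).pt t') := by
      rintro ⟨i, j⟩
      by_cases hij : i = j
      · exact ⟨1, one_pos, fun h => absurd hij h⟩
      · obtain ⟨δ, hδ, h⟩ := (c i).separated (c j) (fun h => hij (hb h))
        exact ⟨δ, hδ, fun _ => h⟩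
    choose δ hδ h2 using h1
    have hne : Finite (ι × ι) := inferInstance
    obtain ⟨δ0, hδ0, hle⟩ : ∃ δ0 : ℝ, 0 < δ0 ∧ ∀ p, δ0 ≤ δ p := by
      rcases isEmpty_or_nonempty (ι × ι) with he | he
      · exact ⟨1, one_pos, fun p => (he.false p).elim⟩
      · obtain ⟨p0, hp0⟩ := Finite.exists_min δ
        exact ⟨δ p0, hδ p0, hp0⟩
    refine ⟨δ0, hδ0, fun i j hij t ht t' ht' => ?_⟩
    exact h2 (i, j) hij t (ball_subset_ball (hle _) ht) t' (ball_subset_ball (hle _) ht')
  have ev1 : ∀ i, ∀ᶠ x in 𝓝 (0 : ℂ), ψ i x ∈ ball (0 : ℂ) δ := by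
    intro i
    have hc : ContinuousAt (ψ i) 0 := (hψd i).hasDerivAt.continuousAt
    apply hc.eventually
    rw [hψ0 i]
    exact ball_mem_nhds _ hδ
  have ev2 : ∀ i, ∀ᶠ x in 𝓝 (0 : ℂ), ψ i x ∈ ball (0 : ℂ) (c i).r := by
    intro i
    have hc : ContinuousAt (ψ i) 0 := (hψd i).hasDerivAt.continuousAt
    apply hc.eventually
    rw [hψ0 i]
    exact (c i).ball_mem
  have ev3 : ∀ i, ∀ᶠ x in 𝓝 (0 : ℂ), (c i).z * θ ∈ ((c i).pt (ψ i x)).toValuationSubring := by
    intro i
    have hc : Tendsto (ψ i) (𝓝 0) (𝓝 0) := by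
      have := (hψd i).hasDerivAt.continuousAt.tendsto
      rwa [hψ0 i] at this
    exact hc.eventually ((c i).an_zero (hzθ i)).2
  have ev4 : ∀ᶠ x in 𝓝 (0 : ℂ), 1 + algebraMap ℂ F x * θ ≠ 0 := by
    by_cases hconst : ∃ d : ℂ, θ = algebraMap ℂ F d
    · obtain ⟨d, rfl⟩ := hconst
      have hc : ContinuousAt (fun x : ℂ => 1 + x * d) 0 := by fun_prop
      have h1 : (fun x : ℂ => 1 + x * d) 0 ≠ 0 := by simp
      filter_upwards [hc.eventually_ne h1] with x hx
      rw [← map_mul, ← map_one (algebraMap ℂ F), ← map_add]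
      rwa [Ne, _root_.map_eq_zero]
    · refine Eventually.of_forall fun x h => hconst ?_
      have hx : x ≠ 0 := by
        rintro rfl
        rw [map_zero, zero_mul, add_zero] at h
        exact one_ne_zero h
      refine ⟨-x⁻¹, ?_⟩
      have hx' : algebraMap ℂ F x ≠ 0 := by rwa [Ne, _root_.map_eq_zero]
      rw [map_neg, map_inv₀]
      field_simp
      linear_combination h
  have ev1' := eventually_all.2 ev1
  have ev2' := eventually_all.2 ev2
  have ev3' := eventually_all.2 ev3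
  have ev5 := eventually_all.2 hψ
  filter_upwards [ev1', ev2', ev3', ev4, ev5] with x h1 h2 h3 h4 h5
  by_cases hx : x = 0
  · subst hx
    have : moveDiv (fun i => (c i).pt (ψ i 0)) b = 0 := by
      unfold moveDiv
      apply Finset.sum_eq_zero
      intro i _
      simp only [hψ0 i, (c i).pt_zero, sub_self]
    rw [this]
    exact (Divisor.principal (K := ℂ) (F := F)).zero_mem
  apply isPrincipal_of_le (degree_moveDiv _ _) h4
  intro v
  rw [moveDiv_apply]
  set f : F := 1 + algebraMap ℂ F x * θ with hf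
  have hdel0 : (0 : ℂ) ∈ ball (0 : ℂ) δ := mem_ball_self hδ
  have hab : ∀ i j, i ≠ j → (c i).pt (ψ i x) ≠ b j := by
    intro i j hij
    have := hsep i j hij _ (h1 i) 0 hdel0
    rwa [(c j).pt_zero] at this
  have haa : ∀ i j, i ≠ j → (c i).pt (ψ i x) ≠ (c j).pt (ψ j x) := fun i j hij =>
    hsep i j hij _ (h1 i) _ (h1 j)
  by_cases hvb : ∃ i, b i = v
  · obtain ⟨i, rfl⟩ := hvb
    rw [Finset.sum_eq_single i]
    · rw [if_pos rfl]
      by_cases hu : ψ i x = 0
      · rw [hu, if_pos (c i).pt_zero, sub_self]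
        have hw : w i = 0 := by
          have := h5 i
          rw [hu, zero_add, hk0 i] at this
          exact (mul_eq_zero.1 this).resolve_left hx
        have hθi : θ ∈ (b i).toValuationSubring := by
          have := hθ i
          rw [hw, map_zero, zero_mul, sub_zero] at this
          exact this
        have hfi : f ∈ (b i).toValuationSubring :=
          add_mem (one_mem _) (mul_mem (mem_algebraMap _ _) hθi)
        exact ((mem_iff_ord _ _).1 hfi).resolve_left h4
      · have hne : (c i).pt (ψ i x) ≠ b i := by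
          intro heq
          apply hu
          have h6 := (c i).z_val _ (h2 i)
          rw [heq, (c i).z_val_zero] at h6
          exact h6.symm
        rw [if_neg hne, zero_sub]
        have h7 : (c i).z * f ∈ (b i).toValuationSubring := by
          have : (c i).z * f = (c i).z + algebraMap ℂ F x * ((c i).z * θ) := by
            rw [hf]; ring
          rw [this]
          exact add_mem (c i).z_mem_zero (mul_mem (mem_algebraMap _ _) (hzθ i))
        have h8 := ((mem_iff_ord _ _).1 h7).resolve_left (mul_ne_zero (hz0 i) h4)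
        rw [(b i).ord_mul (hz0 i) h4, (c i).ord_z_zero] at h8
        linarith
    · intro j _ hj
      rw [if_neg (hab j i hj), if_neg (fun h => hj (hb h)), sub_self]
    · intro h; exact absurd (Finset.mem_univ i) h
  · push Not at hvb
    have hθv : θ ∈ v.toValuationSubring := hθ' v hvb
    have hfv : f ∈ v.toValuationSubring :=
      add_mem (one_mem _) (mul_mem (mem_algebraMap _ _) hθv)
    by_cases hva : ∃ i, (c i).pt (ψ i x) = v
    · obtain ⟨i, hi⟩ := hva
      rw [Finset.sum_eq_single i]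
      · rw [if_pos hi, if_neg (hvb i), sub_zero]
        have hu : ψ i x ≠ 0 := by
          intro hu
          rw [hu, (c i).pt_zero] at hi
          exact hvb i hi
        have hzv : (c i).z ∈ v.toValuationSubring := by rw [← hi]; exact (c i).z_mem _ (h2 i)
        have hzval : val v (c i).z = ψ i x := by rw [← hi]; exact (c i).z_val _ (h2 i)
        have h7 : (c i).z * f = (c i).z + algebraMap ℂ F x * ((c i).z * θ) := by
          rw [hf]; ring
        have h8 : (c i).z * θ ∈ v.toValuationSubring := mul_mem hzv hθv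
        have h9 : val v ((c i).z * f) = 0 := by
          rw [h7, val_add v hzv (mul_mem (mem_algebraMap _ _) h8),
            val_mul v (mem_algebraMap _ _) h8, val_algebraMap, hzval]
          have := h5 i
          change ψ i x + x * val ((c i).pt (ψ i x)) ((c i).z * θ) = 0 at this
          rwa [hi] at this
        have h10 : val v f = 0 := by
          rw [val_mul v hzv hfv, hzval] at h9
          exact (mul_eq_zero.1 h9).resolve_left hu
        have h11 := ((val_eq_zero_iff_ord v hfv).1 h10).resolve_left h4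
        omega
      · intro j _ hj
        rw [if_neg, if_neg (hvb j), sub_self]
        rw [← hi]
        exact haa j i hj
      · intro h; exact absurd (Finset.mem_univ i) h
    · push Not at hva
      rw [Finset.sum_eq_zero]
      · exact ((mem_iff_ord _ _).1 hfv).resolve_left h4
      · intro i _
        rw [if_neg (hva i), if_neg (hvb i), sub_self]

end Pencil

end Fermat.Agent.S27C
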