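import Mathlib
import Fermat.Agent.S27C.Pencil

/-!
# Classes `[P] - [Q]` and the infinitesimal moving lemma
-/

set_option autoImplicit false

noncomputable section

open AlgebraicCurve Filter Metric
open scoped Topology

namespace Fermat.Agent.S27C

section PC

variable {K F : Type*} [Field K] [Field F] [Algebra K F] [IsAlgClosed K] [IsCurveOver K F]

theorem pic0_mk_eq_zero_iff (D : Divisor.degZero (K := K) (F := F)) :
    Pic0.mk D = 0 ↔ Divisor.IsPrincipal (D : Divisor K F) := by
  unfold Pic0.mk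
  rw [QuotientAddGroup.eq_zero_iff, AddSubgroup.mem_addSubgroupOf]
  rfl

theorem single_sub_mem (P Q : Place K F) :
    (Finsupp.single P 1 - Finsupp.single Q 1 : Divisor K F) ∈ Divisor.degZero (K := K) (F := F) := by
  rw [Divisor.mem_degZero, map_sub, degree_single', degree_single', sub_self]

/-- The class of `P - Q`. -/
def pc (P Q : Place K F) : Pic0 K F :=
  Pic0.mk ⟨Finsupp.single P 1 - Finsupp.single Q 1, single_sub_mem P Q⟩

theorem pc_add (P Q R : Place K F) : pc P Q + pc Q R = pc P R := by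
  unfold pc
  rw [← Pic0.mk_add]
  congr 1
  apply Subtype.ext
  change (Finsupp.single P 1 - Finsupp.single Q 1 : Divisor K F) +
    (Finsupp.single Q 1 - Finsupp.single R 1) = Finsupp.single P 1 - Finsupp.single R 1
  abel

@[simp]
theorem pc_self (P : Place K F) : pc P P = 0 := by
  have := pc_add P P P
  simpa using this

theorem pc_neg (P Q : Place K F) : -pc P Q = pc Q P := by
  rw [neg_eq_iff_add_eq_zero, pc_add, pc_self]

theorem sum_pc_eq {ι : Type*} (s : Finset ι) (a b : ι → Place K F)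
    (h : (∑ i ∈ s, (Finsupp.single (a i) 1 - Finsupp.single (b i) 1) : Divisor K F) ∈
      Divisor.degZero (K := K) (F := F)) :
    ∑ i ∈ s, pc (a i) (b i) = Pic0.mk ⟨_, h⟩ := by
  classical
  unfold pc
  have h1 : ∀ D : ι → Divisor.degZero (K := K) (F := F),
      ∑ i ∈ s, Pic0.mk (D i) = Pic0.mk (∑ i ∈ s, D i) := by
    intro D
    exact (map_sum (QuotientAddGroup.mk' _) D s).symm
  rw [h1]
  congr 1
  apply Subtype.ext
  rw [AddSubmonoidClass.coe_finsetSum]

end PC

section CPC

variable {F : Type*} [Field F] [Algebra ℂ F] [IsCurveOver ℂ F]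

theorem sum_pc_eq_zero_iff {ι : Type*} [Fintype ι] (a b : ι → Place ℂ F) :
    ∑ i, pc (a i) (b i) = 0 ↔ Divisor.IsPrincipal (moveDiv a b) := by
  rw [sum_pc_eq Finset.univ a b (Divisor.mem_degZero.2 (degree_moveDiv a b)),
    pic0_mk_eq_zero_iff]
  rfl

/-- Moving one point `Q` of a chart can be compensated by moving points `b i`, with prescribed
first order behaviour. -/
theorem step {ι : Type*} [Fintype ι] (b : ι → Place ℂ F) (hb : Function.Injective b)
    (c : ∀ i, Chart (b i)) {Q : Place ℂ F} (cQ : Chart Q) (hQ : ∀ i, b i ≠ Q) (w : ι → ℂ)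
    (hw : ∑ i, (w i) • cls (b i) (c i).z⁻¹ + cls Q cQ.z⁻¹ = 0) :
    ∃ u : ℂ → (ι → ℂ), u 0 = 0 ∧ HasDerivAt u w 0 ∧
      ∀ᶠ t in 𝓝 (0 : ℂ), ∑ i, pc ((c i).pt (u t i)) (b i) + pc (cQ.pt t) Q = 0 := by
  classical
  let b' : Option ι → Place ℂ F := fun o => o.elim Q b
  have hb' : Function.Injective b' := by
    rintro (_ | i) (_ | j) h
    · rfl
    · exact absurd h.symm (hQ j)
    · exact absurd h (hQ i)
    · exact congrArg some (hb h)
  let c' : ∀ o, Chart (b' o) := fun o => match o with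
    | none => cQ
    | some i => c i
  let w' : Option ι → ℂ := fun o => o.elim 1 w
  have hsum : ∑ o, cls (b' o) (algebraMap ℂ F (w' o) * (c' o).z⁻¹) = 0 := by
    rw [Fintype.sum_option, add_comm]
    have h1 : ∀ (v : Place ℂ F) (d : ℂ) (f : F), cls v (algebraMap ℂ F d * f) = d • cls v f := by
      intro v d f
      rw [← Algebra.smul_def, map_smul]
    simp only [h1]
    have h2 : (w' none) = 1 := rfl
    rw [h2, one_smul]
    exact hw
  obtain ⟨θ, hθ, hθ'⟩ := exists_of_sum_cls_eq_zero' b' hb' _ hsum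
  obtain ⟨ψ, hψ0, hψd, hψ⟩ := pencil b' hb' c' w' θ hθ hθ'
  -- invert `ψ none`
  have hd : HasStrictDerivAt (ψ none) (-(1 : ℂ)) 0 := hψd none
  have hne : (-(1 : ℂ)) ≠ 0 := by norm_num
  set l := hd.localInverse (ψ none) (-1) 0 hne with hl
  have hld : HasStrictDerivAt l (-(1 : ℂ))⁻¹ (ψ none 0) := hd.to_localInverse hne
  rw [hψ0 none] at hld
  have hl0 : l 0 = 0 := by
    have h1 : l (ψ none 0) = 0 :=
      HasStrictFDerivAt.localInverse_apply_image
        (hd.hasStrictFDerivAt_equiv hne)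
    rwa [hψ0 none] at h1
  have hright : ∀ᶠ t in 𝓝 (0 : ℂ), ψ none (l t) = t := by
    have h1 := HasStrictFDerivAt.eventually_right_inverse
        (hd.hasStrictFDerivAt_equiv hne)
    rw [hψ0 none] at h1
    exact h1
  refine ⟨fun t i => ψ (some i) (l t), ?_, ?_, ?_⟩
  · funext i
    simp only [hl0, hψ0, Pi.zero_apply]
  · rw [hasDerivAt_pi]
    intro i
    have h1 : HasStrictDerivAt (ψ (some i)) (-(w i)) (l 0) := by
      rw [hl0]; exact hψd (some i)
    have h2 := (h1.comp (0 : ℂ) hld).hasDerivAt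
    refine h2.congr_deriv ?_
    norm_num
  · have hlt : Tendsto l (𝓝 0) (𝓝 0) := by
      have := hld.hasDerivAt.continuousAt.tendsto
      rwa [hl0] at this
    filter_upwards [hlt.eventually hψ, hright] with t h1 h2
    rw [← sum_pc_eq_zero_iff, Fintype.sum_option] at h1
    rw [add_comm]
    have h3 : (c' none).pt (ψ none (l t)) = cQ.pt t := by rw [h2]
    rw [h3] at h1
    exact h1

end CPC

end Fermat.Agent.S27C
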