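import Mathlib
import Fermat.Agent.S27C.Step
import Fermat.Agent.FunField.RR

/-!
# Strong approximation and local coordinates
-/

set_option autoImplicit false

noncomputable section

open AlgebraicCurve Polynomial
open Fermat.Agent.FunField (IsFF)

namespace Fermat.Agent.S27C

variable {K F : Type*} [Field K] [Field F] [Algebra K F] [IsAlgClosed K] [IsCurveOver K F]
  [IsFF K F]

omit [IsAlgClosed K] [IsCurveOver K F] [IsFF K F] in
theorem mem_repartitionsOf {D : Divisor K F} {α : repartitions K F} :
    α ∈ repartitionsOf D ↔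
      ∀ v : Place K F, v.adicValuation ((α : Place K F → F) v) ≤ WithZero.exp (D v) :=
  Iff.rfl

omit [IsAlgClosed K] [IsCurveOver K F] [IsFF K F] in
/-- If `H1 D` vanishes then every repartition is a global function up to `A(D)`. -/
theorem exists_global {D : Divisor K F} (hD : Subsingleton (H1 D)) (α : repartitions K F) :
    ∃ f : F, ∀ v : Place K F, (α : Place K F → F) v - f = 0 ∨
      -(D v) ≤ v.ord ((α : Place K F → F) v - f) := by
  have h : (Submodule.Quotient.mk α : H1 D) = 0 := Subsingleton.elim _ _
  rw [Submodule.Quotient.mk_eq_zero, Submodule.mem_sup] at h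
  obtain ⟨β, hβ, γ, hγ, hsum⟩ := h
  rw [mem_principalRepartitions_iff] at hγ
  obtain ⟨f, hf⟩ := hγ
  refine ⟨f, fun v => ?_⟩
  have h1 : (α : Place K F → F) v - f = (β : Place K F → F) v := by
    rw [← hsum]
    change (β : Place K F → F) v + (γ : Place K F → F) v - f = _
    rw [hf]
    ring
  rw [h1, ← v.adicValuation_le_exp_iff]
  exact hβ v

/-- Strong approximation. -/
theorem approx (P : Place K F) (S : Finset (Place K F)) (hP : P ∉ S) (a : Place K F → F)
    (n : ℕ) : ∃ f : F, (∀ v ∈ S, f - a v = 0 ∨ (n : ℤ) ≤ v.ord (f - a v)) ∧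
      ∀ v, v ∉ S → v ≠ P → f ∈ v.toValuationSubring := by
  classical
  obtain ⟨N, hN⟩ := FunField.exists_h1_vanishing (K := K) (F := F)
  let m : ℕ := (N + n * S.card).toNat
  let D : Divisor K F := Finsupp.single P (m : ℤ) - ∑ v ∈ S, Finsupp.single v (n : ℤ)
  have hdeg : N ≤ Divisor.degree D := by
    simp only [D, map_sub, map_sum, degree_single', Finset.sum_const, nsmul_eq_mul]
    have := Int.self_le_toNat (N + n * S.card)
    change N + n * S.card ≤ (m : ℤ) at this
    linarith
  obtain ⟨f, hf⟩ := exists_global (hN D hdeg) (∑ v ∈ S, singleRep v (a v))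
  have hDv : ∀ v, D v = (if P = v then (m : ℤ) else 0) - (if v ∈ S then (n : ℤ) else 0) := by
    intro v
    simp only [D]
    rw [Finsupp.sub_apply, Finsupp.single_apply, Finsupp.finsetSum_apply]
    congr 1
    simp only [Finsupp.single_apply]
    rw [Finset.sum_ite_eq' S v]
  refine ⟨f, fun v hv => ?_, fun v hv hvP => ?_⟩
  · have h1 := hf v
    rw [coe_sum_singleRep S a v, if_pos hv, hDv v, if_pos hv,
      if_neg (fun h : P = v => hP (h ▸ hv))] at h1
    have h2 : f - a v = -(a v - f) := by ring
    rw [h2]
    rcases h1 with h1 | h1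
    · left; rw [h1, neg_zero]
    · right
      rw [FunField.PlaceLemmas.ord_neg]
      linarith
  · have h1 := hf v
    rw [coe_sum_singleRep S a v, if_neg hv, hDv v, if_neg hv, if_neg (Ne.symm hvP), sub_zero,
      neg_zero] at h1
    rw [← mem_iff_ord, zero_sub] at h1
    simpa using v.toValuationSubring.neg_mem _ h1

/-- Functions regular outside `P`. -/
def affRing (P : Place K F) : Subalgebra K F where
  carrier := {f | ∀ v : Place K F, v ≠ P → f ∈ v.toValuationSubring}
  mul_mem' := fun ha hb v hv => mul_mem (ha v hv) (hb v hv)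
  one_mem' := fun _ _ => one_mem _
  add_mem' := fun ha hb v hv => add_mem (ha v hv) (hb v hv)
  zero_mem' := fun _ _ => zero_mem _
  algebraMap_mem' := fun r v _ => v.algebraMap_mem' r

omit [IsAlgClosed K] [IsCurveOver K F] [IsFF K F] in
theorem mem_affRing {P : Place K F} {f : F} :
    f ∈ affRing P ↔ ∀ v : Place K F, v ≠ P → f ∈ v.toValuationSubring := Iff.rfl

theorem exists_exact_pole (P : Place K F) : ∃ M0 : ℕ, ∀ m : ℕ, M0 ≤ m →
    ∃ f ∈ affRing P, f ≠ 0 ∧ P.ord f = -(m : ℤ) := by
  classical
  obtain ⟨N, hN⟩ := FunField.exists_h1_vanishing (K := K) (F := F)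
  refine ⟨N.toNat + 1, fun m hm => ?_⟩
  let D : Divisor K F := Finsupp.single P ((m : ℤ) - 1)
  have hdeg : N ≤ Divisor.degree D := by
    simp only [D, degree_single']
    have := Int.self_le_toNat N
    have : ((N.toNat + 1 : ℕ) : ℤ) ≤ m := by exact_mod_cast hm
    push_cast at this
    linarith
  obtain ⟨g, hg0, hg⟩ := FunField.PlaceLemmas.exists_ord_eq P (-(m : ℤ))
  obtain ⟨f, hf⟩ := exists_global (hN D hdeg) (singleRep P g)
  have hfP := hf P
  rw [singleRep_same] at hfP
  have hDP : D P = (m : ℤ) - 1 := by simp [D]
  rw [hDP] at hfP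
  have hlt : g - f = 0 ∨ P.ord g < P.ord (g - f) := by
    rcases hfP with h | h
    · exact Or.inl h
    · right; rw [hg]; linarith
  have hford : P.ord f = -(m : ℤ) := by
    have h1 : f = g + -(g - f) := by ring
    have h2 : -(g - f) = 0 ∨ P.ord g < P.ord (-(g - f)) := by
      rw [neg_eq_zero, FunField.PlaceLemmas.ord_neg]
      exact hlt
    rw [h1, FunField.PlaceLemmas.ord_add_eq_of_lt P hg0 h2, hg]
  refine ⟨f, ?_, ?_, hford⟩
  · intro v hv
    have h1 := hf v
    have hDv : D v = 0 := by
      simp only [D]
      rw [Finsupp.single_apply, if_neg (Ne.symm hv)]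
    rw [singleRep_ne hv, hDv, neg_zero, ← mem_iff_ord, zero_sub] at h1
    simpa using v.toValuationSubring.neg_mem _ h1
  · rintro rfl
    rw [Place.ord_zero] at hford
    have : (1 : ℤ) ≤ m := by
      have : 1 ≤ m := le_trans (by omega) hm
      exact_mod_cast this
    linarith

/-- Finite generation of the affine ring over any subalgebra containing a nonconstant element. -/
theorem affRing_fg (P : Place K F) {z : F} (hz : z ∈ affRing P) (hzP : P.ord z < 0) :
    ∃ G : Set F, G.Finite ∧ G ⊆ affRing P ∧ ∀ A : Subalgebra K F, z ∈ A →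
      ∀ f ∈ affRing P, f ∈ Submodule.span A G := by
  classical
  obtain ⟨M0, hM0⟩ := exists_exact_pole P
  have hz0 : z ≠ 0 := by rintro rfl; simp at hzP
  set n : ℕ := (-(P.ord z)).toNat with hn
  have hnz : (n : ℤ) = -(P.ord z) := Int.toNat_of_nonneg (by linarith)
  have hnpos : 0 < n := by
    have : (0 : ℤ) < n := by rw [hnz]; linarith
    exact_mod_cast this
  set M : ℕ := M0 + n with hM
  let D : Divisor K F := Finsupp.single P (M : ℤ)
  have hfin : Module.Finite K (riemannRochSpace D) := inferInstance
  obtain ⟨G, hG⟩ := (Submodule.fg_iff_finiteDimensional (riemannRochSpace D)).2 hfin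
  have hGsub : (G : Set F) ⊆ riemannRochSpace D := by
    rw [← hG]; exact Submodule.subset_span
  refine ⟨(G : Set F), G.finite_toSet, ?_, ?_⟩
  · intro g hg v hv
    have h1 := hGsub hg
    rw [SetLike.mem_coe, mem_riemannRochSpace_iff] at h1
    have h2 := h1 v
    have hDv : D v = 0 := by
      simp only [D]
      rw [Finsupp.single_apply, if_neg (Ne.symm hv)]
    rw [hDv, neg_zero] at h2
    exact (mem_iff_ord v g).2 h2
  · intro A hzA
    have key : ∀ m : ℕ, ∀ f ∈ affRing P, (f = 0 ∨ -(m : ℤ) ≤ P.ord f) →
        f ∈ Submodule.span A (G : Set F) := by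
      intro m
      induction m using Nat.strong_induction_on with
      | _ m ih =>
        intro f hf hfm
        rcases eq_or_ne f 0 with rfl | hf0
        · exact Submodule.zero_mem _
        have hfm' := hfm.resolve_left hf0
        by_cases hmM : m ≤ M
        · -- `f` in the Riemann-Roch space
          have h1 : f ∈ riemannRochSpace D := by
            rw [mem_riemannRochSpace_iff]
            intro v
            right
            by_cases hv : v = P
            · subst hv
              simp only [D, Finsupp.single_eq_same]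
              have : (m : ℤ) ≤ M := by exact_mod_cast hmM
              linarith
            · have hDv : D v = 0 := by
                simp only [D]
                rw [Finsupp.single_apply, if_neg (Ne.symm hv)]
              rw [hDv, neg_zero]
              exact ((mem_iff_ord v f).1 (hf v hv)).resolve_left hf0
          rw [← hG] at h1
          have h2 : Submodule.span K (G : Set F) ≤
              (Submodule.span A (G : Set F)).restrictScalars K := by
            rw [Submodule.span_le]
            exact Submodule.subset_span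
          exact h2 h1
        · push Not at hmM
          by_cases hlt : -(m : ℤ) < P.ord f
          · refine ih (m - 1) (by omega) f hf (Or.inr ?_)
            have : ((m - 1 : ℕ) : ℤ) = (m : ℤ) - 1 := by
              rw [Nat.cast_sub (by omega)]; rfl
            rw [this]
            linarith
          · have hord : P.ord f = -(m : ℤ) := by linarith
            obtain ⟨g, hg, hg0, hgord⟩ := hM0 (m - n) (by omega)
            have hgm : g ∈ Submodule.span A (G : Set F) :=
              ih (m - n) (by omega) g hg (Or.inr (by rw [hgord]))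
            have hzg0 : z * g ≠ 0 := mul_ne_zero hz0 hg0
            have hzgord : P.ord (z * g) = -(m : ℤ) := by
              rw [P.ord_mul hz0 hg0, hgord, Nat.cast_sub (by omega), hnz]
              ring
            -- leading coefficient
            have hq : f / (z * g) ∈ P.toValuationSubring := by
              apply mem_of_ord_nonneg
              rw [FunField.PlaceLemmas.ord_div P hf0 hzg0, hord, hzgord, sub_self]
            have hspec := val_spec P hq
            set c := val P (f / (z * g)) with hc
            have hdiff : f - algebraMap K F c * (z * g) =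
                (f / (z * g) - algebraMap K F c) * (z * g) := by
              field_simp
            have h3 : f - algebraMap K F c * (z * g) = 0 ∨
                -((m - 1 : ℕ) : ℤ) ≤ P.ord (f - algebraMap K F c * (z * g)) := by
              rw [adic_lt_one_iff] at hspec
              rcases hspec with h | h
              · left; rw [hdiff, h, zero_mul]
              · by_cases h4 : f / (z * g) - algebraMap K F c = 0
                · left; rw [hdiff, h4, zero_mul]
                · right
                  rw [hdiff, P.ord_mul h4 hzg0, hzgord, Nat.cast_sub (by omega)]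
                  push_cast
                  linarith
            have h5 : f - algebraMap K F c * (z * g) ∈ affRing P :=
              (affRing P).sub_mem hf ((affRing P).mul_mem ((affRing P).algebraMap_mem c)
                ((affRing P).mul_mem hz hg))
            have h6 := ih (m - 1) (by omega) _ h5 h3
            have h7 : f = (f - algebraMap K F c * (z * g)) +
                ((⟨algebraMap K F c * z, A.mul_mem (A.algebraMap_mem c) hzA⟩ : A) • g) := by
              change f = (f - algebraMap K F c * (z * g)) + (algebraMap K F c * z) * g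
              ring
            rw [h7]
            exact Submodule.add_mem _ h6 (Submodule.smul_mem _ _ hgm)
    intro f hf
    refine key (-(P.ord f)).toNat f hf (Or.inr ?_)
    have := Int.self_le_toNat (-(P.ord f))
    linarith

/-- Every function is a quotient of functions regular outside `P`. -/
theorem exists_mul_mem_affRing (P : Place K F) (f : F) :
    ∃ g ∈ affRing P, g ≠ 0 ∧ g * f ∈ affRing P := by
  classical
  rcases eq_or_ne f 0 with rfl | hf0
  · exact ⟨1, one_mem _, one_ne_zero, by rw [mul_zero]; exact zero_mem _⟩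
  have hfin : {v : Place K F | v.ord f ≠ 0}.Finite := FunField.finite_support f hf0
  set S : Finset (Place K F) := hfin.toFinset.erase P with hS
  rcases S.eq_empty_or_nonempty with hempty | ⟨w, hw⟩
  · refine ⟨1, one_mem _, one_ne_zero, ?_⟩
    rw [one_mul]
    intro v hv
    apply mem_of_ord_nonneg
    by_contra hneg
    have : v ∈ S := by
      rw [hS, Finset.mem_erase, Set.Finite.mem_toFinset]
      exact ⟨hv, fun h => hneg (by rw [h])⟩
    rw [hempty] at this
    exact absurd this (Finset.notMem_empty _)
  · -- bound on the pole orders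
    obtain ⟨n, hn⟩ : ∃ n : ℕ, ∀ v ∈ S, -(v.ord f) ≤ n := by
      refine ⟨∑ v ∈ S, (-(v.ord f)).toNat, fun v hv => ?_⟩
      calc -(v.ord f) ≤ ((-(v.ord f)).toNat : ℤ) := Int.self_le_toNat _
        _ ≤ ((∑ v ∈ S, (-(v.ord f)).toNat : ℕ) : ℤ) := by
          exact_mod_cast Finset.single_le_sum (f := fun v => (-(v.ord f)).toNat)
            (fun _ _ => Nat.zero_le _) hv
    have hex : ∀ v : Place K F, ∃ t : F, t ≠ 0 ∧ v.ord t = (n : ℤ) := fun v =>
      FunField.PlaceLemmas.exists_ord_eq v n
    choose t ht0 ht using hex
    obtain ⟨g, hg, hg'⟩ := approx P S (Finset.notMem_erase _ _) t (n + 1)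
    have hord : ∀ v ∈ S, v.ord g = n ∧ g ≠ 0 := by
      intro v hv
      have h1 := hg v hv
      have h2 : g = t v + (g - t v) := by ring
      have h3 : g - t v = 0 ∨ v.ord (t v) < v.ord (g - t v) := by
        rcases h1 with h | h
        · exact Or.inl h
        · right; rw [ht v]; push_cast at h; linarith
      constructor
      · rw [h2, FunField.PlaceLemmas.ord_add_eq_of_lt v (ht0 v) h3, ht v]
      · intro h0
        rw [h0, zero_sub] at h3
        rcases h3 with h | h
        · exact ht0 v (neg_eq_zero.1 h)
        · rw [FunField.PlaceLemmas.ord_neg] at h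
          exact lt_irrefl _ h
    refine ⟨g, ?_, (hord w hw).2, ?_⟩
    · intro v hv
      by_cases hvS : v ∈ S
      · apply mem_of_ord_nonneg
        rw [(hord v hvS).1]
        exact Int.natCast_nonneg n
      · exact hg' v hvS hv
    · intro v hv
      by_cases hvS : v ∈ S
      · apply mem_of_ord_nonneg
        rw [v.ord_mul (hord v hvS).2 hf0, (hord v hvS).1]
        linarith [hn v hvS]
      · have h4 : v.ord f = 0 := by
          by_contra hne
          apply hvS
          rw [hS, Finset.mem_erase, Set.Finite.mem_toFinset]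
          exact ⟨hv, hne⟩
        exact mul_mem (hg' v hvS hv) (mem_of_ord_nonneg h4.ge)

/-- A function regular outside `P`, with a simple zero at `Q` and a pole at `P`. -/
theorem exists_uniformizer (P Q : Place K F) (hPQ : P ≠ Q) :
    ∃ z ∈ affRing P, Q.ord z = 1 ∧ P.ord z < 0 := by
  classical
  obtain ⟨t, ht0, ht⟩ := FunField.PlaceLemmas.exists_ord_eq Q 1
  obtain ⟨z, hz, hz'⟩ := approx P {Q} (by simpa using hPQ) (fun _ => t) 2
  have h1 := hz Q (by simp)
  have h2 : z = t + (z - t) := by ring
  have h3 : z - t = 0 ∨ Q.ord t < Q.ord (z - t) := by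
    rcases h1 with h | h
    · exact Or.inl h
    · right; rw [ht]; push_cast at h; linarith
  have hord : Q.ord z = 1 := by
    rw [h2, FunField.PlaceLemmas.ord_add_eq_of_lt Q ht0 h3, ht]
  have hz0 : z ≠ 0 := by
    rintro rfl
    rw [Place.ord_zero] at hord
    exact zero_ne_one hord
  have hmem : z ∈ affRing P := by
    intro v hv
    by_cases hvQ : v = Q
    · subst hvQ
      apply mem_of_ord_nonneg
      rw [hord]; norm_num
    · exact hz' v (by simpa using hvQ) hv
  refine ⟨z, hmem, hord, ?_⟩
  by_contra hge
  push Not at hge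
  obtain ⟨E, hE, hE0⟩ := HasPrincipalDivisors.exists_divisor (K := K) z hz0
  have h4 : E = 0 := by
    apply eq_zero_of_degree_zero _ hE0
    intro v
    rw [hE v]
    by_cases hv : v = P
    · subst hv; exact hge
    · exact ((mem_iff_ord v z).1 (hmem v hv)).resolve_left hz0
  have h5 := hE Q
  rw [h4, hord] at h5
  simp at h5

/-- Local coordinates: the affine ring is, locally at `Q`, generated by `z` and `y`. -/
theorem exists_coords (P Q : Place K F) (hPQ : P ≠ Q) :
    ∃ z y : F, z ∈ affRing P ∧ y ∈ affRing P ∧ Q.ord z = 1 ∧ P.ord z < 0 ∧ val Q y = 0 ∧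
      (∃ a b : K[X][X], val Q (aevalAeval (R := K) z y b) = 1 ∧
        aevalAeval (R := K) z y b * y = z * aevalAeval (R := K) z y a) ∧
      ∀ f : F, ∃ a b : K[X][X], aevalAeval (R := K) z y b ≠ 0 ∧
        aevalAeval (R := K) z y b * f = aevalAeval (R := K) z y a := by
  classical
  obtain ⟨z, hz, hzQ, hzP⟩ := exists_uniformizer P Q hPQ
  have hz0 : z ≠ 0 := by rintro rfl; simp at hzP
  have hfin : {v : Place K F | 0 < v.ord z}.Finite := FunField.finite_zeros z hz0
  set Z : Finset (Place K F) := hfin.toFinset with hZ
  have hPZ : P ∉ Z := by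
    rw [hZ, Set.Finite.mem_toFinset]
    intro h
    exact absurd h (not_lt.2 hzP.le)
  have hQZ : Q ∈ Z := by
    rw [hZ, Set.Finite.mem_toFinset]
    change 0 < Q.ord z
    rw [hzQ]; norm_num
  obtain ⟨n, hn⟩ : ∃ n : ℕ, ∀ v ∈ Z, v.ord z ≤ n := by
    refine ⟨∑ v ∈ Z, (v.ord z).toNat, fun v hv => ?_⟩
    calc v.ord z ≤ ((v.ord z).toNat : ℤ) := Int.self_le_toNat _
      _ ≤ ((∑ v ∈ Z, (v.ord z).toNat : ℕ) : ℤ) := by
        exact_mod_cast Finset.single_le_sum (f := fun v => (v.ord z).toNat)
          (fun _ _ => Nat.zero_le _) hv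
  have hn1 : (1 : ℤ) ≤ n := by
    have := hn Q hQZ
    rwa [hzQ] at this
  obtain ⟨e, he, he'⟩ := approx P Z hPZ (fun v => if v = Q then 1 else 0) n
  have heQ : e - 1 = 0 ∨ (n : ℤ) ≤ Q.ord (e - 1) := by
    have := he Q hQZ
    simpa using this
  have heZ : ∀ v ∈ Z, v ≠ Q → e = 0 ∨ (n : ℤ) ≤ v.ord e := by
    intro v hv hvQ
    have := he v hv
    simpa [hvQ] using this
  have heR : e ∈ affRing P := by
    intro v hv
    by_cases hvZ : v ∈ Z
    · by_cases hvQ : v = Q
      · subst hvQ
        have h1 : e - 1 ∈ v.toValuationSubring := by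
          rw [mem_iff_ord]
          rcases heQ with h | h
          · exact Or.inl h
          · right; linarith
        have h2 := add_mem h1 (one_mem v.toValuationSubring)
        simpa using h2
      · rw [mem_iff_ord]
        rcases heZ v hvZ hvQ with h | h
        · exact Or.inl h
        · right; linarith
    · exact he' v hvZ hv
  have hvaleQ : val Q e = 1 := by
    apply val_eq_of
    rw [map_one, adic_lt_one_iff]
    rcases heQ with h | h
    · exact Or.inl h
    · right; linarith
  have hQP : Q ≠ P := Ne.symm hPQ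
  -- dividing by `z`
  have hdivz : ∀ r : F, r ∈ affRing P → (r = 0 ∨ 0 < Q.ord r) → ∃ r' ∈ affRing P, e * r = z * r' := by
    intro r hr hrQ
    refine ⟨e * r / z, ?_, by field_simp⟩
    intro v hv
    rcases eq_or_ne r 0 with rfl | hr0
    · rw [mul_zero, zero_div]; exact zero_mem _
    rcases eq_or_ne e 0 with h0 | he0
    · rw [h0, zero_mul, zero_div]; exact zero_mem _
    have hrv := ((mem_iff_ord v r).1 (hr v hv)).resolve_left hr0
    have hev := ((mem_iff_ord v e).1 (heR v hv)).resolve_left he0
    apply mem_of_ord_nonneg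
    rw [FunField.PlaceLemmas.ord_div v (mul_ne_zero he0 hr0) hz0, v.ord_mul he0 hr0]
    by_cases hvZ : v ∈ Z
    · by_cases hvQ : v = Q
      · subst hvQ
        have := hrQ.resolve_left hr0
        rw [hzQ]
        omega
      · have h1 := (heZ v hvZ hvQ).resolve_left he0
        have h2 := hn v hvZ
        omega
    · have h1 : ¬ 0 < v.ord z := by
        intro h
        apply hvZ
        rw [hZ, Set.Finite.mem_toFinset]
        exact h
      omega
  set y : F := 1 - e with hy
  have hyR : y ∈ affRing P := (affRing P).sub_mem (one_mem _) heR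
  have hvaly : val Q y = 0 := by
    rw [hy, val_sub Q (one_mem _) (heR Q hQP), val_one, hvaleQ, sub_self]
  have hyQ : y = 0 ∨ 0 < Q.ord y := (val_eq_zero_iff_ord Q (hyR Q hQP)).1 hvaly
  -- the subalgebra generated by `z, y`
  set A : Subalgebra K F := (aevalAeval (R := K) z y).range with hA
  have hzA : z ∈ A := ⟨C X, by simp⟩
  have hyA : y ∈ A := ⟨X, by simp⟩
  obtain ⟨G, hGfin, hGsub, hG⟩ := affRing_fg P hz hzP
  -- `R` as an `A`-module
  have hAR : A ≤ affRing P := by
    rintro _ ⟨p, rfl⟩ v hv
    exact aevalAeval_mem v (hz v hv) (hyR v hv) p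
  let RM : Submodule A F :=
    { carrier := affRing P
      add_mem' := fun ha hb => (affRing P).add_mem ha hb
      zero_mem' := (affRing P).zero_mem
      smul_mem' := fun c x hx => (affRing P).mul_mem (hAR c.2) hx }
  have hRMspan : RM = Submodule.span A G := by
    apply le_antisymm
    · intro f hf
      exact hG A hzA f hf
    · rw [Submodule.span_le]
      exact hGsub
  have hRMfg : RM.FG := by
    rw [hRMspan]
    exact Submodule.fg_span hGfin
  let AM : Submodule A F := 1
  have hAM : ∀ f, f ∈ AM ↔ f ∈ A := by
    intro f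
    rw [Submodule.mem_one]
    constructor
    · rintro ⟨a, rfl⟩; exact a.2
    · intro hf; exact ⟨⟨f, hf⟩, rfl⟩
  let I : Ideal A := Ideal.span {⟨z, hzA⟩, ⟨y, hyA⟩}
  have hle : RM ≤ AM ⊔ I • RM := by
    intro r hr
    have hrR : r ∈ affRing P := hr
    have hrQ : r ∈ Q.toValuationSubring := hrR Q hQP
    have h1 : r - algebraMap K F (val Q r) ∈ affRing P :=
      (affRing P).sub_mem hrR ((affRing P).algebraMap_mem _)
    have h2 : r - algebraMap K F (val Q r) = 0 ∨ 0 < Q.ord (r - algebraMap K F (val Q r)) := by
      have := val_spec Q hrQ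
      rwa [adic_lt_one_iff] at this
    obtain ⟨r', hr', h3⟩ := hdivz _ h1 h2
    have h4 : r = (e * algebraMap K F (val Q r)) + ((⟨y, hyA⟩ : A) • r + (⟨z, hzA⟩ : A) • r') := by
      change r = e * algebraMap K F (val Q r) + (y * r + z * r')
      rw [← h3, hy]
      ring
    have heA : e ∈ A := by
      have : e = 1 - y := by rw [hy]; ring
      rw [this]
      exact A.sub_mem (one_mem _) hyA
    rw [h4]
    apply Submodule.add_mem_sup
    · rw [hAM]
      exact A.mul_mem heA (A.algebraMap_mem _)
    · apply Submodule.add_mem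
      · exact Submodule.smul_mem_smul (Ideal.subset_span (by simp)) hr
      · exact Submodule.smul_mem_smul (Ideal.subset_span (by simp)) hr'
  obtain ⟨s, hs1, hs⟩ := Submodule.exists_sub_one_mem_and_smul_le_of_fg_of_le_sup
    hRMfg le_rfl hle
  -- `s` has value one at `Q`
  have hmemQ : ∀ a : A, (a : F) ∈ Q.toValuationSubring := fun a => hAR a.2 Q hQP
  have hIval : ∀ a ∈ I, val Q (a : F) = 0 := by
    intro a ha
    obtain ⟨p, q, hpq⟩ := Ideal.mem_span_pair.1 ha
    rw [← hpq]
    change val Q ((p : F) * z + (q : F) * y) = 0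
    have hzv : val Q z = 0 := val_of_ord_pos Q (by rw [hzQ]; norm_num)
    rw [val_add Q (mul_mem (hmemQ p) (hz Q hQP)) (mul_mem (hmemQ q) (hyR Q hQP)),
      val_mul Q (hmemQ p) (hz Q hQP), val_mul Q (hmemQ q) (hyR Q hQP), hvaly,
      hzv, mul_zero, mul_zero, add_zero]
  have hsval : val Q (s : F) = 1 := by
    have h1 := hIval _ hs1
    change val Q ((s : F) - 1) = 0 at h1
    rw [val_sub Q (hmemQ s) (one_mem _), val_one, sub_eq_zero] at h1
    exact h1
  have hsR : ∀ r ∈ affRing P, (s : F) * r ∈ A := by
    intro r hr
    rw [← hAM]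
    apply hs
    exact Submodule.smul_mem_pointwise_smul r s RM hr
  have hs0 : (s : F) ≠ 0 := by
    intro h
    rw [h, val_zero] at hsval
    exact zero_ne_one hsval
  refine ⟨z, y, hz, hyR, hzQ, hzP, hvaly, ?_, ?_⟩
  · -- relation
    obtain ⟨r, hr, h1⟩ := hdivz y hyR hyQ
    obtain ⟨a, ha⟩ := hsR r hr
    have heA : e ∈ A := by
      have : e = 1 - y := by rw [hy]; ring
      rw [this]
      exact A.sub_mem (one_mem _) hyA
    obtain ⟨b, hb⟩ := A.mul_mem s.2 heA
    refine ⟨a, b, ?_, ?_⟩
    · change aevalAeval (R := K) z y b = (s : F) * e at hb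
      rw [hb, val_mul Q (hmemQ s) (heR Q hQP), hsval, hvaleQ, one_mul]
    · change aevalAeval (R := K) z y b = (s : F) * e at hb
      change aevalAeval (R := K) z y a = (s : F) * r at ha
      rw [hb, ha, mul_assoc, h1]
      ring
  · intro f
    obtain ⟨g, hg, hg0, hgf⟩ := exists_mul_mem_affRing P f
    obtain ⟨a, ha⟩ := hsR _ hgf
    obtain ⟨b, hb⟩ := hsR _ hg
    refine ⟨a, b, ?_, ?_⟩
    · change aevalAeval (R := K) z y b = (s : F) * g at hb
      rw [hb]
      exact mul_ne_zero hs0 hg0
    · change aevalAeval (R := K) z y b = (s : F) * g at hb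
      change aevalAeval (R := K) z y a = (s : F) * (g * f) at ha
      rw [hb, ha]
      ring

end Fermat.Agent.S27C
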