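import Mathlib
import Fermat.Agent.S27C.Affine

/-!
# Places over smooth points of a plane model
-/

set_option autoImplicit false

noncomputable section

open AlgebraicCurve Polynomial
open Fermat.Agent.FunField (IsFF)

namespace Fermat.Agent.S27C

variable {K F : Type*} [Field K] [Field F] [Algebra K F]

/-- A plane model of the function field, smooth at (the image of) `Q`, with coordinates regular
outside `Pinf`. -/
structure Coords (Pinf Q : Place K F) where
  z : F
  y : F
  hz : z ∈ affRing Pinf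
  hy : y ∈ affRing Pinf
  ordz : Q.ord z = 1
  ordP : Pinf.ord z < 0
  P : K[X][X]
  P_dvd : ∀ p : K[X][X], aevalAeval (R := K) z y p = 0 ↔ P ∣ p
  frac : ∀ f : F, ∃ a b : K[X][X], aevalAeval (R := K) z y b ≠ 0 ∧
        aevalAeval (R := K) z y b * f = aevalAeval (R := K) z y a

theorem transcendental_of_ord_ne {v : Place K F} {z : F} (h : v.ord z ≠ 0) : Transcendental K z :=
  FunField.PlaceLemmas.transcendental_of_ord_ne_zero v h

theorem exists_coords' [IsAlgClosed K] [IsCurveOver K F] [IsFF K F]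
    (Pinf Q : Place K F) (hPQ : Pinf ≠ Q) :
    ∃ C : Coords Pinf Q, val Q C.y = 0 ∧ C.P.derivative.evalEval 0 0 ≠ 0 := by
  classical
  obtain ⟨z, y, hz, hy, hzQ, hzP, hvaly, ⟨a, b, hb1, hab⟩, hfrac⟩ := exists_coords Pinf Q hPQ
  have hQP : Q ≠ Pinf := Ne.symm hPQ
  have htr : Transcendental K z := transcendental_of_ord_ne (v := Q) (by rw [hzQ]; norm_num)
  letI alg : Algebra K[X] F := (aeval (R := K) z).toRingHom.toAlgebra
  have halg : ∀ p : K[X], algebraMap K[X] F p = aeval z p := fun p => rfl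
  haveI : IsScalarTower K K[X] F := IsScalarTower.of_algebraMap_eq fun c => by
    rw [halg, ← C_eq_algebraMap, aeval_C]
  have hinj : Function.Injective (algebraMap K[X] F) := by
    have := transcendental_iff_injective.1 htr
    exact this
  haveI : Module.IsTorsionFree K[X] F := by
    rw [← faithfulSMul_iff_algebraMap_injective] at hinj
    infer_instance
  have haeval : ∀ p : K[X][X], aeval (R := K[X]) y p = aevalAeval (R := K) z y p := by
    intro p
    induction p using Polynomial.induction_on' with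
    | add p q hp hq => rw [map_add, map_add, hp, hq]
    | monomial n c =>
      rw [← C_mul_X_pow_eq_monomial, map_mul, map_mul, map_pow, map_pow]
      simp only [aevalAeval_C, aevalAeval_Y, aeval_C, aeval_X, halg]
  -- integrality of `y`
  obtain ⟨G, hGfin, hGsub, hG⟩ := affRing_fg Pinf hz hzP
  let R' : Subalgebra K[X] F :=
    { carrier := affRing Pinf
      mul_mem' := fun ha hb => (affRing Pinf).mul_mem ha hb
      one_mem' := (affRing Pinf).one_mem
      add_mem' := fun ha hb => (affRing Pinf).add_mem ha hb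
      zero_mem' := (affRing Pinf).zero_mem
      algebraMap_mem' := fun p => by
        rw [halg]
        have : aeval z p ∈ Algebra.adjoin K {z} := aeval_mem_adjoin_singleton K z
        exact (Algebra.adjoin_le (by simpa using hz)) this }
  have hR'fg : (Subalgebra.toSubmodule R').FG := by
    have h1 : Subalgebra.toSubmodule R' = Submodule.span K[X] G := by
      apply le_antisymm
      · intro f hf
        have h2 := hG (Algebra.adjoin K {z}) (Algebra.self_mem_adjoin_singleton K z) f hf
        refine Submodule.span_induction (p := fun f _ => f ∈ Submodule.span K[X] G) ?_ ?_ ?_ ?_ h2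
        · intro g hg; exact Submodule.subset_span hg
        · exact Submodule.zero_mem _
        · intro g1 g2 _ _ h3 h4; exact Submodule.add_mem _ h3 h4
        · rintro ⟨c, hc⟩ g _ h3
          rw [Algebra.adjoin_singleton_eq_range_aeval] at hc
          obtain ⟨p, hp⟩ := hc
          have : (⟨c, by rw [Algebra.adjoin_singleton_eq_range_aeval]; exact ⟨p, hp⟩⟩ :
              Algebra.adjoin K {z}) • g = p • g := by
            rw [Algebra.smul_def p g, halg]
            change c * g = _
            rw [← hp]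
            rfl
          rw [this]
          exact Submodule.smul_mem _ _ h3
      · rw [Submodule.span_le]
        exact hGsub
    rw [h1]
    exact Submodule.fg_span hGfin
  have hint : IsIntegral K[X] y := IsIntegral.of_mem_of_fg R' hR'fg y hy
  set P := minpoly K[X] y with hP
  have hdvd : ∀ p : K[X][X], aevalAeval (R := K) z y p = 0 ↔ P ∣ p := by
    intro p
    rw [← haeval]
    constructor
    · intro h
      exact minpoly.isIntegrallyClosed_dvd hint h
    · rintro ⟨q, rfl⟩
      rw [map_mul, minpoly.aeval, zero_mul]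
  refine ⟨⟨z, y, hz, hy, hzQ, hzP, P, hdvd, hfrac⟩, hvaly, ?_⟩
  -- derivative
  have hG0 : aevalAeval (R := K) z y (b * X - C X * a) = 0 := by
    rw [map_sub, map_mul, map_mul, aevalAeval_Y, aevalAeval_X, hab, sub_self]
  obtain ⟨H, hH⟩ := (hdvd _).1 hG0
  have hzQm := hz Q hQP
  have hyQm := hy Q hQP
  have hzval : val Q z = 0 := val_of_ord_pos Q (by rw [hzQ]; norm_num)
  have hb0 : b.evalEval 0 0 = 1 := by
    have := val_aevalAeval Q hzQm hyQm b
    rw [hb1, hzval, hvaly] at this
    exact this.symm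
  have hP0 : P.evalEval 0 0 = 0 := by
    have := val_aevalAeval Q hzQm hyQm P
    rw [(hdvd P).2 dvd_rfl, val_zero, hzval, hvaly] at this
    exact this.symm
  have hd := congrArg derivative hH
  rw [derivative_sub, derivative_mul, derivative_mul, derivative_mul, derivative_X,
    derivative_C, zero_mul, zero_add, mul_one] at hd
  have he := congrArg (evalEval 0 0) hd
  rw [evalEval_sub, evalEval_add, evalEval_add, evalEval_mul, evalEval_mul, evalEval_mul,
    evalEval_mul, evalEval_X, hP0, hb0, evalEval_C, eval_X] at he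
  intro h0
  change P.derivative.evalEval 0 0 = 0 at h0
  rw [h0] at he
  simp at he

namespace Coords

variable {Pinf Q : Place K F} (C0 : Coords Pinf Q)

/-- Evaluation of a polynomial at the coordinate functions. -/
abbrev ev (p : K[X][X]) : F := aevalAeval (R := K) C0.z C0.y p

theorem z_ne_algebraMap (t : K) : C0.z - algebraMap K F t ≠ 0 := by
  intro h
  have h1 : C0.z = algebraMap K F t := sub_eq_zero.1 h
  have h2 := C0.ordz
  rw [h1, FunField.PlaceLemmas.ord_algebraMap] at h2
  exact zero_ne_one h2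

theorem ev_P : C0.ev C0.P = 0 := (C0.P_dvd _).2 dvd_rfl

/-- Every point of the plane curve is the centre of a place. -/
theorem exists_place [IsAlgClosed K] [IsCurveOver K F] [IsFF K F] {t w : K}
    (h : C0.P.evalEval t w = 0) :
    ∃ v : Place K F, C0.z ∈ v.toValuationSubring ∧ C0.y ∈ v.toValuationSubring ∧
      val v C0.z = t ∧ val v C0.y = w := by
  classical
  let A : Subring F := (aevalAeval (R := K) C0.z C0.y).range.toSubring
  have hA : ∀ p, C0.ev p ∈ A := fun p => ⟨p, rfl⟩
  let zt : A := ⟨C0.ev (C X - C (C t)), hA _⟩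
  let yw : A := ⟨C0.ev (X - C (C w)), hA _⟩
  let I : Ideal A := Ideal.span {zt, yw}
  have hI : I ≠ ⊤ := by
    intro htop
    rw [Ideal.eq_top_iff_one, Ideal.mem_span_pair] at htop
    obtain ⟨⟨_, ⟨p, rfl⟩⟩, ⟨_, ⟨q, rfl⟩⟩, hpq⟩ := htop
    have h1 : C0.ev p * C0.ev (C X - C (C t)) + C0.ev q * C0.ev (X - C (C w)) = 1 :=
      congrArg Subtype.val hpq
    have h2 : C0.ev (p * (C X - C (C t)) + q * (X - C (C w)) - 1) = 0 := by
      change aevalAeval (R := K) C0.z C0.y _ = 0
      rw [map_sub, map_add, map_mul, map_mul, map_one]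
      exact sub_eq_zero.2 h1
    obtain ⟨r, hr⟩ := (C0.P_dvd _).1 h2
    have h3 := congrArg (evalEval t w) hr
    rw [evalEval_mul, h, zero_mul, evalEval_sub, evalEval_add, evalEval_mul, evalEval_mul,
      evalEval_sub, evalEval_sub, evalEval_one, evalEval_X, evalEval_C, evalEval_C, evalEval_C,
      eval_X, eval_C, eval_C, sub_self, sub_self, mul_zero, mul_zero, add_zero, zero_sub] at h3
    exact one_ne_zero (neg_eq_zero.1 h3)
  obtain ⟨B, hB, hBI⟩ := Ideal.image_subset_nonunits_valuationSubring I hI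
  have hK : ∀ c : K, algebraMap K F c ∈ B := fun c =>
    hB ((aevalAeval (R := K) C0.z C0.y).range.algebraMap_mem c)
  have hztB : C0.z - algebraMap K F t ∈ B.nonunits := by
    have h1 : (zt : F) ∈ B.nonunits := hBI ⟨zt, Ideal.subset_span (by simp), rfl⟩
    have h2 : (zt : F) = C0.z - algebraMap K F t := by
      change aevalAeval (R := K) C0.z C0.y _ = _
      rw [map_sub, aevalAeval_X, aevalAeval_C, aeval_C]
    rwa [h2] at h1
  have hywB : C0.y - algebraMap K F w ∈ B.nonunits := by
    have h1 : (yw : F) ∈ B.nonunits := hBI ⟨yw, Ideal.subset_span (by simp), rfl⟩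
    have h2 : (yw : F) = C0.y - algebraMap K F w := by
      change aevalAeval (R := K) C0.z C0.y _ = _
      rw [map_sub, aevalAeval_Y, aevalAeval_C, aeval_C]
    rwa [h2] at h1
  have hBtop : B ≠ ⊤ := by
    intro htop
    have h1 := (ValuationSubring.mem_nonunits_iff (A := B)).mp hztB
    have h2 : (C0.z - algebraMap K F t)⁻¹ ∈ B := by rw [htop]; exact ValuationSubring.mem_top _
    have h3 := (B.valuation_le_one_iff _).2 h2
    rw [map_inv₀] at h3
    have h4 : B.valuation (C0.z - algebraMap K F t) ≠ 0 :=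
      (Valuation.ne_zero_iff _).2 (C0.z_ne_algebraMap t)
    have h5 := (inv_le_one₀ (zero_lt_iff.2 h4)).1 h3
    exact absurd h1 (not_lt.2 h5)
  let v : Place K F := FunField.placeOfValuationSubring B hK hBtop
  have hnon : ∀ f : F, f ∈ B.nonunits → v.adicValuation f < 1 := by
    intro f hf
    have hfB : f ∈ B := B.nonunits_subset hf
    have h1 : (⟨f, hfB⟩ : v.toValuationSubring) ∈
        IsLocalRing.maximalIdeal v.toValuationSubring := by
      rw [IsLocalRing.mem_maximalIdeal]
      rw [ValuationSubring.mem_nonunits_iff_exists_mem_maximalIdeal] at hf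
      obtain ⟨h2, h3⟩ := hf
      exact (IsLocalRing.mem_maximalIdeal _).1 h3
    rw [mem_maximal_iff] at h1
    exact h1
  have h1 := hnon _ hztB
  have h2 := hnon _ hywB
  exact ⟨v, mem_of_hasVal v h1, mem_of_hasVal v h2, val_eq_of v h1, val_eq_of v h2⟩

section Normal

variable [IsAlgClosed K] [IsCurveOver K F]

theorem poly_decomp (p : K[X][X]) (t w : K) : ∃ (p2 : K[X][X]) (p1 : K[X]),
    p = (X - C (C w)) * p2 + C ((X - C t) * p1) + C (C (p.evalEval t w)) := by
  obtain ⟨p2, h2⟩ := X_sub_C_dvd_sub_C_eval (a := C w) (p := p)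
  obtain ⟨p1, h1⟩ := X_sub_C_dvd_sub_C_eval (a := t) (p := p.eval (C w))
  refine ⟨p2, p1, ?_⟩
  rw [← h2, ← h1]
  change p = p - C (eval (C w) p) + C (eval (C w) p - C (eval t (eval (C w) p))) +
    C (C (eval t (eval (C w) p)))
  rw [C_sub]
  ring

/-- Division step at a smooth point. -/
theorem division (t w : K) (hP0 : C0.P.evalEval t w = 0) :
    ∃ P2 : K[X][X], P2.evalEval t w = C0.P.derivative.evalEval t w ∧
      ∀ p : K[X][X], p.evalEval t w = 0 → ∃ p' : K[X][X],
        C0.ev P2 * C0.ev p = (C0.z - algebraMap K F t) * C0.ev p' := by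
  obtain ⟨P2, P1, hPd⟩ := poly_decomp C0.P t w
  rw [hP0, C_0, C_0, add_zero] at hPd
  refine ⟨P2, ?_, ?_⟩
  · rw [hPd, derivative_add, derivative_mul, derivative_sub, derivative_X, derivative_C,
      derivative_C, sub_zero, one_mul, add_zero, evalEval_add, evalEval_mul, evalEval_sub,
      evalEval_X, evalEval_C, eval_C, sub_self, zero_mul, add_zero]
  · intro p hp
    obtain ⟨p2, p1, hpd⟩ := poly_decomp p t w
    rw [hp, C_0, C_0, add_zero] at hpd
    refine ⟨P2 * C p1 - C P1 * p2, ?_⟩
    have h1 : C0.ev C0.P = 0 := C0.ev_P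
    have hzt : C0.ev (C (X - C t)) = C0.z - algebraMap K F t := by
      change aevalAeval (R := K) C0.z C0.y _ = _
      rw [aevalAeval_C, map_sub, aeval_X, aeval_C]
    have h2 : C0.ev (X - C (C w)) * C0.ev P2 + (C0.z - algebraMap K F t) * C0.ev (C P1) = 0 := by
      rw [← hzt]
      have h3 : C0.ev ((X - C (C w)) * P2 + C ((X - C t) * P1)) = 0 := by rw [← hPd]; exact h1
      change aevalAeval (R := K) C0.z C0.y _ = 0 at h3
      rw [map_add, map_mul, C_mul, map_mul] at h3
      exact h3
    have h4 : C0.ev p = C0.ev (X - C (C w)) * C0.ev p2 +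
        (C0.z - algebraMap K F t) * C0.ev (C p1) := by
      rw [← hzt]
      conv_lhs => rw [hpd]
      change aevalAeval (R := K) C0.z C0.y _ = _
      rw [map_add, map_mul, C_mul, map_mul]
    have h5 : C0.ev (P2 * C p1 - C P1 * p2) = C0.ev P2 * C0.ev (C p1) -
        C0.ev (C P1) * C0.ev p2 := by
      change aevalAeval (R := K) C0.z C0.y _ = _
      rw [map_sub, map_mul, map_mul]
    rw [h5, h4]
    linear_combination (C0.ev p2) * h2

/-- Normal form at a smooth point, for polynomials. -/
theorem normal_poly (v : Place K F) (hz : C0.z ∈ v.toValuationSubring)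
    (hy : C0.y ∈ v.toValuationSubring)
    (P2 : K[X][X]) (hP2 : P2.evalEval (val v C0.z) (val v C0.y) ≠ 0)
    (hdiv : ∀ p : K[X][X], p.evalEval (val v C0.z) (val v C0.y) = 0 → ∃ p' : K[X][X],
        C0.ev P2 * C0.ev p = (C0.z - algebraMap K F (val v C0.z)) * C0.ev p') :
    ∀ (n : ℕ) (p : K[X][X]), C0.ev p ≠ 0 → v.ord (C0.ev p) ≤ n →
      ∃ (k : ℕ) (p' : K[X][X]), p'.evalEval (val v C0.z) (val v C0.y) ≠ 0 ∧
        C0.ev P2 ^ k * C0.ev p = (C0.z - algebraMap K F (val v C0.z)) ^ k * C0.ev p' := by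
  have hmem : ∀ p, C0.ev p ∈ v.toValuationSubring := fun p => aevalAeval_mem v hz hy p
  have hval : ∀ p, val v (C0.ev p) = p.evalEval (val v C0.z) (val v C0.y) :=
    fun p => val_aevalAeval v hz hy p
  have hP2v : val v (C0.ev P2) ≠ 0 := by rw [hval]; exact hP2
  obtain ⟨hP20, hP2ord⟩ := ord_eq_zero_of_val_ne v (hmem P2) hP2v
  have hτ0 := C0.z_ne_algebraMap (val v C0.z)
  have hτord : 0 < v.ord (C0.z - algebraMap K F (val v C0.z)) := by
    have := val_spec v hz
    rw [adic_lt_one_iff] at this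
    exact this.resolve_left hτ0
  intro n
  induction n with
  | zero =>
    intro p hp hle
    refine ⟨0, p, ?_, by simp⟩
    intro h0
    rw [← hval] at h0
    have := ((val_eq_zero_iff_ord v (hmem p)).1 h0).resolve_left hp
    push_cast at hle
    omega
  | succ n ih =>
    intro p hp hle
    by_cases h0 : p.evalEval (val v C0.z) (val v C0.y) = 0
    · obtain ⟨p', hp'⟩ := hdiv p h0
      have hp'0 : C0.ev p' ≠ 0 := by
        intro h
        rw [h, mul_zero] at hp'
        exact mul_ne_zero hP20 hp hp'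
      have hord : v.ord (C0.ev p') ≤ n := by
        have h1 := congrArg v.ord hp'
        rw [v.ord_mul hP20 hp, v.ord_mul hτ0 hp'0, hP2ord] at h1
        push_cast at hle
        omega
      obtain ⟨k, p'', h2, h3⟩ := ih p' hp'0 hord
      refine ⟨k + 1, p'', h2, ?_⟩
      calc C0.ev P2 ^ (k + 1) * C0.ev p = C0.ev P2 ^ k * (C0.ev P2 * C0.ev p) := by ring
        _ = (C0.z - algebraMap K F (val v C0.z)) * (C0.ev P2 ^ k * C0.ev p') := by rw [hp']; ring
        _ = _ := by rw [h3]; ring
    · exact ⟨0, p, h0, by simp⟩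

/-- Normal form of functions at a smooth point. -/
theorem normal_form (v : Place K F) (hz : C0.z ∈ v.toValuationSubring)
    (hy : C0.y ∈ v.toValuationSubring)
    (hder : C0.P.derivative.evalEval (val v C0.z) (val v C0.y) ≠ 0) {f : F} (hf : f ≠ 0) :
    ∃ (m : ℤ) (N D : K[X][X]), N.evalEval (val v C0.z) (val v C0.y) ≠ 0 ∧
      D.evalEval (val v C0.z) (val v C0.y) ≠ 0 ∧
      f * C0.ev D = (C0.z - algebraMap K F (val v C0.z)) ^ m * C0.ev N := by
  have hval : ∀ p, val v (C0.ev p) = p.evalEval (val v C0.z) (val v C0.y) :=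
    fun p => val_aevalAeval v hz hy p
  have hmem : ∀ p, C0.ev p ∈ v.toValuationSubring := fun p => aevalAeval_mem v hz hy p
  have hP0 : C0.P.evalEval (val v C0.z) (val v C0.y) = 0 := by
    rw [← hval, C0.ev_P, val_zero]
  obtain ⟨P2, hP2, hdiv⟩ := C0.division _ _ hP0
  rw [← hP2] at hder
  have hP2v : val v (C0.ev P2) ≠ 0 := by rw [hval]; exact hder
  obtain ⟨hP20, hP2ord⟩ := ord_eq_zero_of_val_ne v (hmem P2) hP2v
  obtain ⟨a, b, hb0, hab⟩ := C0.frac f
  have ha0 : C0.ev a ≠ 0 := by
    change aevalAeval (R := K) C0.z C0.y a ≠ 0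
    rw [← hab]; exact mul_ne_zero hb0 hf
  obtain ⟨k1, a', ha', h1⟩ := C0.normal_poly v hz hy P2 hder hdiv (v.ord (C0.ev a)).toNat a ha0
    (Int.self_le_toNat _)
  obtain ⟨k2, b', hb', h2⟩ := C0.normal_poly v hz hy P2 hder hdiv (v.ord (C0.ev b)).toNat b hb0
    (Int.self_le_toNat _)
  have hτ0 := C0.z_ne_algebraMap (val v C0.z)
  set τ := C0.z - algebraMap K F (val v C0.z) with hτ
  refine ⟨(k1 : ℤ) - k2, a' * P2 ^ k2, b' * P2 ^ k1, ?_, ?_, ?_⟩
  · rw [evalEval_mul, evalEval_pow]
    exact mul_ne_zero ha' (pow_ne_zero _ hder)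
  · rw [evalEval_mul, evalEval_pow]
    exact mul_ne_zero hb' (pow_ne_zero _ hder)
  · have e1 : C0.ev (a' * P2 ^ k2) = C0.ev a' * C0.ev P2 ^ k2 := by
      change aevalAeval (R := K) C0.z C0.y _ = _
      rw [map_mul, map_pow]
    have e2 : C0.ev (b' * P2 ^ k1) = C0.ev b' * C0.ev P2 ^ k1 := by
      change aevalAeval (R := K) C0.z C0.y _ = _
      rw [map_mul, map_pow]
    rw [e1, e2, zpow_sub₀ hτ0, zpow_natCast, zpow_natCast]
    have hb0' : C0.ev b ≠ 0 := hb0
    have hab' : C0.ev b * f = C0.ev a := hab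
    have hτk2 : τ ^ k2 ≠ 0 := pow_ne_zero _ hτ0
    -- multiply by `τ^k2 * ev b`
    apply mul_right_cancel₀ (mul_ne_zero hτk2 hb0')
    calc f * (C0.ev b' * C0.ev P2 ^ k1) * (τ ^ k2 * C0.ev b)
        = (τ ^ k2 * C0.ev b') * C0.ev P2 ^ k1 * (C0.ev b * f) := by ring
      _ = (C0.ev P2 ^ k2 * C0.ev b) * (C0.ev P2 ^ k1 * C0.ev a) := by rw [← h2, hab']; ring
      _ = (C0.ev P2 ^ k2 * C0.ev b) * (τ ^ k1 * C0.ev a') := by rw [h1]
      _ = τ ^ k1 / τ ^ k2 * (C0.ev a' * C0.ev P2 ^ k2) * (τ ^ k2 * C0.ev b) := by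
        field_simp

theorem ord_of_normal (v : Place K F) (hz : C0.z ∈ v.toValuationSubring)
    (hy : C0.y ∈ v.toValuationSubring) {f : F} (hf : f ≠ 0) {m : ℤ} {N D : K[X][X]}
    (hN : N.evalEval (val v C0.z) (val v C0.y) ≠ 0)
    (hD : D.evalEval (val v C0.z) (val v C0.y) ≠ 0)
    (h : f * C0.ev D = (C0.z - algebraMap K F (val v C0.z)) ^ m * C0.ev N) :
    v.ord f = m * v.ord (C0.z - algebraMap K F (val v C0.z)) := by
  have hval : ∀ p, val v (C0.ev p) = p.evalEval (val v C0.z) (val v C0.y) :=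
    fun p => val_aevalAeval v hz hy p
  have hmem : ∀ p, C0.ev p ∈ v.toValuationSubring := fun p => aevalAeval_mem v hz hy p
  obtain ⟨hN0, hNord⟩ := ord_eq_zero_of_val_ne v (hmem N) (by rw [hval]; exact hN)
  obtain ⟨hD0, hDord⟩ := ord_eq_zero_of_val_ne v (hmem D) (by rw [hval]; exact hD)
  have hτ0 := C0.z_ne_algebraMap (val v C0.z)
  have h1 := congrArg v.ord h
  rw [v.ord_mul hf hD0, v.ord_mul (zpow_ne_zero _ hτ0) hN0, v.ord_zpow, hNord, hDord, add_zero,
    add_zero] at h1
  exact h1

theorem ord_uniformizer (v : Place K F) (hz : C0.z ∈ v.toValuationSubring)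
    (hy : C0.y ∈ v.toValuationSubring)
    (hder : C0.P.derivative.evalEval (val v C0.z) (val v C0.y) ≠ 0) :
    v.ord (C0.z - algebraMap K F (val v C0.z)) = 1 := by
  obtain ⟨f, hf0, hf⟩ := FunField.PlaceLemmas.exists_ord_eq_one v
  obtain ⟨m, N, D, hN, hD, h⟩ := C0.normal_form v hz hy hder hf0
  have h1 := C0.ord_of_normal v hz hy hf0 hN hD h
  rw [hf] at h1
  have hτord : 0 < v.ord (C0.z - algebraMap K F (val v C0.z)) := by
    have := val_spec v hz
    rw [adic_lt_one_iff] at this
    exact this.resolve_left (C0.z_ne_algebraMap (val v C0.z))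
  have h2 : v.ord (C0.z - algebraMap K F (val v C0.z)) ∣ 1 := ⟨m, by rw [h1]; ring⟩
  exact Int.eq_one_of_dvd_one hτord.le h2

/-- Uniqueness of the place over a smooth point. -/
theorem place_unique (v v' : Place K F) (hz : C0.z ∈ v.toValuationSubring)
    (hy : C0.y ∈ v.toValuationSubring) (hz' : C0.z ∈ v'.toValuationSubring)
    (hy' : C0.y ∈ v'.toValuationSubring)
    (hder : C0.P.derivative.evalEval (val v C0.z) (val v C0.y) ≠ 0)
    (h1 : val v' C0.z = val v C0.z) (h2 : val v' C0.y = val v C0.y) : v = v' := by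
  apply FunField.PlaceLemmas.eq_of_le
  intro f hf
  change f ∈ v.toValuationSubring at hf
  change f ∈ v'.toValuationSubring
  rcases eq_or_ne f 0 with rfl | hf0
  · exact zero_mem _
  obtain ⟨m, N, D, hN, hD, h⟩ := C0.normal_form v hz hy hder hf0
  have h3 := C0.ord_of_normal v hz hy hf0 hN hD h
  have h4 : v'.ord f = m * v'.ord (C0.z - algebraMap K F (val v' C0.z)) := by
    apply C0.ord_of_normal v' hz' hy' hf0 (N := N) (D := D)
    · rw [h1, h2]; exact hN
    · rw [h1, h2]; exact hD
    · rw [h1]; exact h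
  have h5 := ((mem_iff_ord v f).1 hf).resolve_left hf0
  rw [h3, C0.ord_uniformizer v hz hy hder, mul_one] at h5
  apply mem_of_ord_nonneg
  rw [h4]
  apply mul_nonneg h5
  have := val_spec v' hz'
  rw [adic_lt_one_iff] at this
  exact (this.resolve_left (C0.z_ne_algebraMap _)).le

/-- Regular functions at a smooth point are quotients of polynomials with nonvanishing
denominator. -/
theorem regular_form (v : Place K F) (hz : C0.z ∈ v.toValuationSubring)
    (hy : C0.y ∈ v.toValuationSubring)
    (hder : C0.P.derivative.evalEval (val v C0.z) (val v C0.y) ≠ 0) {f : F}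
    (hf : f ∈ v.toValuationSubring) :
    ∃ N D : K[X][X], D.evalEval (val v C0.z) (val v C0.y) ≠ 0 ∧ f * C0.ev D = C0.ev N := by
  rcases eq_or_ne f 0 with rfl | hf0
  · refine ⟨0, 1, ?_, ?_⟩
    · rw [evalEval_one]; exact one_ne_zero
    · rw [zero_mul]
      change _ = aevalAeval (R := K) C0.z C0.y 0
      rw [map_zero]
  obtain ⟨m, N, D, hN, hD, h⟩ := C0.normal_form v hz hy hder hf0
  have h3 := C0.ord_of_normal v hz hy hf0 hN hD h
  have h5 := ((mem_iff_ord v f).1 hf).resolve_left hf0
  rw [h3, C0.ord_uniformizer v hz hy hder, mul_one] at h5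
  obtain ⟨n, rfl⟩ := Int.eq_ofNat_of_zero_le h5
  refine ⟨(C X - C (C (val v C0.z))) ^ n * N, D, hD, ?_⟩
  rw [h, zpow_natCast]
  change _ = aevalAeval (R := K) C0.z C0.y _
  rw [map_mul, map_pow, map_sub, aevalAeval_X, aevalAeval_C, aeval_C]

end Normal

end Coords

end Fermat.Agent.S27C
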