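import Mathlib
import Fermat.Agent.S27C.Smooth
import Fermat.Agent.S27C.Cls
import Fermat.Agent.S27C.Implicit

/-!
# The kernel function `P(t, y) / (y - Y(t))` and expansions at infinity
-/

set_option autoImplicit false

noncomputable section


open AlgebraicCurve Polynomial Filter Metric
open scoped Topology
open Fermat.Agent.FunField (IsFF)

namespace Fermat.Agent.S27C

section KerPoly

variable {K : Type*} [Field K]

/-- `P(t, y) / (y - w)` as a polynomial with constant coefficients. -/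
def kerPoly (P : K[X][X]) (t w : K) : K[X][X] :=
  ∑ i ∈ Finset.range (P.natDegree + 1), ∑ j ∈ Finset.range i,
    C (C ((P.coeff i).eval t * w ^ (i - 1 - j))) * X ^ j

theorem evalEval_eq_sum (P : K[X][X]) (t w : K) :
    P.evalEval t w = ∑ i ∈ Finset.range (P.natDegree + 1), (P.coeff i).eval t * w ^ i := by
  conv_lhs => rw [P.as_sum_range_C_mul_X_pow]
  rw [evalEval_finsetSum]
  refine Finset.sum_congr rfl fun i _ => ?_
  rw [evalEval_mul, evalEval_pow, evalEval_C, evalEval_X]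

theorem C_C_evalEval (P : K[X][X]) (t w : K) : (C (C (P.evalEval t w)) : K[X][X]) =
    ∑ i ∈ Finset.range (P.natDegree + 1), C (C ((P.coeff i).eval t)) * (C (C w)) ^ i := by
  rw [evalEval_eq_sum, map_sum, map_sum]
  refine Finset.sum_congr rfl fun i _ => ?_
  rw [C_mul, C_mul, C_pow, C_pow]

theorem kerPoly_aux (c W : K[X]) (a : ℕ → K[X][X]) (i : ℕ)
    (h : ∀ j, a j = C (c * W ^ (i - 1 - j)) * X ^ j) :
    (∑ j ∈ Finset.range i, a j) * (X - C W) = C c * X ^ i - C c * C W ^ i := by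
  have h2 : (X : K[X][X]) ^ i - (C W) ^ i =
      (∑ j ∈ Finset.range i, X ^ j * (C W) ^ (i - 1 - j)) * (X - C W) :=
    (geom_sum₂_mul X (C W) i).symm
  rw [← mul_sub, h2, ← mul_assoc, Finset.mul_sum]
  congr 1
  refine Finset.sum_congr rfl fun j _ => ?_
  rw [h, C_mul, C_pow, mul_comm (X ^ j), mul_assoc]

theorem kerPoly_mul (P : K[X][X]) (t w : K) :
    kerPoly P t w * (X - C (C w)) =
      (∑ i ∈ Finset.range (P.natDegree + 1), C (C ((P.coeff i).eval t)) * X ^ i) -
        C (C (P.evalEval t w)) := by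
  rw [C_C_evalEval, ← Finset.sum_sub_distrib, kerPoly, Finset.sum_mul]
  refine Finset.sum_congr rfl fun i _ => ?_
  apply kerPoly_aux
  intro j
  rw [C_mul, C_pow]

theorem exists_kerPoly (P : K[X][X]) (t w : K) (h : P.evalEval t w = 0) :
    ∃ s : K[X][X], kerPoly P t w * (X - C (C w)) = P - C (X - C t) * s := by
  have h2 : ∀ i, ∃ s : K[X], P.coeff i - C ((P.coeff i).eval t) = (X - C t) * s := fun i =>
    X_sub_C_dvd_sub_C_eval
  choose s hs using h2
  refine ⟨∑ i ∈ Finset.range (P.natDegree + 1), C (s i) * X ^ i, ?_⟩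
  rw [kerPoly_mul, h, C_0, C_0, sub_zero, Finset.mul_sum]
  have h3 : P = ∑ i ∈ Finset.range (P.natDegree + 1), C (P.coeff i) * X ^ i :=
    P.as_sum_range_C_mul_X_pow
  have h4 : (∑ i ∈ Finset.range (P.natDegree + 1), C (C ((P.coeff i).eval t)) * X ^ i : K[X][X]) =
      (∑ i ∈ Finset.range (P.natDegree + 1), C (P.coeff i) * X ^ i) -
        ∑ i ∈ Finset.range (P.natDegree + 1), C (X - C t) * (C (s i) * X ^ i) := by
    rw [← Finset.sum_sub_distrib]
    refine Finset.sum_congr rfl fun i _ => ?_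
    rw [← mul_assoc, ← C_mul, ← hs i, C_sub, ← sub_mul, sub_sub_cancel]
  rw [h4, ← h3]

theorem kerPoly_eval (P : K[X][X]) (t w : K) :
    (kerPoly P t w).evalEval t w = P.derivative.evalEval t w := by
  conv_rhs => rw [P.as_sum_range_C_mul_X_pow]
  rw [kerPoly, evalEval_finsetSum, derivative_sum, evalEval_finsetSum]
  refine Finset.sum_congr rfl fun i _ => ?_
  rw [evalEval_finsetSum, derivative_C_mul_X_pow, evalEval_mul, evalEval_pow, evalEval_C,
    evalEval_X]
  have h1 : ∀ j ∈ Finset.range i,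
      (C (C ((P.coeff i).eval t * w ^ (i - 1 - j))) * X ^ j : K[X][X]).evalEval t w =
        (P.coeff i).eval t * w ^ (i - 1) := by
    intro j hj
    rw [Finset.mem_range] at hj
    rw [evalEval_mul, evalEval_pow, evalEval_C, evalEval_X, eval_C, mul_assoc, ← pow_add]
    congr 2
    omega
  rw [Finset.sum_congr rfl h1, Finset.sum_const, Finset.card_range, nsmul_eq_mul, eval_mul,
    eval_natCast]
  ring

end KerPoly

section Geom

variable {K F : Type*} [Field K] [Field F] [Algebra K F]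

theorem geom_identity {z a f : F} (hz : z ≠ 0) (hza : z - a ≠ 0) (k : ℕ) :
    f * (z - a)⁻¹ - ∑ i ∈ Finset.range k, a ^ i * (f * z⁻¹ ^ (i + 1)) =
      a ^ k * ((f * z⁻¹ ^ k) * (z - a)⁻¹) := by
  induction k with
  | zero => simp
  | succ k ih =>
    rw [Finset.sum_range_succ, ← sub_sub, ih]
    have h1 : z * z⁻¹ = 1 := mul_inv_cancel₀ hz
    have h2 : (z - a) * (z - a)⁻¹ = 1 := mul_inv_cancel₀ hza
    linear_combination a ^ k * f * z⁻¹ ^ k * (-(z - a)⁻¹ * h1 + z⁻¹ * h2)

/-- Laurent expansion of `f / (z - t)` at a pole of `z`. -/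
theorem cls_geom (Pinf : Place K F) {z : F} (hz : Pinf.ord z < 0) (f : F) :
    ∃ K0 : ℕ, ∀ t : K, cls Pinf (f * (z - algebraMap K F t)⁻¹) =
      ∑ k ∈ Finset.range K0, t ^ k • cls Pinf (f * z⁻¹ ^ (k + 1)) := by
  have hz0 : z ≠ 0 := by
    rintro rfl
    rw [Place.ord_zero] at hz
    exact lt_irrefl _ hz
  refine ⟨(-(Pinf.ord f)).toNat, fun t => ?_⟩
  have hza : z - algebraMap K F t ∉ Pinf.toValuationSubring := by
    intro h
    have h1 : z ∈ Pinf.toValuationSubring := by
      have := add_mem h (mem_algebraMap Pinf t)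
      rwa [sub_add_cancel] at this
    have h2 := ((mem_iff_ord Pinf z).1 h1).resolve_left hz0
    exact absurd hz (not_lt.2 h2)
  have hza0 : z - algebraMap K F t ≠ 0 := fun h => hza (by rw [h]; exact zero_mem _)
  have hinv : (z - algebraMap K F t)⁻¹ ∈ Pinf.toValuationSubring :=
    (Pinf.toValuationSubring.mem_or_inv_mem _).resolve_left hza
  rw [← sub_eq_zero]
  have h3 : ∑ k ∈ Finset.range (-(Pinf.ord f)).toNat, t ^ k • cls Pinf (f * z⁻¹ ^ (k + 1)) =
      cls Pinf (∑ k ∈ Finset.range (-(Pinf.ord f)).toNat,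
        (algebraMap K F t) ^ k * (f * z⁻¹ ^ (k + 1))) := by
    rw [map_sum]
    refine Finset.sum_congr rfl fun k _ => ?_
    rw [← map_smul, Algebra.smul_def, map_pow]
  rw [h3, ← map_sub, geom_identity hz0 hza0]
  apply cls_eq_zero_of_mem
  refine mul_mem (pow_mem (mem_algebraMap Pinf t) _) (mul_mem ?_ hinv)
  rcases eq_or_ne f 0 with rfl | hf
  · rw [zero_mul]; exact zero_mem _
  apply mem_of_ord_nonneg
  rw [Pinf.ord_mul hf (pow_ne_zero _ (inv_ne_zero hz0)), FunField.PlaceLemmas.ord_pow,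
    Pinf.ord_inv]
  have h4 : -(Pinf.ord f) ≤ ((-(Pinf.ord f)).toNat : ℤ) := Int.self_le_toNat _
  nlinarith

end Geom

section An

variable {F : Type*} [Field F] [Algebra ℂ F]

theorem analyticAt_cls_geom (Pinf : Place ℂ F) {z : F} (hz : Pinf.ord z < 0) (f : F)
    (l : H1 (0 : Divisor ℂ F) →ₗ[ℂ] ℂ) (t : ℂ) :
    AnalyticAt ℂ (fun u => l (cls Pinf (f * (z - algebraMap ℂ F u)⁻¹))) t := by
  obtain ⟨K0, h⟩ := cls_geom Pinf hz f
  have h1 : (fun u => l (cls Pinf (f * (z - algebraMap ℂ F u)⁻¹))) =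
      fun u => ∑ k ∈ Finset.range K0, u ^ k * l (cls Pinf (f * z⁻¹ ^ (k + 1))) := by
    funext u
    rw [h u, map_sum]
    refine Finset.sum_congr rfl fun k _ => ?_
    rw [map_smul, smul_eq_mul]
  rw [h1]
  apply Finset.analyticAt_fun_sum
  intro k _
  exact (analyticAt_id.pow k).mul analyticAt_const

end An

end Fermat.Agent.S27C
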