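import Mathlib
import Fermat.Agent.S27C.Ker
import Fermat.Agent.S27C.Chart
import Fermat.Agent.S27C.Pencil
import Fermat.Agent.FunField.RR

/-!
# Existence of analytic charts
-/

set_option autoImplicit false

noncomputable section


open AlgebraicCurve Polynomial Filter Metric
open scoped Topology
open Fermat.Agent.FunField (IsFF)

namespace Fermat.Agent.S27C

variable {F : Type*} [Field F] [Algebra ℂ F] [IsCurveOver ℂ F]

/-- An analytic branch of the plane model at a smooth point. -/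
structure Branch {Pinf Q : Place ℂ F} (C0 : Coords Pinf Q) where
  Y : ℂ → ℂ
  r : ℝ
  r_pos : 0 < r
  Yan : ∀ t ∈ ball (0 : ℂ) r, AnalyticAt ℂ Y t
  hder : ∀ t ∈ ball (0 : ℂ) r, C0.P.derivative.evalEval t (Y t) ≠ 0
  pt : ℂ → Place ℂ F
  pt_zero : pt 0 = Q
  hz : ∀ t ∈ ball (0 : ℂ) r, C0.z ∈ (pt t).toValuationSubring
  hy : ∀ t ∈ ball (0 : ℂ) r, C0.y ∈ (pt t).toValuationSubring
  vz : ∀ t ∈ ball (0 : ℂ) r, val (pt t) C0.z = t
  vy : ∀ t ∈ ball (0 : ℂ) r, val (pt t) C0.y = Y t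
  near : ∃ δ : ℝ, 0 < δ ∧ ∀ v : Place ℂ F, C0.z ∈ v.toValuationSubring →
    C0.y ∈ v.toValuationSubring → ‖val v C0.z‖ < δ → ‖val v C0.y‖ < δ →
      val v C0.y = Y (val v C0.z)

variable {Pinf Q : Place ℂ F} {C0 : Coords Pinf Q}

theorem Coords.val_ev (C0 : Coords Pinf Q) (v : Place ℂ F) (hz : C0.z ∈ v.toValuationSubring)
    (hy : C0.y ∈ v.toValuationSubring) (p : ℂ[X][X]) :
    val v (C0.ev p) = p.evalEval (val v C0.z) (val v C0.y) := val_aevalAeval v hz hy p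

theorem Coords.P_val (C0 : Coords Pinf Q) (v : Place ℂ F) (hz : C0.z ∈ v.toValuationSubring)
    (hy : C0.y ∈ v.toValuationSubring) :
    C0.P.evalEval (val v C0.z) (val v C0.y) = 0 := by
  rw [← C0.val_ev v hz hy, C0.ev_P, val_zero]

theorem exists_branch [IsFF ℂ F] (C0 : Coords Pinf Q) (hPQ : Pinf ≠ Q) (hval : val Q C0.y = 0)
    (hder : C0.P.derivative.evalEval 0 0 ≠ 0) : Nonempty (Branch C0) := by
  classical
  have hzQ : C0.z ∈ Q.toValuationSubring := C0.hz Q (Ne.symm hPQ)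
  have hyQ : C0.y ∈ Q.toValuationSubring := C0.hy Q (Ne.symm hPQ)
  have hzv : val Q C0.z = 0 := val_of_ord_pos Q (by rw [C0.ordz]; norm_num)
  have h0 : C0.P.evalEval 0 0 = 0 := by
    have := C0.P_val Q hzQ hyQ
    rwa [hzv, hval] at this
  obtain ⟨Y, r, hr, hY0, hYan, hP, hd, δ, hδ, huniq⟩ := exists_implicit C0.P h0 hder
  have hex : ∀ t ∈ ball (0 : ℂ) r, ∃ v : Place ℂ F, C0.z ∈ v.toValuationSubring ∧
      C0.y ∈ v.toValuationSubring ∧ val v C0.z = t ∧ val v C0.y = Y t :=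
    fun t ht => C0.exists_place (hP t ht)
  haveI : Nonempty (Place ℂ F) := ⟨Q⟩
  choose! pt hpz hpy hpvz hpvy using hex
  have h0mem : (0 : ℂ) ∈ ball (0 : ℂ) r := mem_ball_self hr
  have hpt0 : Q = pt 0 := by
    apply C0.place_unique Q (pt 0) hzQ hyQ (hpz 0 h0mem) (hpy 0 h0mem)
    · rw [hzv, hval]; exact hder
    · rw [hpvz 0 h0mem, hzv]
    · rw [hpvy 0 h0mem, hval, hY0]
  refine ⟨⟨Y, r, hr, hYan, hd, pt, hpt0.symm, hpz, hpy, hpvz, hpvy, δ, hδ, ?_⟩⟩
  intro v hz hy h1 h2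
  exact huniq _ _ h1 h2 (C0.P_val v hz hy)

namespace Branch

variable (B : Branch C0)

theorem val_ev {t : ℂ} (ht : t ∈ ball (0 : ℂ) B.r) (p : ℂ[X][X]) :
    val (B.pt t) (C0.ev p) = p.evalEval t (B.Y t) := by
  rw [C0.val_ev _ (B.hz t ht) (B.hy t ht), B.vz t ht, B.vy t ht]

theorem ev_mem {t : ℂ} (ht : t ∈ ball (0 : ℂ) B.r) (p : ℂ[X][X]) :
    C0.ev p ∈ (B.pt t).toValuationSubring := aevalAeval_mem _ (B.hz t ht) (B.hy t ht) p

theorem P_eval {t : ℂ} (ht : t ∈ ball (0 : ℂ) B.r) : C0.P.evalEval t (B.Y t) = 0 := by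
  rw [← B.val_ev ht, C0.ev_P, val_zero]

theorem ord_z {t : ℂ} (ht : t ∈ ball (0 : ℂ) B.r) :
    (B.pt t).ord (C0.z - algebraMap ℂ F t) = 1 := by
  have h1 := C0.ord_uniformizer (B.pt t) (B.hz t ht) (B.hy t ht) (by
    rw [B.vz t ht, B.vy t ht]; exact B.hder t ht)
  rwa [B.vz t ht] at h1

theorem eq_pt {t : ℂ} (ht : t ∈ ball (0 : ℂ) B.r) (v : Place ℂ F)
    (hz : C0.z ∈ v.toValuationSubring) (hy : C0.y ∈ v.toValuationSubring)
    (h1 : val v C0.z = t) (h2 : val v C0.y = B.Y t) : B.pt t = v := by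
  apply C0.place_unique (B.pt t) v (B.hz t ht) (B.hy t ht) hz hy
  · rw [B.vz t ht, B.vy t ht]; exact B.hder t ht
  · rw [h1, B.vz t ht]
  · rw [h2, B.vy t ht]

theorem an {t : ℂ} (ht : t ∈ ball (0 : ℂ) B.r) {f : F} (hf : f ∈ (B.pt t).toValuationSubring) :
    AnalyticAt ℂ (fun u => val (B.pt u) f) t ∧ ∀ᶠ u in 𝓝 t, f ∈ (B.pt u).toValuationSubring := by
  obtain ⟨N, D, hD, h⟩ := C0.regular_form (B.pt t) (B.hz t ht) (B.hy t ht) (by
    rw [B.vz t ht, B.vy t ht]; exact B.hder t ht) hf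
  rw [B.vz t ht, B.vy t ht] at hD
  have hDan : AnalyticAt ℂ (fun u => D.evalEval u (B.Y u)) t :=
    analyticAt_evalEval D analyticAt_id (B.Yan t ht)
  have hNan : AnalyticAt ℂ (fun u => N.evalEval u (B.Y u)) t :=
    analyticAt_evalEval N analyticAt_id (B.Yan t ht)
  have hball : ∀ᶠ u in 𝓝 t, u ∈ ball (0 : ℂ) B.r := isOpen_ball.eventually_mem ht
  have hDne : ∀ᶠ u in 𝓝 t, D.evalEval u (B.Y u) ≠ 0 := hDan.continuousAt.eventually_ne hD
  have key : ∀ᶠ u in 𝓝 t, f ∈ (B.pt u).toValuationSubring ∧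
      val (B.pt u) f = N.evalEval u (B.Y u) / D.evalEval u (B.Y u) := by
    filter_upwards [hball, hDne] with u hu hDu
    have h1 : val (B.pt u) (C0.ev D) ≠ 0 := by rw [B.val_ev hu]; exact hDu
    have h2 : C0.ev D ≠ 0 := by
      intro h0
      rw [h0, val_zero] at h1
      exact h1 rfl
    have h3 : f = C0.ev N / C0.ev D := by
      rw [eq_div_iff h2]
      exact h
    have h4 := div_mem_of_val_ne (B.pt u) (B.ev_mem hu N) (B.ev_mem hu D) h1
    rw [← h3] at h4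
    refine ⟨h4, ?_⟩
    conv_lhs => rw [h3]
    rw [val_div (B.pt u) (B.ev_mem hu N) (B.ev_mem hu D) h1, B.val_ev hu, B.val_ev hu]
  refine ⟨?_, key.mono fun u hu => hu.1⟩
  exact (hNan.div hDan hD).congr (key.mono fun u hu => hu.2.symm)

/-- The kernel function. -/
theorem cls_pt (hPinf : Pinf.ord C0.z < 0) {t : ℂ} (ht : t ∈ ball (0 : ℂ) B.r) :
    cls (B.pt t) (C0.z - algebraMap ℂ F t)⁻¹ =
      (-(C0.P.derivative.evalEval t (B.Y t))⁻¹) •
        ∑ i ∈ Finset.range (C0.P.natDegree + 1), ∑ j ∈ Finset.range i,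
          ((C0.P.coeff i).eval t * B.Y t ^ (i - 1 - j)) •
            cls Pinf (C0.y ^ j * (C0.z - algebraMap ℂ F t)⁻¹) := by
  classical
  set d := C0.P.derivative.evalEval t (B.Y t) with hd
  have hd0 : d ≠ 0 := B.hder t ht
  set τ : F := C0.z - algebraMap ℂ F t with hτ
  have hτ0 : τ ≠ 0 := C0.z_ne_algebraMap t
  set q : F := C0.ev (kerPoly C0.P t (B.Y t)) with hq
  obtain ⟨s, hs⟩ := exists_kerPoly C0.P t (B.Y t) (B.P_eval ht)
  have hqs : q * (C0.y - algebraMap ℂ F (B.Y t)) = - (τ * C0.ev s) := by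
    have h1 := congrArg C0.ev hs
    change aevalAeval (R := ℂ) C0.z C0.y _ = aevalAeval (R := ℂ) C0.z C0.y _ at h1
    rw [map_mul, map_sub, map_sub, map_mul, aevalAeval_Y, aevalAeval_C, aevalAeval_C, map_sub,
      aeval_X, aeval_C, aeval_C] at h1
    have h2 : aevalAeval (R := ℂ) C0.z C0.y C0.P = 0 := C0.ev_P
    rw [h2, zero_sub] at h1
    exact h1
  have hq_mem : ∀ v : Place ℂ F, C0.z ∈ v.toValuationSubring → C0.y ∈ v.toValuationSubring →
      ∀ p : ℂ[X][X], C0.ev p ∈ v.toValuationSubring := fun v h1 h2 p => aevalAeval_mem v h1 h2 p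
  -- poles
  have hpole : ∀ v : Place ℂ F, v ≠ Pinf → v ≠ B.pt t → q * τ⁻¹ ∈ v.toValuationSubring := by
    intro v hv1 hv2
    have hz := C0.hz v hv1
    have hy := C0.hy v hv1
    have hτm : τ ∈ v.toValuationSubring := sub_mem hz (mem_algebraMap v t)
    by_cases h1 : val v C0.z = t
    · have h2 : val v C0.y ≠ B.Y t := by
        intro h2
        exact hv2 (B.eq_pt ht v hz hy h1 h2).symm
      have hym : C0.y - algebraMap ℂ F (B.Y t) ∈ v.toValuationSubring :=
        sub_mem hy (mem_algebraMap v _)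
      have hyv : val v (C0.y - algebraMap ℂ F (B.Y t)) ≠ 0 := by
        rw [val_sub v hy (mem_algebraMap v _), val_algebraMap]
        exact sub_ne_zero.2 h2
      have hy0 : C0.y - algebraMap ℂ F (B.Y t) ≠ 0 := by
        intro h0
        rw [h0, val_zero] at hyv
        exact hyv rfl
      have h3 : q * τ⁻¹ = (-(C0.ev s)) * (C0.y - algebraMap ℂ F (B.Y t))⁻¹ := by
        rw [eq_mul_inv_iff_mul_eq₀ hy0]
        calc q * τ⁻¹ * (C0.y - algebraMap ℂ F (B.Y t)) =
            (q * (C0.y - algebraMap ℂ F (B.Y t))) * τ⁻¹ := by ring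
          _ = -(τ * C0.ev s) * τ⁻¹ := by rw [hqs]
          _ = -(C0.ev s) := by field_simp
      rw [h3]
      exact mul_mem (neg_mem (hq_mem v hz hy s)) (inv_mem_of_val_ne v hym hyv)
    · have h2 : val v τ ≠ 0 := by
        rw [hτ, val_sub v hz (mem_algebraMap v t), val_algebraMap]
        exact sub_ne_zero.2 h1
      exact mul_mem (hq_mem v hz hy _) (inv_mem_of_val_ne v hτm h2)
  have hne : B.pt t ≠ Pinf := by
    intro h
    have h1 := B.hz t ht
    rw [h] at h1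
    have h2 := (mem_iff_ord Pinf C0.z).1 h1
    rcases h2 with h2 | h2
    · rw [h2, Place.ord_zero] at hPinf
      exact lt_irrefl _ hPinf
    · exact absurd hPinf (not_lt.2 h2)
  have hsum : cls (B.pt t) (q * τ⁻¹) + cls Pinf (q * τ⁻¹) = 0 := by
    have := sum_cls_eq_zero {B.pt t, Pinf} (q * τ⁻¹) (by
      intro v hv
      rw [Finset.mem_insert, Finset.mem_singleton, not_or] at hv
      exact hpole v hv.2 hv.1)
    rwa [Finset.sum_pair hne] at this
  -- at the point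
  have hloc : cls (B.pt t) (q * τ⁻¹) = d • cls (B.pt t) τ⁻¹ := by
    rw [← map_smul]
    apply cls_congr
    rw [Algebra.smul_def, ← sub_mul]
    have hqm : q ∈ (B.pt t).toValuationSubring := B.ev_mem ht _
    have hqv : val (B.pt t) (q - algebraMap ℂ F d) = 0 := by
      rw [val_sub _ hqm (mem_algebraMap _ _), val_algebraMap, hq, B.val_ev ht, kerPoly_eval,
        sub_self]
    rcases (val_eq_zero_iff_ord _ (sub_mem hqm (mem_algebraMap _ d))).1 hqv with h | h
    · rw [h, zero_mul]; exact zero_mem _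
    · by_cases hq0 : q - algebraMap ℂ F d = 0
      · rw [hq0, zero_mul]; exact zero_mem _
      apply mem_of_ord_nonneg
      rw [(B.pt t).ord_mul hq0 (inv_ne_zero hτ0), Place.ord_inv, B.ord_z ht]
      omega
  have hfin : d • cls (B.pt t) τ⁻¹ = - cls Pinf (q * τ⁻¹) := by
    rw [← hloc]
    exact eq_neg_of_add_eq_zero_left hsum
  have hexp : cls Pinf (q * τ⁻¹) = ∑ i ∈ Finset.range (C0.P.natDegree + 1),
      ∑ j ∈ Finset.range i, ((C0.P.coeff i).eval t * B.Y t ^ (i - 1 - j)) •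
        cls Pinf (C0.y ^ j * τ⁻¹) := by
    have h1 : q = ∑ i ∈ Finset.range (C0.P.natDegree + 1), ∑ j ∈ Finset.range i,
        ((C0.P.coeff i).eval t * B.Y t ^ (i - 1 - j)) • C0.y ^ j := by
      rw [hq, kerPoly]
      change aevalAeval (R := ℂ) C0.z C0.y _ = _
      rw [map_sum]
      refine Finset.sum_congr rfl fun i _ => ?_
      rw [map_sum]
      refine Finset.sum_congr rfl fun j _ => ?_
      rw [map_mul, map_pow, aevalAeval_Y, aevalAeval_C, aeval_C, Algebra.smul_def]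
    rw [h1, Finset.sum_mul, map_sum]
    refine Finset.sum_congr rfl fun i _ => ?_
    rw [Finset.sum_mul, map_sum]
    refine Finset.sum_congr rfl fun j _ => ?_
    rw [smul_mul_assoc, map_smul]
  rw [← hexp, neg_smul, ← smul_neg, ← hfin, smul_smul, inv_mul_cancel₀ hd0, one_smul]

theorem anM (hPinf : Pinf.ord C0.z < 0) {t : ℂ} (ht : t ∈ ball (0 : ℂ) B.r)
    (l : H1 (0 : Divisor ℂ F) →ₗ[ℂ] ℂ) :
    AnalyticAt ℂ (fun u => l (cls (B.pt u) (C0.z - algebraMap ℂ F u)⁻¹)) t := by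
  have hball : ∀ᶠ u in 𝓝 t, u ∈ ball (0 : ℂ) B.r := isOpen_ball.eventually_mem ht
  have h1 : AnalyticAt ℂ (fun u => (-(C0.P.derivative.evalEval u (B.Y u))⁻¹) *
        ∑ i ∈ Finset.range (C0.P.natDegree + 1), ∑ j ∈ Finset.range i,
          ((C0.P.coeff i).eval u * B.Y u ^ (i - 1 - j)) *
            l (cls Pinf (C0.y ^ j * (C0.z - algebraMap ℂ F u)⁻¹))) t := by
    refine AnalyticAt.mul ?_ ?_
    · refine AnalyticAt.neg (AnalyticAt.inv ?_ (B.hder t ht))
      exact analyticAt_evalEval _ analyticAt_id (B.Yan t ht)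
    · refine Finset.analyticAt_fun_sum _ fun i _ => ?_
      refine Finset.analyticAt_fun_sum _ fun j _ => ?_
      refine AnalyticAt.mul (AnalyticAt.mul ?_ ((B.Yan t ht).pow _)) ?_
      · exact analyticAt_eval _ analyticAt_id
      · exact analyticAt_cls_geom Pinf hPinf _ l t
  refine h1.congr ?_
  filter_upwards [hball] with u hu
  rw [B.cls_pt hPinf hu, map_smul, map_sum, smul_eq_mul]
  congr 1
  refine Finset.sum_congr rfl fun i _ => ?_
  rw [map_sum]
  refine Finset.sum_congr rfl fun j _ => ?_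
  rw [map_smul, smul_eq_mul]

/-- The chart attached to a branch. -/
def toChart (hPinf : Pinf.ord C0.z < 0) : Chart Q where
  z := C0.z
  pt := B.pt
  r := B.r
  r_pos := B.r_pos
  pt_zero := B.pt_zero
  z_mem := B.hz
  z_val := B.vz
  ord_z t ht := B.ord_z ht
  an t ht f hf := B.an ht hf
  anM t ht l := B.anM hPinf ht l

theorem isNhd (hPQ : Pinf ≠ Q) (hPinf : Pinf.ord C0.z < 0) (hval : val Q C0.y = 0) :
    (B.toChart hPinf).IsNhd := by
  classical
  intro ε hε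
  obtain ⟨δ, hδ, hn⟩ := B.near
  have hzQ : C0.z ∈ Q.toValuationSubring := C0.hz Q (Ne.symm hPQ)
  have hyQ : C0.y ∈ Q.toValuationSubring := C0.hy Q (Ne.symm hPQ)
  have hzv : val Q C0.z = 0 := val_of_ord_pos Q (by rw [C0.ordz]; norm_num)
  refine ⟨{C0.z, C0.y}, min δ (min ε B.r), lt_min hδ (lt_min hε B.r_pos), ?_, ?_⟩
  · intro f hf
    rw [Finset.mem_insert, Finset.mem_singleton] at hf
    rcases hf with rfl | rfl
    · exact hzQ
    · exact hyQ
  · intro v hv
    obtain ⟨h1, h2⟩ := hv C0.z (by simp)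
    obtain ⟨h3, h4⟩ := hv C0.y (by simp)
    rw [hzv, sub_zero] at h2
    rw [hval, sub_zero] at h4
    have h5 : val v C0.y = B.Y (val v C0.z) :=
      hn v h1 h3 (lt_of_lt_of_le h2 (min_le_left _ _)) (lt_of_lt_of_le h4 (min_le_left _ _))
    have h6 : ‖val v C0.z‖ < B.r :=
      lt_of_lt_of_le h2 ((min_le_right _ _).trans (min_le_right _ _))
    have h7 : ‖val v C0.z‖ < ε :=
      lt_of_lt_of_le h2 ((min_le_right _ _).trans (min_le_left _ _))
    refine ⟨val v C0.z, by rwa [mem_ball_zero_iff], ?_⟩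
    exact B.eq_pt (by rwa [mem_ball_zero_iff]) v h1 h3 rfl h5

end Branch

theorem exists_ne_place [IsFF ℂ F] (Q : Place ℂ F) : ∃ P : Place ℂ F, P ≠ Q := by
  by_contra hcon
  push Not at hcon
  obtain ⟨f, hf0, hf⟩ := FunField.PlaceLemmas.exists_ord_eq_one Q
  have h1 := FunField.degree_divOf (K := ℂ) f
  have h2 : (0 : Divisor ℂ F) ≤ FunField.divOf f := by
    intro v
    rw [hcon v, FunField.divOf_apply, hf]
    simp
  have h3 := eq_zero_of_degree_zero h2 h1
  have h4 := DFunLike.congr_fun h3 Q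
  rw [FunField.divOf_apply, hf] at h4
  simp at h4

/-- Every place has an analytic chart. -/
theorem exists_chart [IsFF ℂ F] (Q : Place ℂ F) : ∃ c : Chart Q, c.IsNhd := by
  obtain ⟨Pinf, hPQ⟩ := exists_ne_place Q
  obtain ⟨C0, hval, hder⟩ := exists_coords' Pinf Q hPQ
  obtain ⟨B⟩ := exists_branch C0 hPQ hval hder
  exact ⟨B.toChart C0.ordP, B.isNhd hPQ C0.ordP hval⟩

end Fermat.Agent.S27C
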