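import Mathlib
import Fermat.Agent.S27C.ChartExists

/-!
# Nonspecial families of points
-/

set_option autoImplicit false

noncomputable section


open AlgebraicCurve Filter Metric
open scoped Topology
open Fermat.Agent.FunField (IsFF)

namespace Fermat.Agent.S27C

section General

variable {K F : Type*} [Field K] [Field F] [Algebra K F] [IsAlgClosed K] [IsCurveOver K F]

theorem cls_of_ord_ge {v : Place K F} {z f : F} (hz : v.ord z = 1) (hf : f = 0 ∨ -1 ≤ v.ord f) :
    ∃ c : K, cls v f = c • cls v z⁻¹ := by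
  rcases eq_or_ne f 0 with rfl | hf0
  · exact ⟨0, by rw [map_zero, zero_smul]⟩
  have hz0 : z ≠ 0 := by
    rintro rfl
    rw [Place.ord_zero] at hz
    exact zero_ne_one hz
  have hf1 := hf.resolve_left hf0
  have hm : f * z ∈ v.toValuationSubring := by
    apply mem_of_ord_nonneg
    rw [v.ord_mul hf0 hz0, hz]
    omega
  refine ⟨val v (f * z), ?_⟩
  rw [← map_smul, Algebra.smul_def]
  apply cls_congr
  have h1 : f - algebraMap K F (val v (f * z)) * z⁻¹ =
      (f * z - algebraMap K F (val v (f * z))) * z⁻¹ := by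
    field_simp
  rw [h1]
  have h2 : val v (f * z - algebraMap K F (val v (f * z))) = 0 := by
    rw [val_sub v hm (mem_algebraMap v _), val_algebraMap, sub_self]
  rcases (val_eq_zero_iff_ord v (sub_mem hm (mem_algebraMap v _))).1 h2 with h | h
  · rw [h, zero_mul]; exact zero_mem _
  · by_cases h0 : f * z - algebraMap K F (val v (f * z)) = 0
    · rw [h0, zero_mul]; exact zero_mem _
    apply mem_of_ord_nonneg
    rw [v.ord_mul h0 (inv_ne_zero hz0), Place.ord_inv, hz]
    omega

/-- If `H¹(∑_{v ∈ T} v) = 0`, then `H¹(0)` is spanned by classes of simple poles in `T`. -/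
theorem exists_sum_cls [IsFF K F] (T : Finset (Place K F))
    (hT : Subsingleton (H1 (∑ v ∈ T, Finsupp.single v 1 : Divisor K F)))
    (x : H1 (0 : Divisor K F)) :
    ∃ f : Place K F → F, (∀ v ∈ T, f v = 0 ∨ -1 ≤ v.ord (f v)) ∧ x = ∑ v ∈ T, cls v (f v) := by
  classical
  obtain ⟨α, rfl⟩ := Submodule.Quotient.mk_surjective _ x
  set D : Divisor K F := ∑ v ∈ T, Finsupp.single v 1 with hD
  have hDv : ∀ v, D v = if v ∈ T then 1 else 0 := by
    intro v
    rw [hD, Finsupp.finsetSum_apply]
    simp only [Finsupp.single_apply]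
    simp
  have h0 : (Submodule.Quotient.mk α : H1 D) = 0 := Subsingleton.elim _ _
  rw [Submodule.Quotient.mk_eq_zero, Submodule.mem_sup] at h0
  obtain ⟨β, hβ, γ, hγ, hαβ⟩ := h0
  refine ⟨fun v => (β : Place K F → F) v, fun v hv => ?_, ?_⟩
  · have h1 := (mem_repartitionsOf_iff.1 hβ) v
    rw [hDv, if_pos hv] at h1
    exact h1
  · rw [sum_cls, Submodule.Quotient.eq]
    have h1 : α - ∑ v ∈ T, singleRep v ((β : Place K F → F) v) =
        (β - ∑ v ∈ T, singleRep v ((β : Place K F → F) v)) + γ := by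
      rw [← hαβ]; abel
    rw [h1]
    apply Submodule.add_mem_sup _ hγ
    rw [mem_repartitionsOf_zero]
    intro w
    change (β : Place K F → F) w -
      ((∑ v ∈ T, singleRep v ((β : Place K F → F) v) : repartitions K F) : Place K F → F) w ∈ _
    rw [coe_sum_singleRep T (fun v => (β : Place K F → F) v) w]
    split_ifs with h
    · rw [sub_self]; exact zero_mem _
    · rw [sub_zero]
      have h2 := (mem_repartitionsOf_iff.1 hβ) w
      rw [hDv, if_neg h] at h2
      rw [mem_iff_ord]
      simpa using h2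

end General

variable {F : Type*} [Field F] [Algebra ℂ F] [IsCurveOver ℂ F] [IsFF ℂ F]

/-- A chosen chart around each place. -/
def chartAt (Q : Place ℂ F) : Chart Q := (exists_chart Q).choose

theorem chartAt_isNhd (Q : Place ℂ F) : (chartAt Q).IsNhd := (exists_chart Q).choose_spec

omit [IsFF ℂ F] in
theorem Chart.infinite_image {Q : Place ℂ F} (c : Chart Q) {ρ : ℝ} (hρ : 0 < ρ) (hle : ρ ≤ c.r) :
    (c.pt '' ball (0 : ℂ) ρ).Infinite := by
  have h1 : (ball (0 : ℂ) ρ).Infinite := by
    apply infinite_of_mem_nhds (0 : ℂ) (ball_mem_nhds _ hρ)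
  exact h1.image (c.pt_injOn.mono (ball_subset_ball hle))

instance infinite_place : Infinite (Place ℂ F) := by
  obtain ⟨Q⟩ := FunField.exists_place (K := ℂ) (F := F)
  have := (chartAt Q).infinite_image (chartAt Q).r_pos le_rfl
  exact Set.infinite_univ_iff.1 (this.mono (Set.subset_univ _))

theorem span_simple_poles (S0 : Finset (Place ℂ F)) :
    Submodule.span ℂ ((fun v : Place ℂ F => cls v (chartAt v).z⁻¹) '' {v | v ∉ S0}) = ⊤ := by
  classical
  obtain ⟨N, hN⟩ := FunField.exists_h1_vanishing (K := ℂ) (F := F)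
  have hinf : {v : Place ℂ F | v ∉ S0}.Infinite := by
    have := S0.finite_toSet.infinite_compl
    exact this
  obtain ⟨T, hTS, hTcard⟩ := hinf.exists_subset_card_eq N.toNat
  have hdeg : Divisor.degree (∑ v ∈ T, Finsupp.single v 1 : Divisor ℂ F) = N.toNat := by
    rw [map_sum, Finset.sum_congr rfl fun v _ => degree_single' v 1, Finset.sum_const, hTcard]
    simp
  have hsub := hN (∑ v ∈ T, Finsupp.single v 1) (by rw [hdeg]; exact Int.self_le_toNat _)
  rw [eq_top_iff]
  intro x _
  obtain ⟨f, hf, rfl⟩ := exists_sum_cls T hsub x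
  refine Submodule.sum_mem _ fun v hv => ?_
  obtain ⟨c, hc⟩ := cls_of_ord_ge (chartAt v).ord_z_zero (hf v hv)
  rw [hc]
  apply Submodule.smul_mem
  apply Submodule.subset_span
  exact ⟨v, hTS hv, rfl⟩

/-- Nonspecial families avoiding a finite set. -/
theorem exists_family (S0 : Finset (Place ℂ F)) :
    ∃ b : Fin (genusFF ℂ F) → Place ℂ F, Function.Injective b ∧ (∀ i, b i ∉ S0) ∧
      ∀ w : Fin (genusFF ℂ F) → ℂ, ∑ i, w i • cls (b i) (chartAt (b i)).z⁻¹ = 0 → w = 0 := by
  classical
  obtain ⟨B, hB1, hB2, hB3⟩ := exists_linearIndependent ℂ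
    ((fun v : Place ℂ F => cls v (chartAt v).z⁻¹) '' {v | v ∉ S0})
  rw [span_simple_poles S0] at hB2
  haveI : Module.Finite ℂ (H1 (0 : Divisor ℂ F)) := inferInstance
  let bas : Module.Basis B ℂ (H1 (0 : Divisor ℂ F)) := Module.Basis.mk hB3 (by
    rw [Subtype.range_coe, hB2])
  haveI : Finite B := Module.Finite.finite_basis bas
  haveI : Fintype B := Fintype.ofFinite B
  have hcard : Fintype.card B = genusFF ℂ F := (Module.finrank_eq_card_basis bas).symm
  let e : Fin (genusFF ℂ F) ≃ B := (Fintype.equivFinOfCardEq hcard).symm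
  have hch : ∀ x : B, ∃ v : Place ℂ F, v ∉ S0 ∧ cls v (chartAt v).z⁻¹ = x := fun x => hB1 x.2
  choose p hp1 hp2 using hch
  have hpinj : Function.Injective p := by
    intro x y h
    apply Subtype.ext
    rw [← hp2 x, ← hp2 y, h]
  refine ⟨fun i => p (e i), hpinj.comp e.injective, fun i => hp1 _, fun w hw => ?_⟩
  have h1 : ∑ i, w i • (bas (e i)) = 0 := by
    rw [← hw]
    refine Finset.sum_congr rfl fun i _ => ?_
    rw [hp2]
    simp [bas]
  have h2 : LinearIndependent ℂ (fun i => bas (e i)) := bas.linearIndependent.comp e e.injective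
  funext i
  exact Fintype.linearIndependent_iff.1 h2 w h1 i

end Fermat.Agent.S27C
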