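import Mathlib
import Fermat.Agent.S27C.Families

/-!
# Compactness and connectedness of the set of places
-/

set_option autoImplicit false

noncomputable section


open AlgebraicCurve Filter Metric
open scoped Topology
open Fermat.Agent.FunField (IsFF)

namespace Fermat.Agent.S27C

variable {F : Type*} [Field F] [Algebra ℂ F] [IsCurveOver ℂ F]

/-- Functions bounded along an ultrafilter of places. -/
def BddAlong (U : Ultrafilter (Place ℂ F)) (f : F) : Prop :=
  ∃ R : ℝ, ∀ᶠ v in (U : Filter (Place ℂ F)), f ∈ v.toValuationSubring ∧ ‖val v f‖ ≤ R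

namespace BddAlong

variable {U : Ultrafilter (Place ℂ F)}

theorem algebraMap (c : ℂ) : BddAlong U (algebraMap ℂ F c) :=
  ⟨‖c‖, Eventually.of_forall fun v => ⟨mem_algebraMap v c, by rw [val_algebraMap]⟩⟩

theorem add {f g : F} (hf : BddAlong U f) (hg : BddAlong U g) : BddAlong U (f + g) := by
  obtain ⟨R, hR⟩ := hf
  obtain ⟨R', hR'⟩ := hg
  refine ⟨R + R', ?_⟩
  filter_upwards [hR, hR'] with v h1 h2
  refine ⟨add_mem h1.1 h2.1, ?_⟩
  rw [val_add v h1.1 h2.1]
  exact (norm_add_le _ _).trans (add_le_add h1.2 h2.2)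

theorem mul {f g : F} (hf : BddAlong U f) (hg : BddAlong U g) : BddAlong U (f * g) := by
  obtain ⟨R, hR⟩ := hf
  obtain ⟨R', hR'⟩ := hg
  refine ⟨|R| * |R'|, ?_⟩
  filter_upwards [hR, hR'] with v h1 h2
  refine ⟨mul_mem h1.1 h2.1, ?_⟩
  rw [val_mul v h1.1 h2.1, norm_mul]
  exact mul_le_mul (h1.2.trans (le_abs_self _)) (h2.2.trans (le_abs_self _)) (norm_nonneg _)
    (abs_nonneg _)

theorem neg {f : F} (hf : BddAlong U f) : BddAlong U (-f) := by
  obtain ⟨R, hR⟩ := hf
  refine ⟨R, ?_⟩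
  filter_upwards [hR] with v h1
  refine ⟨neg_mem h1.1, ?_⟩
  rw [val_neg v h1.1, norm_neg]
  exact h1.2

theorem mem_inv_of_norm_ge {v : Place ℂ F} {f : F} {R : ℝ} (hR : 0 < R)
    (h : f ∉ v.toValuationSubring ∨ (f ∈ v.toValuationSubring ∧ R ≤ ‖val v f‖)) :
    f⁻¹ ∈ v.toValuationSubring ∧ ‖val v f⁻¹‖ ≤ R⁻¹ := by
  rcases h with h | ⟨h1, h2⟩
  · have hinv : f⁻¹ ∈ v.toValuationSubring := (v.toValuationSubring.mem_or_inv_mem f).resolve_left h
    have hval : val v f⁻¹ = 0 := by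
      by_contra hne
      have := inv_mem_of_val_ne v hinv hne
      rw [inv_inv] at this
      exact h this
    refine ⟨hinv, ?_⟩
    rw [hval, norm_zero]
    exact (inv_pos.2 hR).le
  · have hne : val v f ≠ 0 := by
      intro h0
      rw [h0, norm_zero] at h2
      exact absurd h2 (not_le.2 hR)
    refine ⟨inv_mem_of_val_ne v h1 hne, ?_⟩
    rw [val_inv v h1 hne, norm_inv]
    exact inv_anti₀ hR h2

theorem or_inv (U : Ultrafilter (Place ℂ F)) (f : F) : BddAlong U f ∨ BddAlong U f⁻¹ := by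
  by_cases h : BddAlong U f
  · exact Or.inl h
  · right
    refine ⟨(1 : ℝ)⁻¹, ?_⟩
    have h1 : ¬ ∀ᶠ v in (U : Filter (Place ℂ F)), f ∈ v.toValuationSubring ∧ ‖val v f‖ ≤ 1 :=
      fun h2 => h ⟨1, h2⟩
    rw [← Ultrafilter.eventually_not] at h1
    filter_upwards [h1] with v hv
    apply mem_inv_of_norm_ge one_pos
    by_cases hm : f ∈ v.toValuationSubring
    · right
      refine ⟨hm, ?_⟩
      by_contra hlt
      exact hv ⟨hm, (not_le.1 hlt).le⟩
    · exact Or.inl hm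

theorem exists_lim {f : F} (hf : BddAlong U f) :
    ∃ c : ℂ, Tendsto (fun v => val v f) (U : Filter (Place ℂ F)) (𝓝 c) := by
  obtain ⟨R, hR⟩ := hf
  have h1 : closedBall (0 : ℂ) R ∈ (U.map fun v => val v f) := by
    rw [Ultrafilter.mem_map]
    filter_upwards [hR] with v hv
    rw [Set.mem_preimage, mem_closedBall_zero_iff]
    exact hv.2
  obtain ⟨c, -, hc⟩ := (isCompact_closedBall (0 : ℂ) R).ultrafilter_le_nhds' _ h1
  exact ⟨c, hc⟩

theorem mem {f : F} (hf : BddAlong U f) :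
    ∀ᶠ v in (U : Filter (Place ℂ F)), f ∈ v.toValuationSubring := by
  obtain ⟨R, hR⟩ := hf
  exact hR.mono fun v hv => hv.1

theorem inv_of_lim {f : F} (hf : BddAlong U f) {c : ℂ} (hc : c ≠ 0)
    (h : Tendsto (fun v => val v f) (U : Filter (Place ℂ F)) (𝓝 c)) : BddAlong U f⁻¹ := by
  have hpos : 0 < ‖c‖ := norm_pos_iff.2 hc
  have h1 : ∀ᶠ v in (U : Filter (Place ℂ F)), ‖c‖ / 2 < ‖val v f‖ :=
    h.norm.eventually (lt_mem_nhds (half_lt_self hpos))
  refine ⟨(‖c‖ / 2)⁻¹, ?_⟩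
  filter_upwards [h1, hf.mem] with v h2 h3
  exact mem_inv_of_norm_ge (half_pos hpos) (Or.inr ⟨h3, h2.le⟩)

/-- The valuation ring of functions bounded along an ultrafilter. -/
def ring (U : Ultrafilter (Place ℂ F)) : ValuationSubring F where
  carrier := {f | BddAlong U f}
  mul_mem' h1 h2 := h1.mul h2
  one_mem' := by
    have := BddAlong.algebraMap (U := U) 1
    rwa [map_one] at this
  add_mem' h1 h2 := h1.add h2
  zero_mem' := by
    have := BddAlong.algebraMap (U := U) 0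
    rwa [map_zero] at this
  neg_mem' h := h.neg
  mem_or_inv_mem' f := or_inv U f

end BddAlong

/-- Ultrafilters of places converge. -/
theorem exists_limit [IsFF ℂ F] (U : Ultrafilter (Place ℂ F)) :
    ∃ Q : Place ℂ F, ∀ f ∈ Q.toValuationSubring,
      (∀ᶠ v in (U : Filter (Place ℂ F)), f ∈ v.toValuationSubring) ∧
      Tendsto (fun v => val v f) (U : Filter (Place ℂ F)) (𝓝 (val Q f)) := by
  have hne : BddAlong.ring U ≠ ⊤ := by
    intro htop
    have hall : ∀ f : F, BddAlong U f := fun f => by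
      have : f ∈ BddAlong.ring U := by rw [htop]; exact ValuationSubring.mem_top _
      exact this
    obtain ⟨P⟩ := FunField.exists_place (K := ℂ) (F := F)
    obtain ⟨f, hf0, hf⟩ := FunField.PlaceLemmas.exists_ord_eq_one P
    obtain ⟨c, hc⟩ := (hall f).exists_lim
    set g : F := f - algebraMap ℂ F c with hg
    have hg0 : g ≠ 0 := by
      intro h0
      have h1 : f = algebraMap ℂ F c := sub_eq_zero.1 h0
      rw [h1, FunField.PlaceLemmas.ord_algebraMap] at hf
      exact zero_ne_one hf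
    have hglim : Tendsto (fun v => val v g) (U : Filter (Place ℂ F)) (𝓝 0) := by
      have h1 : Tendsto (fun v => val v f - c) (U : Filter (Place ℂ F)) (𝓝 (c - c)) :=
        hc.sub_const c
      rw [sub_self] at h1
      refine h1.congr' ?_
      filter_upwards [(hall f).mem] with v hv
      rw [hg, val_sub v hv (mem_algebraMap v c), val_algebraMap]
    obtain ⟨d, hd⟩ := (hall g⁻¹).exists_lim
    have h2 : Tendsto (fun v => val v g * val v g⁻¹) (U : Filter (Place ℂ F)) (𝓝 (0 * d)) :=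
      hglim.mul hd
    have h3 : Tendsto (fun v => val v g * val v g⁻¹) (U : Filter (Place ℂ F)) (𝓝 1) := by
      refine (tendsto_const_nhds (x := (1 : ℂ))).congr' ?_
      filter_upwards [(hall g).mem, (hall g⁻¹).mem] with v h4 h5
      rw [← val_mul v h4 h5, mul_inv_cancel₀ hg0, val_one]
    have h4 := tendsto_nhds_unique h2 h3
    rw [zero_mul] at h4
    exact zero_ne_one h4
  have hK : ∀ c : ℂ, algebraMap ℂ F c ∈ BddAlong.ring U := fun c => BddAlong.algebraMap c
  refine ⟨FunField.placeOfValuationSubring (BddAlong.ring U) hK hne, ?_⟩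
  set Q := FunField.placeOfValuationSubring (BddAlong.ring U) hK hne with hQ
  have hmemQ : ∀ f : F, f ∈ Q.toValuationSubring ↔ BddAlong U f := fun f => Iff.rfl
  intro f hf
  have hfb : BddAlong U f := (hmemQ f).1 hf
  refine ⟨hfb.mem, ?_⟩
  obtain ⟨c, hc⟩ := hfb.exists_lim
  suffices h : c = val Q f by rwa [← h]
  by_contra hne'
  set g : F := f - algebraMap ℂ F (val Q f) with hg
  have hgm : g ∈ Q.toValuationSubring := sub_mem hf (mem_algebraMap Q _)
  have hgv : val Q g = 0 := by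
    rw [hg, val_sub Q hf (mem_algebraMap Q _), val_algebraMap, sub_self]
  have hgb : BddAlong U g := (hmemQ g).1 hgm
  have hglim : Tendsto (fun v => val v g) (U : Filter (Place ℂ F)) (𝓝 (c - val Q f)) := by
    have h1 : Tendsto (fun v => val v f - val Q f) (U : Filter (Place ℂ F))
      (𝓝 (c - val Q f)) := hc.sub_const _
    refine h1.congr' ?_
    filter_upwards [hfb.mem] with v hv
    rw [hg, val_sub v hv (mem_algebraMap v _), val_algebraMap]
  have hinv := hgb.inv_of_lim (sub_ne_zero.2 hne') hglim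
  have hinvQ : g⁻¹ ∈ Q.toValuationSubring := (hmemQ _).2 hinv
  have hg0 : g ≠ 0 := by
    intro h0
    have h1 : (fun v : Place ℂ F => val v g) = fun _ => 0 := by
      funext v; rw [h0, val_zero]
    rw [h1] at hglim
    have := tendsto_nhds_unique hglim tendsto_const_nhds
    exact sub_ne_zero.2 hne' this
  have h2 := val_mul Q hgm hinvQ
  rw [mul_inv_cancel₀ hg0, val_one, hgv, zero_mul] at h2
  exact one_ne_zero h2

/-- Convergence in the sense of charts. -/
theorem exists_limit_chart [IsFF ℂ F] (U : Ultrafilter (Place ℂ F)) :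
    ∃ Q : Place ℂ F, (∀ f ∈ Q.toValuationSubring,
      Tendsto (fun v => val v f) (U : Filter (Place ℂ F)) (𝓝 (val Q f))) ∧
      ∀ ε : ℝ, 0 < ε → ∀ᶠ v in (U : Filter (Place ℂ F)),
        ∃ t ∈ ball (0 : ℂ) ε, (chartAt Q).pt t = v := by
  classical
  obtain ⟨Q, hQ⟩ := exists_limit U
  refine ⟨Q, fun f hf => (hQ f hf).2, fun ε hε => ?_⟩
  obtain ⟨fs, δ, hδ, hfs, hnhd⟩ := chartAt_isNhd Q ε hε
  have h1 : ∀ᶠ v in (U : Filter (Place ℂ F)), ∀ f ∈ fs,
      f ∈ v.toValuationSubring ∧ ‖val v f - val Q f‖ < δ := by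
    rw [Filter.eventually_all_finset]
    intro f hf
    obtain ⟨h2, h3⟩ := hQ f (hfs f hf)
    have h4 : ∀ᶠ v in (U : Filter (Place ℂ F)), val v f ∈ ball (val Q f) δ :=
      h3.eventually (ball_mem_nhds _ hδ)
    filter_upwards [h2, h4] with v h5 h6
    refine ⟨h5, ?_⟩
    rwa [mem_ball, dist_eq_norm] at h6
  exact h1.mono fun v hv => hnhd v hv

/-- Finitely many discs cover. -/
theorem exists_finite_cover [IsFF ℂ F] (ρ : Place ℂ F → ℝ) (hρ : ∀ Q, 0 < ρ Q) :
    ∃ T : Finset (Place ℂ F), ∀ v : Place ℂ F, ∃ Q ∈ T, ∃ t ∈ ball (0 : ℂ) (ρ Q),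
      (chartAt Q).pt t = v := by
  classical
  by_contra hcon
  push Not at hcon
  let D : Place ℂ F → Set (Place ℂ F) := fun Q =>
    {v | ¬ ∃ t ∈ ball (0 : ℂ) (ρ Q), (chartAt Q).pt t = v}
  obtain ⟨U, hU⟩ := Ultrafilter.exists_ultrafilter_of_finite_inter_nonempty (Set.range D) (by
    intro T hT
    have h1 : ∀ s ∈ T, ∃ Q, D Q = s := fun s hs => hT hs
    choose! q hq using h1
    obtain ⟨v, hv⟩ := hcon (T.image q)
    refine ⟨v, ?_⟩
    rw [Set.mem_sInter]
    intro s hs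
    have hs' : s ∈ T := hs
    rw [← hq s hs']
    rintro ⟨t, ht, htv⟩
    exact hv (q s) (Finset.mem_image_of_mem q hs') t ht htv)
  obtain ⟨Q, -, hQ⟩ := exists_limit_chart U
  have h1 := hQ (ρ Q) (hρ Q)
  have h2 : D Q ∈ (U : Filter (Place ℂ F)) := hU ⟨Q, rfl⟩
  obtain ⟨v, hv1, hv2⟩ := (h1.and h2).exists
  exact hv2 hv1

/-- The set of places is connected, in the following sense. -/
theorem connected [IsFF ℂ F] (rel : Place ℂ F → Place ℂ F → Prop) (hrel : Equivalence rel)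
    (hloc : ∀ Q, ∃ ρ : ℝ, 0 < ρ ∧ ∀ t ∈ ball (0 : ℂ) ρ, rel ((chartAt Q).pt t) Q)
    (v w : Place ℂ F) : rel v w := by
  classical
  by_contra hvw
  let Z : Set (Place ℂ F) := {u | ¬ rel u w}
  have hvZ : v ∈ Z := hvw
  obtain ⟨M0, hM0⟩ := exists_exact_pole w
  obtain ⟨f, hf, hf0, hford⟩ := hM0 (M0 + 1) (Nat.le_succ _)
  have hfw : w.ord f < 0 := by rw [hford]; push_cast; linarith [Int.natCast_nonneg M0]
  have hfZ : ∀ u ∈ Z, f ∈ u.toValuationSubring := by
    intro u hu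
    apply hf u
    rintro rfl
    exact hu (hrel.refl _)
  let Zs : Place ℂ F → Set (Place ℂ F) := fun u => {x | x ∈ Z ∧ ‖val u f‖ ≤ ‖val x f‖}
  obtain ⟨U, hU⟩ := Ultrafilter.exists_ultrafilter_of_finite_inter_nonempty (Zs '' Z) (by
    intro T hT
    have h1 : ∀ s ∈ T, ∃ Q, Q ∈ Z ∧ Zs Q = s := fun s hs => hT hs
    haveI : Nonempty (Place ℂ F) := ⟨v⟩
    choose! q hq using h1
    rcases T.eq_empty_or_nonempty with rfl | hne
    · exact ⟨v, by simp⟩
    obtain ⟨s0, hs0, hmax⟩ := T.exists_max_image (fun s => ‖val (q s) f‖) hne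
    refine ⟨q s0, ?_⟩
    rw [Set.mem_sInter]
    intro s hs
    have hs' : s ∈ T := hs
    rw [← (hq s hs').2]
    exact ⟨(hq s0 hs0).1, hmax s hs'⟩)
  obtain ⟨Q, hQ1, hQ2⟩ := exists_limit_chart U
  obtain ⟨ρ, hρ, hρrel⟩ := hloc Q
  have hUZ : ∀ᶠ x in (U : Filter (Place ℂ F)), x ∈ Z := by
    have h1 : Zs v ∈ (U : Filter (Place ℂ F)) := hU ⟨v, hvZ, rfl⟩
    filter_upwards [h1] with x hx using hx.1
  have hQZ : Q ∈ Z := by
    obtain ⟨x, ⟨t, ht, hx⟩, hxZ⟩ := ((hQ2 ρ hρ).and hUZ).exists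
    intro hQw
    apply hxZ
    rw [← hx]
    exact hrel.trans (hρrel t ht) hQw
  have hfQ := hfZ Q hQZ
  have hmaxQ : ∀ u ∈ Z, ‖val u f‖ ≤ ‖val Q f‖ := by
    intro u hu
    have h1 : ∀ᶠ x in (U : Filter (Place ℂ F)), ‖val u f‖ ≤ ‖val x f‖ := by
      have h2 : Zs u ∈ (U : Filter (Place ℂ F)) := hU ⟨u, hu, rfl⟩
      filter_upwards [h2] with x hx using hx.2
    exact ge_of_tendsto (hQ1 f hfQ).norm h1
  set c := chartAt Q with hc
  have hlocmax : IsLocalMax (norm ∘ fun t => val (c.pt t) f) 0 := by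
    filter_upwards [ball_mem_nhds (0 : ℂ) hρ] with t ht
    simp only [Function.comp_apply]
    rw [c.pt_zero]
    apply hmaxQ
    intro h
    exact hQZ (hrel.trans (hrel.symm (hρrel t ht)) h)
  have hdiff : ∀ᶠ t in 𝓝 (0 : ℂ), DifferentiableAt ℂ (fun t => val (c.pt t) f) t := by
    have h1 := (c.an_zero hfQ).1.eventually_analyticAt
    exact h1.mono fun t ht => ht.differentiableAt
  have hconst := Complex.eventually_eq_of_isLocalMax_norm hdiff hlocmax
  obtain ⟨ρ', hρ', hev⟩ := Metric.eventually_nhds_iff_ball.1 (hconst.and (c.an_zero hfQ).2)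
  have hpole : f - algebraMap ℂ F (val Q f) ≠ 0 := by
    intro h0
    rw [sub_eq_zero.1 h0, FunField.PlaceLemmas.ord_algebraMap] at hfw
    exact lt_irrefl _ hfw
  have hfin := FunField.finite_zeros (K := ℂ) (f - algebraMap ℂ F (val Q f)) hpole
  have hinf := c.infinite_image (lt_min hρ' c.r_pos) (min_le_right _ _)
  apply hinf
  apply hfin.subset
  rintro _ ⟨t, ht, rfl⟩
  obtain ⟨h1, h2⟩ := hev t (ball_subset_ball (min_le_left _ _) ht)
  rw [c.pt_zero] at h1
  have h3 : val (c.pt t) (f - algebraMap ℂ F (val Q f)) = 0 := by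
    rw [val_sub _ h2 (mem_algebraMap _ _), val_algebraMap, h1, sub_self]
  exact ((val_eq_zero_iff_ord _ (sub_mem h2 (mem_algebraMap _ _))).1 h3).resolve_left hpole

end Fermat.Agent.S27C
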