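import Mathlib

/-!
# Torsion of a quotient of a real vector space by a discrete cocompact subgroup,
# and extension of a local homomorphism to a global one
-/

set_option autoImplicit false

open Module

namespace Fermat.Agent.S27C

section Lattice

variable {J : Type*} [AddCommGroup J] {V : Type*} [NormedAddCommGroup V] [NormedSpace ℝ V]
  [FiniteDimensional ℝ V]

/-- If `φ : V → J` is a homomorphism from a finite dimensional real vector space,
injective near zero, and already surjective on a bounded set, then `J[n]` has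
`n ^ dim V` elements. -/
theorem natCard_torsion_of_exp (φ : V →+ J) (ε : ℝ) (hε : 0 < ε)
    (hinj : ∀ v : V, ‖v‖ < ε → φ v = 0 → v = 0) (R : ℝ)
    (hR : ∀ x : J, ∃ v : V, ‖v‖ ≤ R ∧ φ v = x) (n : ℕ) (hn : 0 < n) :
    Nat.card {x : J // (n : ℤ) • x = 0} = n ^ (finrank ℝ V) := by
  classical
  set L : Submodule ℤ V := AddSubgroup.toIntSubmodule φ.ker with hL
  have memL : ∀ v : V, v ∈ L ↔ φ v = 0 := fun v => Iff.rfl
  have : DiscreteTopology L := by
    rw [discreteTopology_iff_isOpen_singleton_zero]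
    rw [Metric.isOpen_iff]
    intro x hx
    rw [Set.mem_singleton_iff] at hx
    subst hx
    refine ⟨ε, hε, ?_⟩
    intro y hy
    rw [Metric.mem_ball, dist_zero_right] at hy
    have := hinj (y : V) (by simpa using hy) ((memL _).1 y.2)
    exact Set.mem_singleton_iff.2 (Subtype.ext this)
  have : IsZLattice ℝ L := by
    constructor
    by_contra hne
    have hlt : Submodule.span ℝ (L : Set V) < ⊤ := lt_top_iff_ne_top.2 hne
    obtain ⟨f, hf0, hf⟩ := Submodule.exists_le_ker_of_lt_top _ hlt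
    obtain ⟨w, hw⟩ : ∃ w, f w ≠ 0 := by
      by_contra h
      push Not at h
      exact hf0 (LinearMap.ext h)
    let fc : V →L[ℝ] ℝ := LinearMap.toContinuousLinearMap f
    have hb : ∀ v : V, |f v| ≤ ‖fc‖ * R := by
      intro v
      obtain ⟨r, hr, hrv⟩ := hR (φ v)
      have hmem : v - r ∈ L := by rw [memL, map_sub, hrv, sub_self]
      have h0 : f (v - r) = 0 := by
        have := hf (Submodule.subset_span hmem)
        simpa using this
      have hvr : f v = f r := by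
        rw [map_sub, sub_eq_zero] at h0
        exact h0
      rw [hvr]
      have h1 : ‖fc r‖ ≤ ‖fc‖ * ‖r‖ := fc.le_opNorm r
      have h2 : ‖fc r‖ = |f r| := by simp [fc]
      rw [← h2]
      exact h1.trans (mul_le_mul_of_nonneg_left hr (norm_nonneg _))
    have hfw : 0 < |f w| := abs_pos.2 hw
    obtain ⟨k, hk⟩ := exists_nat_gt (‖fc‖ * R / |f w|)
    have h3 := hb ((k : ℝ) • w)
    rw [map_smul, smul_eq_mul, abs_mul, Nat.abs_cast] at h3
    rw [div_lt_iff₀ hfw] at hk
    linarith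
  have : Module.Free ℤ L := ZLattice.module_free ℝ L
  have : Module.Finite ℤ L := ZLattice.module_finite ℝ L
  have hrank : finrank ℤ L = finrank ℝ V := ZLattice.rank ℝ L
  -- the map `L → J[n]`, `l ↦ φ (l / n)`
  have hn0 : (n : ℝ) ≠ 0 := by exact_mod_cast hn.ne'
  let T : AddSubgroup J := (nsmulAddMonoidHom (α := J) n).ker
  let ψ : L →+ J :=
    { toFun := fun l => φ ((n : ℝ)⁻¹ • (l : V))
      map_zero' := by simp
      map_add' := fun a b => by simp [smul_add] }
  have hψT : ∀ l, ψ l ∈ T := by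
    intro l
    change n • φ ((n : ℝ)⁻¹ • (l : V)) = 0
    rw [← map_nsmul, ← Nat.cast_smul_eq_nsmul ℝ, smul_smul, mul_inv_cancel₀ hn0, one_smul]
    exact (memL _).1 l.2
  let ψ' : L →+ T := ψ.codRestrict T hψT
  have hsurj : Function.Surjective ψ' := by
    rintro ⟨x, hx⟩
    obtain ⟨v, -, hv⟩ := hR x
    refine ⟨⟨(n : ℝ) • v, ?_⟩, ?_⟩
    · rw [memL, Nat.cast_smul_eq_nsmul, map_nsmul, hv]
      exact hx
    · apply Subtype.ext
      change φ ((n : ℝ)⁻¹ • ((n : ℝ) • v)) = x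
      rw [smul_smul, inv_mul_cancel₀ hn0, one_smul, hv]
  have hker : ψ'.ker = (nsmulAddMonoidHom (α := L) n).range := by
    ext l
    constructor
    · intro hl
      have h1 : φ ((n : ℝ)⁻¹ • (l : V)) = 0 := congrArg Subtype.val hl
      refine ⟨⟨(n : ℝ)⁻¹ • (l : V), (memL _).2 h1⟩, ?_⟩
      apply Subtype.ext
      change n • ((n : ℝ)⁻¹ • (l : V)) = l
      rw [← Nat.cast_smul_eq_nsmul ℝ, smul_smul, mul_inv_cancel₀ hn0, one_smul]
    · rintro ⟨m, rfl⟩
      apply Subtype.ext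
      change φ ((n : ℝ)⁻¹ • ((n • m : L) : V)) = 0
      have : ((n • m : L) : V) = (n : ℝ) • (m : V) := by
        rw [Nat.cast_smul_eq_nsmul]; rfl
      rw [this, smul_smul, inv_mul_cancel₀ hn0, one_smul]
      exact (memL _).1 m.2
  have hcard : Nat.card T = n ^ finrank ℤ L := by
    rw [← AddSubgroup.index_range_nsmul L n, ← hker, AddSubgroup.index_ker]
    have : ψ'.range = ⊤ := AddMonoidHom.range_eq_top.2 hsurj
    rw [this]
    exact (Nat.card_congr AddSubgroup.topEquiv.toEquiv).symm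
  have hT : Nat.card {x : J // (n : ℤ) • x = 0} = Nat.card T := by
    refine Nat.card_congr (Equiv.subtypeEquivRight fun x => ?_)
    change (n : ℤ) • x = 0 ↔ n • x = 0
    rw [natCast_zsmul]
  rw [hT, hcard, hrank]

end Lattice

section LocalHom

variable {J : Type*} [AddCommGroup J] {V : Type*} [NormedAddCommGroup V] [NormedSpace ℝ V]

/-- A local homomorphism on a ball extends to a global homomorphism. -/
theorem exists_hom_of_local (e : V → J) (ε : ℝ) (hε : 0 < ε)
    (hadd : ∀ v w : V, ‖v‖ < ε → ‖w‖ < ε → e (v + w) = e v + e w) :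
    ∃ φ : V →+ J, ∀ v : V, ‖v‖ < ε → φ v = e v := by
  classical
  -- halving
  have he0 : e 0 = 0 := by
    have := hadd 0 0 (by simpa using hε) (by simpa using hε)
    simpa using this
  have hhalf : ∀ (v : V), ‖v‖ < ε → ∀ k : ℕ, (2 ^ k : ℕ) • e ((2 ^ k : ℝ)⁻¹ • v) = e v := by
    intro v hv k
    induction k with
    | zero => simp
    | succ k ih =>
      have hsmall : ‖(2 ^ (k + 1) : ℝ)⁻¹ • v‖ < ε := by
        rw [norm_smul, norm_inv, norm_pow]
        have h2 : (1 : ℝ) ≤ ‖(2 : ℝ)‖ ^ (k + 1) := by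
          apply one_le_pow₀
          simp
        calc (‖(2 : ℝ)‖ ^ (k + 1))⁻¹ * ‖v‖ ≤ 1 * ‖v‖ := by
              apply mul_le_mul_of_nonneg_right _ (norm_nonneg _)
              exact inv_le_one_of_one_le₀ h2
          _ < ε := by simpa using hv
      have h1 := hadd _ _ hsmall hsmall
      have h2 : (2 ^ (k + 1) : ℝ)⁻¹ • v + (2 ^ (k + 1) : ℝ)⁻¹ • v = (2 ^ k : ℝ)⁻¹ • v := by
        rw [← add_smul]
        congr 1
        rw [pow_succ]
        field_simp
        norm_num
      rw [h2] at h1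
      rw [← ih, h1, pow_succ, mul_comm (2 ^ k) 2, mul_smul, two_smul, ← smul_add]
  -- for a bound on the exponent
  have hex : ∀ v : V, ∃ k : ℕ, ‖(2 ^ k : ℝ)⁻¹ • v‖ < ε := by
    intro v
    obtain ⟨k, hk⟩ := pow_unbounded_of_one_lt (‖v‖ / ε) (one_lt_two : (1 : ℝ) < 2)
    refine ⟨k, ?_⟩
    rw [norm_smul, norm_inv, norm_pow, Real.norm_ofNat]
    rw [div_lt_iff₀ hε] at hk
    have h2 : (0 : ℝ) < 2 ^ k := by positivity
    rw [inv_mul_lt_iff₀ h2]
    exact hk
  have hmono : ∀ v : V, ∀ k l : ℕ, k ≤ l → ‖(2 ^ k : ℝ)⁻¹ • v‖ < ε →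
      (2 ^ l : ℕ) • e ((2 ^ l : ℝ)⁻¹ • v) = (2 ^ k : ℕ) • e ((2 ^ k : ℝ)⁻¹ • v) := by
    intro v k l hkl hk
    obtain ⟨m, rfl⟩ := Nat.exists_eq_add_of_le hkl
    have h1 := hhalf _ hk m
    have h2 : (2 ^ m : ℝ)⁻¹ • ((2 ^ k : ℝ)⁻¹ • v) = (2 ^ (k + m) : ℝ)⁻¹ • v := by
      rw [smul_smul]
      congr 1
      rw [pow_add, mul_inv, mul_comm]
    rw [h2] at h1
    rw [← h1, ← mul_smul, pow_add]
  let E : V → J := fun v => (2 ^ (hex v).choose : ℕ) • e ((2 ^ (hex v).choose : ℝ)⁻¹ • v)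
  have hE : ∀ v : V, ∀ k : ℕ, ‖(2 ^ k : ℝ)⁻¹ • v‖ < ε →
      E v = (2 ^ k : ℕ) • e ((2 ^ k : ℝ)⁻¹ • v) := by
    intro v k hk
    rcases le_total (hex v).choose k with h | h
    · exact (hmono v _ _ h (hex v).choose_spec).symm
    · exact hmono v _ _ h hk
  have hsm : ∀ v : V, ∀ k l : ℕ, k ≤ l → ‖(2 ^ k : ℝ)⁻¹ • v‖ < ε →
      ‖(2 ^ l : ℝ)⁻¹ • v‖ < ε := by
    intro v k l hkl hk
    refine lt_of_le_of_lt ?_ hk
    rw [norm_smul, norm_smul, norm_inv, norm_inv, norm_pow, norm_pow]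
    apply mul_le_mul_of_nonneg_right _ (norm_nonneg _)
    apply inv_anti₀
    · exact pow_pos (by simp) k
    · exact pow_le_pow_right₀ (by simp) hkl
  refine ⟨{ toFun := E, map_zero' := ?_, map_add' := ?_ }, ?_⟩
  · rw [hE 0 0 (by simpa using hε)]
    simp [he0]
  · intro v w
    obtain ⟨k1, hk1⟩ := hex v
    obtain ⟨k2, hk2⟩ := hex w
    obtain ⟨k3, hk3⟩ := hex (v + w)
    set k := max k1 (max k2 k3) with hk
    have h1 := hsm v k1 k (le_max_left _ _) hk1
    have h2 := hsm w k2 k ((le_max_left _ _).trans (le_max_right _ _)) hk2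
    have h3 := hsm (v + w) k3 k ((le_max_right _ _).trans (le_max_right _ _)) hk3
    rw [hE v k h1, hE w k h2, hE (v + w) k h3, smul_add, hadd _ _ h1 h2, smul_add]
  · intro v hv
    change E v = e v
    rw [hE v 0 (by simpa using hv)]
    simp

end LocalHom

end Fermat.Agent.S27C
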