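import Mathlib
import Fermat.Agent.S27C.Step

/-!
# Local structure of `Pic0` near a nonspecial divisor: uniqueness and flow
-/

set_option autoImplicit false

noncomputable section

open AlgebraicCurve Filter Metric
open scoped Topology

namespace Fermat.Agent.S27C

variable {F : Type*} [Field F] [Algebra ℂ F] [IsCurveOver ℂ F]
variable {ι : Type*} [Fintype ι]

/-- Coordinates of the class of the principal part `1/(z-t)` at `pt t`. -/
def mvec (β : H1 (0 : Divisor ℂ F) ≃ₗ[ℂ] (ι → ℂ)) {Q : Place ℂ F} (c : Chart Q) (t : ℂ) : ι → ℂ :=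
  β (cls (c.pt t) (c.z - algebraMap ℂ F t)⁻¹)

theorem mvec_analytic (β : H1 (0 : Divisor ℂ F) ≃ₗ[ℂ] (ι → ℂ)) {Q : Place ℂ F} (c : Chart Q)
    {t : ℂ} (ht : t ∈ ball (0 : ℂ) c.r) : AnalyticAt ℂ (mvec β c) t := by
  rw [analyticAt_pi_iff]
  intro i
  exact c.anM t ht ((LinearMap.proj i : (ι → ℂ) →ₗ[ℂ] ℂ) ∘ₗ β.toLinearMap)

theorem exists_prim (β : H1 (0 : Divisor ℂ F) ≃ₗ[ℂ] (ι → ℂ)) {Q : Place ℂ F} (c : Chart Q) :
    ∃ Φ : ℂ → (ι → ℂ), Φ 0 = 0 ∧ ∀ t ∈ ball (0 : ℂ) c.r, HasDerivAt Φ (mvec β c t) t := by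
  have h1 : DifferentiableOn ℂ (mvec β c) (ball (0 : ℂ) c.r) := fun t ht =>
    (mvec_analytic β c ht).differentiableAt.differentiableWithinAt
  have h2 := h1.isExactOn_ball
  obtain ⟨Φ, h3, h4⟩ := h2.with_val_at 0 0
  exact ⟨Φ, h3, h4⟩

/-- The primitive of `mvec`. -/
def prim (β : H1 (0 : Divisor ℂ F) ≃ₗ[ℂ] (ι → ℂ)) {Q : Place ℂ F} (c : Chart Q) : ℂ → (ι → ℂ) :=
  (exists_prim β c).choose

theorem prim_zero (β : H1 (0 : Divisor ℂ F) ≃ₗ[ℂ] (ι → ℂ)) {Q : Place ℂ F} (c : Chart Q) :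
    prim β c 0 = 0 := (exists_prim β c).choose_spec.1

theorem hasDerivAt_prim (β : H1 (0 : Divisor ℂ F) ≃ₗ[ℂ] (ι → ℂ)) {Q : Place ℂ F} (c : Chart Q)
    {t : ℂ} (ht : t ∈ ball (0 : ℂ) c.r) : HasDerivAt (prim β c) (mvec β c t) t :=
  (exists_prim β c).choose_spec.2 t ht

theorem hasStrictDerivAt_prim (β : H1 (0 : Divisor ℂ F) ≃ₗ[ℂ] (ι → ℂ)) {Q : Place ℂ F}
    (c : Chart Q) : HasStrictDerivAt (prim β c) (mvec β c 0) 0 := by
  have h1 : DifferentiableOn ℂ (prim β c) (ball (0 : ℂ) c.r) := fun t ht =>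
    (hasDerivAt_prim β c ht).differentiableAt.differentiableWithinAt
  have h2 : AnalyticAt ℂ (prim β c) 0 := h1.analyticAt c.ball_mem
  have h3 := h2.hasStrictDerivAt
  rwa [(hasDerivAt_prim β c c.zero_mem).deriv] at h3

/-- The sum map `Σ_i [pt_i(s_i)] - [b_i]`. -/
def S {b : ι → Place ℂ F} (c : ∀ i, Chart (b i)) (s : ι → ℂ) : Pic0 ℂ F :=
  ∑ i, pc ((c i).pt (s i)) (b i)

/-- Coordinates `Σ_i Φ_i(s_i)`. -/
def PhiSum (β : H1 (0 : Divisor ℂ F) ≃ₗ[ℂ] (ι → ℂ)) {b : ι → Place ℂ F} (c : ∀ i, Chart (b i))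
    (s : ι → ℂ) : ι → ℂ :=
  ∑ i, prim β (c i) (s i)

/-- Good polydiscs. -/
structure Nice (β : H1 (0 : Divisor ℂ F) ≃ₗ[ℂ] (ι → ℂ)) {b : ι → Place ℂ F}
    (c : ∀ i, Chart (b i)) (δ : ℝ) : Prop where
  pos : 0 < δ
  le_r : ∀ i, δ ≤ (c i).r
  disj : ∀ i j, i ≠ j → ∀ t ∈ ball (0 : ℂ) δ, ∀ t' ∈ ball (0 : ℂ) δ, (c i).pt t ≠ (c j).pt t'
  indep : ∀ s : ι → ℂ, (∀ i, s i ∈ ball (0 : ℂ) δ) → ∀ w : ι → ℂ,
    ∑ i, w i • mvec β (c i) (s i) = 0 → w = 0
  span : ∀ s : ι → ℂ, (∀ i, s i ∈ ball (0 : ℂ) δ) → ∀ h : ι → ℂ, ∃ w : ι → ℂ,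
    ∑ i, w i • mvec β (c i) (s i) = h

theorem exists_nice (β : H1 (0 : Divisor ℂ F) ≃ₗ[ℂ] (ι → ℂ)) {b : ι → Place ℂ F}
    (hb : Function.Injective b) (c : ∀ i, Chart (b i))
    (hind : ∀ w : ι → ℂ, ∑ i, w i • cls (b i) (c i).z⁻¹ = 0 → w = 0) :
    ∃ δ0 : ℝ, 0 < δ0 ∧ ∀ δ, 0 < δ → δ ≤ δ0 → Nice β c δ := by
  classical
  -- radius
  obtain ⟨δ1, hδ1, hr⟩ : ∃ δ1 : ℝ, 0 < δ1 ∧ ∀ i, δ1 ≤ (c i).r := by
    rcases isEmpty_or_nonempty ι with he | he
    · exact ⟨1, one_pos, fun p => (he.false p).elim⟩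
    · obtain ⟨p0, hp0⟩ := Finite.exists_min (fun i => (c i).r)
      exact ⟨(c p0).r, (c p0).r_pos, hp0⟩
  -- disjointness
  obtain ⟨δ2, hδ2, hsep⟩ : ∃ δ : ℝ, 0 < δ ∧ ∀ i j, i ≠ j → ∀ t ∈ ball (0 : ℂ) δ,
      ∀ t' ∈ ball (0 : ℂ) δ, (c i).pt t ≠ (c j).pt t' := by
    have h1 : ∀ p : ι × ι, ∃ δ : ℝ, 0 < δ ∧ (p.1 ≠ p.2 → ∀ t ∈ ball (0 : ℂ) δ,
        ∀ t' ∈ ball (0 : ℂ) δ, (c p.1).pt t ≠ (c p.2).pt t') := by
      rintro ⟨i, j⟩
      by_cases hij : i = j
      · exact ⟨1, one_pos, fun h => absurd hij h⟩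
      · obtain ⟨δ, hδ, h⟩ := (c i).separated (c j) (fun h => hij (hb h))
        exact ⟨δ, hδ, fun _ => h⟩
    choose δ hδ h2 using h1
    obtain ⟨δ0, hδ0, hle⟩ : ∃ δ0 : ℝ, 0 < δ0 ∧ ∀ p, δ0 ≤ δ p := by
      rcases isEmpty_or_nonempty (ι × ι) with he | he
      · exact ⟨1, one_pos, fun p => (he.false p).elim⟩
      · obtain ⟨p0, hp0⟩ := Finite.exists_min δ
        exact ⟨δ p0, hδ p0, hp0⟩
    refine ⟨δ0, hδ0, fun i j hij t ht t' ht' => ?_⟩
    exact h2 (i, j) hij t (ball_subset_ball (hle _) ht) t' (ball_subset_ball (hle _) ht')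
  -- determinant
  let A : (ι → ℂ) → Matrix ι ι ℂ := fun s => Matrix.of fun j i => mvec β (c i) (s i) j
  have hA : ∀ s w : ι → ℂ, (A s).mulVec w = ∑ i, w i • mvec β (c i) (s i) := by
    intro s w
    funext j
    rw [Finset.sum_apply]
    simp only [Matrix.mulVec, dotProduct, A, Matrix.of_apply, Pi.smul_apply, smul_eq_mul]
    refine Finset.sum_congr rfl fun i _ => mul_comm _ _
  have hdet0 : (A 0).det ≠ 0 := by
    intro hdet
    obtain ⟨w, hw0, hw⟩ := Matrix.exists_mulVec_eq_zero_iff.2 hdet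
    apply hw0
    apply hind
    rw [hA] at hw
    apply β.injective
    rw [map_sum, map_zero, ← hw]
    refine Finset.sum_congr rfl fun i _ => ?_
    rw [map_smul]
    unfold mvec
    simp [(c i).pt_zero]
  have hdetc : ContinuousAt (fun s => (A s).det) 0 := by
    have h1 : ContinuousAt A 0 := by
      refine continuousAt_pi.2 fun j => continuousAt_pi.2 fun i => ?_
      have h2 : ContinuousAt (mvec β (c i)) 0 := (mvec_analytic β (c i) (c i).zero_mem).continuousAt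
      have h3 : ContinuousAt (fun t => mvec β (c i) t j) 0 := (continuous_apply j).continuousAt.comp h2
      exact ContinuousAt.comp (f := fun s : ι → ℂ => s i) (g := fun t => mvec β (c i) t j) h3
        (continuous_apply i).continuousAt
    exact (Continuous.matrix_det continuous_id).continuousAt.comp h1
  have hev : ∀ᶠ s in 𝓝 (0 : ι → ℂ), (A s).det ≠ 0 := hdetc.eventually_ne hdet0
  obtain ⟨δ3, hδ3, hdet⟩ := Metric.eventually_nhds_iff_ball.1 hev
  refine ⟨min δ1 (min δ2 δ3), lt_min hδ1 (lt_min hδ2 hδ3), fun δ hδ hle => ?_⟩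
  have hle1 : δ ≤ δ1 := hle.trans (min_le_left _ _)
  have hle2 : δ ≤ δ2 := hle.trans ((min_le_right _ _).trans (min_le_left _ _))
  have hle3 : δ ≤ δ3 := hle.trans ((min_le_right _ _).trans (min_le_right _ _))
  have hdets : ∀ s : ι → ℂ, (∀ i, s i ∈ ball (0 : ℂ) δ) → (A s).det ≠ 0 := by
    intro s hs
    apply hdet
    rw [mem_ball_zero_iff, pi_norm_lt_iff hδ3]
    intro i
    have := hs i
    rw [mem_ball_zero_iff] at this
    exact this.trans_le hle3
  refine ⟨hδ, fun i => hle1.trans (hr i), ?_, ?_, ?_⟩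
  · intro i j hij t ht t' ht'
    exact hsep i j hij t (ball_subset_ball hle2 ht) t' (ball_subset_ball hle2 ht')
  · intro s hs w hw
    rw [← hA] at hw
    by_contra hw0
    exact hdets s hs (Matrix.exists_mulVec_eq_zero_iff.1 ⟨w, hw0, hw⟩)
  · intro s hs h
    have hu : IsUnit (A s) := (Matrix.isUnit_iff_isUnit_det _).2 (isUnit_iff_ne_zero.2 (hdets s hs))
    refine ⟨(A s)⁻¹.mulVec h, ?_⟩
    rw [← hA, Matrix.mulVec_mulVec, Matrix.mul_nonsing_inv _ (isUnit_iff_ne_zero.2 (hdets s hs)),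
      Matrix.one_mulVec]

namespace Nice

variable {β : H1 (0 : Divisor ℂ F) ≃ₗ[ℂ] (ι → ℂ)} {b : ι → Place ℂ F}
  {c : ∀ i, Chart (b i)} {δ : ℝ} (hN : Nice β c δ)
include hN

theorem ball_r (i : ι) {t : ℂ} (ht : t ∈ ball (0 : ℂ) δ) : t ∈ ball (0 : ℂ) (c i).r :=
  ball_subset_ball (hN.le_r i) ht

/-- Uniqueness of effective divisors near the base divisor in their class. -/
theorem uniq {s s' : ι → ℂ} (hs : ∀ i, s i ∈ ball (0 : ℂ) δ) (hs' : ∀ i, s' i ∈ ball (0 : ℂ) δ)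
    (h : S c s = S c s') : s = s' := by
  classical
  let a : ι → Place ℂ F := fun i => (c i).pt (s i)
  let a' : ι → Place ℂ F := fun i => (c i).pt (s' i)
  have hainj : Function.Injective a := by
    intro i j hij
    by_contra hne
    exact hN.disj i j hne _ (hs i) _ (hs j) hij
  have h1 : ∑ i, pc (a' i) (a i) = 0 := by
    have h2 : ∑ i, pc (a' i) (a i) = S c s' - S c s := by
      unfold S
      rw [← Finset.sum_sub_distrib]
      refine Finset.sum_congr rfl fun i _ => ?_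
      rw [eq_sub_iff_add_eq, pc_add]
    rw [h2, h, sub_self]
  rw [sum_pc_eq_zero_iff] at h1
  obtain ⟨f, hf0, hf⟩ := h1
  have haa : ∀ i j, i ≠ j → a' i ≠ a j := fun i j hij => hN.disj i j hij _ (hs' i) _ (hs j)
  -- orders of `f`
  have hord : ∀ i, -1 ≤ (a i).ord f := by
    intro i
    rw [← hf, moveDiv_apply, Finset.sum_eq_single i]
    · rw [if_pos rfl]; split_ifs <;> omega
    · intro j _ hj
      rw [if_neg (haa j i hj), if_neg (fun h => hj (hainj h)), sub_self]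
    · intro h; exact absurd (Finset.mem_univ i) h
  have hord' : ∀ v : Place ℂ F, (∀ i, a i ≠ v) → f ∈ v.toValuationSubring := by
    intro v hv
    apply mem_of_ord_nonneg
    rw [← hf, moveDiv_apply]
    apply Finset.sum_nonneg
    intro i _
    rw [if_neg (hv i)]
    split_ifs <;> simp
  -- principal parts of `f`
  let ζ : ι → F := fun i => (c i).z - algebraMap ℂ F (s i)
  have hζord : ∀ i, (a i).ord (ζ i) = 1 := fun i => (c i).ord_z _ (hN.ball_r i (hs i))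
  have hζ0 : ∀ i, ζ i ≠ 0 := by
    intro i h0
    have := hζord i
    rw [h0, Place.ord_zero] at this
    exact zero_ne_one this
  have hζf : ∀ i, ζ i * f ∈ (a i).toValuationSubring := by
    intro i
    apply mem_of_ord_nonneg
    rw [(a i).ord_mul (hζ0 i) hf0, hζord]
    linarith [hord i]
  let w : ι → ℂ := fun i => val (a i) (ζ i * f)
  have hpp : ∀ i, f - algebraMap ℂ F (w i) * (ζ i)⁻¹ ∈ (a i).toValuationSubring := by
    intro i
    have h3 : f - algebraMap ℂ F (w i) * (ζ i)⁻¹ = (ζ i * f - algebraMap ℂ F (w i)) * (ζ i)⁻¹ := by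
      have := hζ0 i
      field_simp
    rw [h3]
    have h4 := val_spec (a i) (hζf i)
    rw [adic_lt_one_iff] at h4
    rcases h4 with h4 | h4
    · rw [h4, zero_mul]; exact zero_mem _
    · by_cases h5 : ζ i * f - algebraMap ℂ F (w i) = 0
      · rw [h5, zero_mul]; exact zero_mem _
      · apply mem_of_ord_nonneg
        rw [(a i).ord_mul h5 (inv_ne_zero (hζ0 i)), (a i).ord_inv, hζord]
        change 0 < (a i).ord (ζ i * f - algebraMap ℂ F (w i)) at h4
        linarith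
  have hsum : ∑ i, w i • mvec β (c i) (s i) = 0 := by
    have h3 := sum_cls_eq_zero' a hainj f hord'
    have h4 : ∀ i, cls (a i) f = w i • cls (a i) (ζ i)⁻¹ := by
      intro i
      rw [cls_congr (hpp i), ← Algebra.smul_def, map_smul]
    simp only [h4] at h3
    have h5 := congrArg β h3
    rw [map_sum, map_zero] at h5
    rw [← h5]
    refine Finset.sum_congr rfl fun i _ => ?_
    rw [map_smul]
    rfl
  have hw : w = 0 := hN.indep s hs w hsum
  have hreg : ∀ i, f ∈ (a i).toValuationSubring := by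
    intro i
    have h3 := hpp i
    rw [hw, Pi.zero_apply, map_zero, zero_mul, sub_zero] at h3
    exact h3
  have hall : ∀ v : Place ℂ F, 0 ≤ v.ord f := by
    intro v
    by_cases hv : ∃ i, a i = v
    · obtain ⟨i, rfl⟩ := hv
      exact ((mem_iff_ord _ _).1 (hreg i)).resolve_left hf0
    · push Not at hv
      exact ((mem_iff_ord _ _).1 (hord' v hv)).resolve_left hf0
  have hzero : moveDiv a' a = 0 := by
    apply eq_zero_of_degree_zero _ (degree_moveDiv _ _)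
    intro v
    rw [hf]
    exact hall v
  funext i
  have h6 : moveDiv a' a (a i) = 0 := by rw [hzero]; rfl
  rw [moveDiv_apply, Finset.sum_eq_single i, if_pos rfl] at h6
  · by_cases h7 : a' i = a i
    · exact ((c i).pt_injOn (hN.ball_r i (hs' i)) (hN.ball_r i (hs i)) h7).symm
    · rw [if_neg h7] at h6
      norm_num at h6
  · intro j _ hj
    rw [if_neg (haa j i hj), if_neg (fun h => hj (hainj h)), sub_self]
  · intro h; exact absurd (Finset.mem_univ i) h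

/-- The local flow: moving `Q(t)` is compensated by moving `s`, with `Φ(s) + Φ_Q(t)` constant. -/
theorem flow {Q : Place ℂ F} (cQ : Chart Q) {δQ : ℝ} (hδQ : δQ ≤ cQ.r)
    (hdisj : ∀ i, ∀ t ∈ ball (0 : ℂ) δ, ∀ t' ∈ ball (0 : ℂ) δQ, (c i).pt t ≠ cQ.pt t')
    {s0 : ι → ℂ} (hs0 : ∀ i, s0 i ∈ ball (0 : ℂ) δ) {t0 : ℂ} (ht0 : t0 ∈ ball (0 : ℂ) δQ) :
    ∀ᶠ t in 𝓝 t0, ∃ s : ι → ℂ, (∀ i, s i ∈ ball (0 : ℂ) δ) ∧
      S c s + pc (cQ.pt t) Q = S c s0 + pc (cQ.pt t0) Q ∧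
      PhiSum β c s + prim β cQ t = PhiSum β c s0 + prim β cQ t0 := by
  classical
  -- infinitesimal step at arbitrary points
  have key : ∀ (s1 : ι → ℂ) (_ : ∀ i, s1 i ∈ ball (0 : ℂ) δ) (t1 : ℂ)
      (_ : t1 ∈ ball (0 : ℂ) δQ), ∃ (g : ℂ → (ι → ℂ)) (w : ι → ℂ),
      g t1 = s1 ∧ HasDerivAt g w t1 ∧ ∑ i, w i • mvec β (c i) (s1 i) + mvec β cQ t1 = 0 ∧
      ∀ᶠ t in 𝓝 t1, (∀ i, g t i ∈ ball (0 : ℂ) δ) ∧
        S c (g t) + pc (cQ.pt t) Q = S c s1 + pc (cQ.pt t1) Q := by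
    intro s1 hs1 t1 ht1
    have ht1r : t1 ∈ ball (0 : ℂ) cQ.r := ball_subset_ball hδQ ht1
    obtain ⟨w, hw⟩ := hN.span s1 hs1 (-mvec β cQ t1)
    let b1 : ι → Place ℂ F := fun i => (c i).pt (s1 i)
    let c1 : ∀ i, Chart (b1 i) := fun i => (c i).shift (s1 i) (hN.ball_r i (hs1 i))
    have hb1 : Function.Injective b1 := by
      intro i j hij
      by_contra hne
      exact hN.disj i j hne _ (hs1 i) _ (hs1 j) hij
    have hwc : ∑ i, (w i) • cls (b1 i) (c1 i).z⁻¹ +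
        cls (cQ.pt t1) (cQ.shift t1 ht1r).z⁻¹ = 0 := by
      apply β.injective
      rw [map_add, map_sum, map_zero]
      have h1 : ∑ i, β (w i • cls (b1 i) (c1 i).z⁻¹) = ∑ i, w i • mvec β (c i) (s1 i) := by
        refine Finset.sum_congr rfl fun i _ => ?_
        rw [map_smul]
        rfl
      rw [h1, hw]
      exact neg_add_cancel _
    obtain ⟨u, hu0, hud, hu⟩ := step b1 hb1 c1 (cQ.shift t1 ht1r)
      (fun i => hdisj i _ (hs1 i) _ ht1) w hwc
    have hsub : Tendsto (fun t : ℂ => t - t1) (𝓝 t1) (𝓝 0) := by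
      have : Tendsto (fun t : ℂ => t - t1) (𝓝 t1) (𝓝 (t1 - t1)) :=
        (continuous_id.sub continuous_const).continuousAt
      rwa [sub_self] at this
    have hgd : HasDerivAt (fun t => s1 + u (t - t1)) w t1 := by
      have h1 : HasDerivAt (fun t : ℂ => t - t1) 1 t1 := (hasDerivAt_id t1).sub_const t1
      have h2 : HasDerivAt u w (t1 - t1) := by rw [sub_self]; exact hud
      have h3 := HasDerivAt.scomp (h := fun t : ℂ => t - t1) t1 h2 h1
      rw [one_smul] at h3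
      exact h3.const_add s1
    refine ⟨fun t => s1 + u (t - t1), w, ?_, hgd, ?_, ?_⟩
    · simp [hu0]
    · rw [hw]; exact neg_add_cancel _
    · have hcont := hgd.continuousAt
      have hopen : ∀ᶠ t in 𝓝 t1, ∀ i, (s1 + u (t - t1)) i ∈ ball (0 : ℂ) δ := by
        rw [eventually_all]
        intro i
        have h1 : ContinuousAt (fun t => (s1 + u (t - t1)) i) t1 :=
          (continuous_apply i).continuousAt.comp hcont
        apply h1.eventually
        apply isOpen_ball.mem_nhds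
        simp only [sub_self, hu0, add_zero]
        exact hs1 i
      filter_upwards [hopen, hsub.eventually hu] with t h1 h2
      refine ⟨h1, ?_⟩
      have h3 : ∀ i, pc ((c i).pt ((s1 + u (t - t1)) i)) (b i) =
          pc ((c1 i).pt (u (t - t1) i)) (b1 i) + pc ((c i).pt (s1 i)) (b i) := by
        intro i
        rw [pc_add]
        rfl
      have h4 : pc (cQ.pt t) Q = pc ((cQ.shift t1 ht1r).pt (t - t1)) (cQ.pt t1) +
          pc (cQ.pt t1) Q := by
        rw [pc_add, Chart.shift_pt]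
        congr 2
        ring
      unfold S
      simp only [h3]
      rw [Finset.sum_add_distrib, h4]
      have h5 : ∀ A B C D : Pic0 ℂ F, A + C = 0 → A + B + (C + D) = B + D := by
        intro A B C D hAC
        calc A + B + (C + D) = (A + C) + (B + D) := by abel
          _ = B + D := by rw [hAC, zero_add]
      exact h5 _ _ _ _ h2
  obtain ⟨g, w0, hg0, hgd0, -, hg⟩ := key s0 hs0 t0 ht0
  have hevQ : ∀ᶠ t in 𝓝 t0, t ∈ ball (0 : ℂ) δQ := isOpen_ball.mem_nhds ht0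
  obtain ⟨ρ, hρ, H⟩ := Metric.eventually_nhds_iff_ball.1 (hg.and hevQ)
  -- derivative of `g` everywhere on the small ball
  have hder : ∀ t1 ∈ ball t0 ρ, HasDerivAt (fun t => PhiSum β c (g t) + prim β cQ t) 0 t1 := by
    intro t1 ht1
    obtain ⟨⟨hgt1, hS1⟩, htQ1⟩ := H t1 ht1
    obtain ⟨g1, w, hg10, hg1d, hw, hg1⟩ := key (g t1) hgt1 t1 htQ1
    have heq : ∀ᶠ t in 𝓝 t1, g t = g1 t := by
      have h1 : ∀ᶠ t in 𝓝 t1, t ∈ ball t0 ρ := isOpen_ball.mem_nhds ht1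
      filter_upwards [h1, hg1] with t h2 h3
      obtain ⟨⟨h4, h5⟩, -⟩ := H t h2
      apply hN.uniq h4 h3.1
      have h6 : S c (g t) + pc (cQ.pt t) Q = S c (g1 t) + pc (cQ.pt t) Q := by
        rw [h5, h3.2, hS1]
      exact add_right_cancel h6
    have hgd : HasDerivAt g w t1 := hg1d.congr_of_eventuallyEq heq
    have h7 : HasDerivAt (fun t => PhiSum β c (g t)) (∑ i, w i • mvec β (c i) (g t1 i)) t1 := by
      unfold PhiSum
      apply HasDerivAt.fun_sum
      intro i _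
      have h8 : HasDerivAt (prim β (c i)) (mvec β (c i) (g t1 i)) (g t1 i) :=
        hasDerivAt_prim β (c i) (hN.ball_r i (hgt1 i))
      have h9 : HasDerivAt (fun t => g t i) (w i) t1 := (hasDerivAt_pi.1 hgd) i
      exact h8.scomp t1 h9
    have h10 := h7.add (hasDerivAt_prim β cQ (ball_subset_ball hδQ htQ1))
    rwa [hw] at h10
  have hconst : ∀ t ∈ ball t0 ρ, PhiSum β c (g t) + prim β cQ t =
      PhiSum β c (g t0) + prim β cQ t0 := by
    intro t ht
    have hdiff : DifferentiableOn ℂ (fun t => PhiSum β c (g t) + prim β cQ t) (ball t0 ρ) :=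
      fun t ht => (hder t ht).differentiableAt.differentiableWithinAt
    exact isOpen_ball.is_const_of_deriv_eq_zero (convex_ball t0 ρ).isPreconnected hdiff
      (fun t ht => (hder t ht).deriv) ht (mem_ball_self hρ)
  filter_upwards [ball_mem_nhds t0 hρ] with t ht
  obtain ⟨⟨h1, h2⟩, -⟩ := H t ht
  refine ⟨g t, h1, h2, ?_⟩
  rw [hconst t ht, hg0]

end Nice

end Fermat.Agent.S27C
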