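import Mathlib
import Fermat.Agent.S27C.Flow

/-!
# The local homomorphism `ℂ^g → Pic0`
-/

set_option autoImplicit false

noncomputable section

open AlgebraicCurve Filter Metric
open scoped Topology

namespace Fermat.Agent.S27C

variable {F : Type*} [Field F] [Algebra ℂ F] [IsCurveOver ℂ F]
variable {ι : Type*} [Fintype ι]

theorem PhiSum_zero (β : H1 (0 : Divisor ℂ F) ≃ₗ[ℂ] (ι → ℂ)) {b : ι → Place ℂ F}
    (c : ∀ i, Chart (b i)) : PhiSum β c 0 = 0 := by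
  unfold PhiSum
  apply Finset.sum_eq_zero
  intro i _
  exact prim_zero β (c i)

theorem S_zero {b : ι → Place ℂ F} (c : ∀ i, Chart (b i)) : S c 0 = 0 := by
  unfold S
  apply Finset.sum_eq_zero
  intro i _
  rw [Pi.zero_apply, (c i).pt_zero, pc_self]

/-- `PhiSum` is a local homeomorphism at `0`. -/
theorem exists_strict_PhiSum (β : H1 (0 : Divisor ℂ F) ≃ₗ[ℂ] (ι → ℂ)) {b : ι → Place ℂ F}
    (c : ∀ i, Chart (b i))
    (hind : ∀ w : ι → ℂ, ∑ i, w i • cls (b i) (c i).z⁻¹ = 0 → w = 0) :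
    ∃ L : (ι → ℂ) ≃L[ℂ] (ι → ℂ),
      HasStrictFDerivAt (PhiSum β c) (L : (ι → ℂ) →L[ℂ] (ι → ℂ)) 0 := by
  classical
  let L0 : (ι → ℂ) →L[ℂ] (ι → ℂ) :=
    ∑ i, (ContinuousLinearMap.proj i : (ι → ℂ) →L[ℂ] ℂ).smulRight (mvec β (c i) 0)
  have hL0 : ∀ w, L0 w = ∑ i, w i • mvec β (c i) 0 := by
    intro w
    simp [L0, ContinuousLinearMap.sum_apply]
  have hinj : Function.Injective L0 := by
    rw [injective_iff_map_eq_zero]
    intro w hw
    apply hind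
    apply β.injective
    rw [map_sum, map_zero, ← hw, hL0]
    refine Finset.sum_congr rfl fun i _ => ?_
    rw [map_smul]
    unfold mvec
    simp [(c i).pt_zero]
  have hinj' : Function.Injective (L0 : (ι → ℂ) →ₗ[ℂ] (ι → ℂ)) := hinj
  let L : (ι → ℂ) ≃L[ℂ] (ι → ℂ) := (LinearEquiv.ofInjectiveEndo _ hinj').toContinuousLinearEquiv
  have hL : (L : (ι → ℂ) →L[ℂ] (ι → ℂ)) = L0 := by
    ext w; rfl
  refine ⟨L, ?_⟩
  rw [hL]
  have h1 : ∀ i, HasStrictFDerivAt (fun s : ι → ℂ => prim β (c i) (s i))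
      ((ContinuousLinearMap.proj i : (ι → ℂ) →L[ℂ] ℂ).smulRight (mvec β (c i) 0)) 0 := by
    intro i
    have h2 : HasStrictFDerivAt (prim β (c i))
        (ContinuousLinearMap.toSpanSingleton ℂ (mvec β (c i) 0)) ((0 : ι → ℂ) i) :=
      (hasStrictDerivAt_prim β (c i)).hasStrictFDerivAt
    have h3 : HasStrictFDerivAt (fun s : ι → ℂ => s i)
        (ContinuousLinearMap.proj i : (ι → ℂ) →L[ℂ] ℂ) 0 :=
      (ContinuousLinearMap.proj i : (ι → ℂ) →L[ℂ] ℂ).hasStrictFDerivAt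
    have h4 := h2.comp (0 : ι → ℂ) h3
    refine h4.congr_fderiv ?_
    ext w j
    simp
  have h5 : HasStrictFDerivAt (fun s : ι → ℂ => ∑ i, prim β (c i) (s i)) L0 0 :=
    HasStrictFDerivAt.fun_sum fun i _ => h1 i
  exact h5

theorem mem_polydisc_iff {δ : ℝ} (hδ : 0 < δ) (s : ι → ℂ) :
    (∀ i, s i ∈ ball (0 : ℂ) δ) ↔ s ∈ ball (0 : ι → ℂ) δ := by
  rw [mem_ball_zero_iff, pi_norm_lt_iff hδ]
  simp only [mem_ball_zero_iff]

theorem Nice.mono {β : H1 (0 : Divisor ℂ F) ≃ₗ[ℂ] (ι → ℂ)} {b : ι → Place ℂ F}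
    {c : ∀ i, Chart (b i)} {δ δ' : ℝ} (hN : Nice β c δ) (h0 : 0 < δ') (hle : δ' ≤ δ) :
    Nice β c δ' where
  pos := h0
  le_r i := hle.trans (hN.le_r i)
  disj i j hij t ht t' ht' := hN.disj i j hij t (ball_subset_ball hle ht) t'
    (ball_subset_ball hle ht')
  indep s hs := hN.indep s fun i => ball_subset_ball hle (hs i)
  span s hs := hN.span s fun i => ball_subset_ball hle (hs i)

/-- The data of a local inverse of `PhiSum`. -/
structure LocInv (β : H1 (0 : Divisor ℂ F) ≃ₗ[ℂ] (ι → ℂ)) {b : ι → Place ℂ F}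
    (c : ∀ i, Chart (b i)) where
  δ : ℝ
  nice : Nice β c δ
  inj : ∀ s s' : ι → ℂ, (∀ i, s i ∈ ball (0 : ℂ) δ) → (∀ i, s' i ∈ ball (0 : ℂ) δ) →
    PhiSum β c s = PhiSum β c s' → s = s'
  ε : ℝ
  ε_pos : 0 < ε
  Ψ : (ι → ℂ) → (ι → ℂ)
  Ψ_mem : ∀ v ∈ ball (0 : ι → ℂ) ε, ∀ i, Ψ v i ∈ ball (0 : ℂ) δ
  Ψ_right : ∀ v ∈ ball (0 : ι → ℂ) ε, PhiSum β c (Ψ v) = v
  small : ∀ δ' : ℝ, 0 < δ' → ∃ ε' : ℝ, 0 < ε' ∧ ε' ≤ ε ∧
    ∀ v ∈ ball (0 : ι → ℂ) ε', ∀ i, Ψ v i ∈ ball (0 : ℂ) δ'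

theorem exists_locInv (β : H1 (0 : Divisor ℂ F) ≃ₗ[ℂ] (ι → ℂ)) {b : ι → Place ℂ F}
    (hb : Function.Injective b) (c : ∀ i, Chart (b i))
    (hind : ∀ w : ι → ℂ, ∑ i, w i • cls (b i) (c i).z⁻¹ = 0 → w = 0) :
    Nonempty (LocInv β c) := by
  classical
  obtain ⟨δ0, hδ0, hnice⟩ := exists_nice β hb c hind
  obtain ⟨L, hL⟩ := exists_strict_PhiSum β c hind
  set e := hL.toOpenPartialHomeomorph (PhiSum β c) with he
  have hsource : (0 : ι → ℂ) ∈ e.source := hL.mem_toOpenPartialHomeomorph_source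
  obtain ⟨δ1, hδ1, hsub⟩ := Metric.isOpen_iff.1 e.open_source 0 hsource
  have hnhds : ∀ δ' : ℝ, 0 < δ' → ∃ ε' : ℝ, 0 < ε' ∧
      ball (0 : ι → ℂ) ε' ⊆ PhiSum β c '' ball (0 : ι → ℂ) δ' := by
    intro δ' hδ'
    have h1 : PhiSum β c '' ball (0 : ι → ℂ) δ' ∈ 𝓝 (PhiSum β c 0) := by
      rw [← hL.map_nhds_eq_of_equiv]
      exact image_mem_map (ball_mem_nhds _ hδ')
    rw [PhiSum_zero] at h1
    obtain ⟨ε', hε', h2⟩ := Metric.mem_nhds_iff.1 h1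
    exact ⟨ε', hε', h2⟩
  set δ := min δ0 δ1 with hδ
  have hδpos : 0 < δ := lt_min hδ0 hδ1
  have hN : Nice β c δ := hnice δ hδpos (min_le_left _ _)
  have hinj : ∀ s s' : ι → ℂ, (∀ i, s i ∈ ball (0 : ℂ) δ) → (∀ i, s' i ∈ ball (0 : ℂ) δ) →
      PhiSum β c s = PhiSum β c s' → s = s' := by
    intro s s' hs hs' h
    rw [mem_polydisc_iff hδpos] at hs hs'
    have h1 : s ∈ e.source := hsub (ball_subset_ball (min_le_right _ _) hs)
    have h2 : s' ∈ e.source := hsub (ball_subset_ball (min_le_right _ _) hs')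
    exact e.injOn h1 h2 h
  obtain ⟨ε, hε, hεsub⟩ := hnhds δ hδpos
  have hex : ∀ v : ι → ℂ, ∃ s : ι → ℂ, v ∈ ball (0 : ι → ℂ) ε →
      s ∈ ball (0 : ι → ℂ) δ ∧ PhiSum β c s = v := by
    intro v
    by_cases hv : v ∈ ball (0 : ι → ℂ) ε
    · obtain ⟨s, hs, hsv⟩ := hεsub hv
      exact ⟨s, fun _ => ⟨hs, hsv⟩⟩
    · exact ⟨0, fun h => absurd h hv⟩
  choose Ψ hΨ using hex
  refine ⟨⟨δ, hN, hinj, ε, hε, Ψ, fun v hv => ?_, fun v hv => (hΨ v hv).2, ?_⟩⟩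
  · rw [mem_polydisc_iff hδpos]; exact (hΨ v hv).1
  · intro δ' hδ'
    obtain ⟨ε1, hε1, h1⟩ := hnhds (min δ δ') (lt_min hδpos hδ')
    refine ⟨min ε ε1, lt_min hε hε1, min_le_left _ _, fun v hv i => ?_⟩
    obtain ⟨s, hs, hsv⟩ := h1 (ball_subset_ball (min_le_right _ _) hv)
    obtain ⟨h2, h3⟩ := hΨ v (ball_subset_ball (min_le_left _ _) hv)
    have h4 : Ψ v = s := by
      apply hinj
      · rw [mem_polydisc_iff hδpos]; exact h2
      · rw [mem_polydisc_iff hδpos]; exact ball_subset_ball (min_le_left _ _) hs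
      · rw [h3, hsv]
    rw [h4]
    have h5 : s ∈ ball (0 : ι → ℂ) δ' := ball_subset_ball (min_le_right _ _) hs
    rw [← mem_polydisc_iff hδ'] at h5
    exact h5 i

namespace LocInv

variable {β : H1 (0 : Divisor ℂ F) ≃ₗ[ℂ] (ι → ℂ)} {b : ι → Place ℂ F}
  {c : ∀ i, Chart (b i)} (I : LocInv β c)

/-- The local homomorphism. -/
def e (v : ι → ℂ) : Pic0 ℂ F := S c (I.Ψ v)

theorem Ψ_left {s : ι → ℂ} (hs : ∀ i, s i ∈ ball (0 : ℂ) I.δ)
    (h : PhiSum β c s ∈ ball (0 : ι → ℂ) I.ε) : I.Ψ (PhiSum β c s) = s :=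
  I.inj _ _ (I.Ψ_mem _ h) hs (I.Ψ_right _ h)

theorem zero_mem_ball : (0 : ι → ℂ) ∈ ball (0 : ι → ℂ) I.ε := mem_ball_self I.ε_pos

theorem Ψ_zero : I.Ψ 0 = 0 := by
  have h := I.Ψ_left (s := 0) (fun i => mem_ball_self I.nice.pos)
    (by rw [PhiSum_zero]; exact I.zero_mem_ball)
  rwa [PhiSum_zero] at h

theorem e_zero : I.e 0 = 0 := by
  unfold e
  rw [I.Ψ_zero, S_zero]

theorem e_injOn {v w : ι → ℂ} (hv : v ∈ ball (0 : ι → ℂ) I.ε) (hw : w ∈ ball (0 : ι → ℂ) I.ε)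
    (h : I.e v = I.e w) : v = w := by
  have h1 := I.nice.uniq (I.Ψ_mem v hv) (I.Ψ_mem w hw) h
  rw [← I.Ψ_right v hv, ← I.Ψ_right w hw, h1]

/-- Moving along a chart changes `e` in the expected way. -/
theorem path {Q : Place ℂ F} (cQ : Chart Q) {δ' δQ : ℝ} (hδ' : 0 < δ') (hδ'le : δ' ≤ I.δ)
    (hδQ : δQ ≤ cQ.r)
    (hdisj : ∀ i, ∀ t ∈ ball (0 : ℂ) δ', ∀ t' ∈ ball (0 : ℂ) δQ, (c i).pt t ≠ cQ.pt t')
    {ε' : ℝ} (hε' : ε' ≤ I.ε) (hsmall : ∀ v ∈ ball (0 : ι → ℂ) ε', ∀ i, I.Ψ v i ∈ ball (0 : ℂ) δ')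
    {v0 : ι → ℂ} {t : ℂ} (ht : t ∈ ball (0 : ℂ) δQ)
    (hV : ∀ τ ∈ Set.Icc (0 : ℝ) 1, v0 - prim β cQ ((τ : ℂ) * t) ∈ ball (0 : ι → ℂ) ε') :
    I.e (v0 - prim β cQ t) + pc (cQ.pt t) Q = I.e v0 := by
  classical
  letI : TopologicalSpace (Pic0 ℂ F) := ⊥
  haveI : DiscreteTopology (Pic0 ℂ F) := ⟨rfl⟩
  have hN' : Nice β c δ' := I.nice.mono hδ' hδ'le
  let C : ℝ → Pic0 ℂ F := fun τ => I.e (v0 - prim β cQ ((τ : ℂ) * t)) + pc (cQ.pt ((τ : ℂ) * t)) Q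
  have hτt : ∀ τ ∈ Set.Icc (0 : ℝ) 1, (τ : ℂ) * t ∈ ball (0 : ℂ) δQ := by
    intro τ hτ
    rw [mem_ball_zero_iff] at ht ⊢
    rw [norm_mul, Complex.norm_real, Real.norm_of_nonneg hτ.1]
    calc τ * ‖t‖ ≤ 1 * ‖t‖ := mul_le_mul_of_nonneg_right hτ.2 (norm_nonneg _)
      _ < δQ := by simpa using ht
  have hcont : ContinuousOn C (Set.Icc (0 : ℝ) 1) := by
    intro τ0 hτ0
    have hloc : ∀ᶠ τ in 𝓝[Set.Icc (0 : ℝ) 1] τ0, C τ = C τ0 := by
      have hflow := hN'.flow cQ hδQ hdisj (hsmall _ (hV τ0 hτ0)) (hτt τ0 hτ0)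
      have htend : Tendsto (fun τ : ℝ => (τ : ℂ) * t) (𝓝 τ0) (𝓝 ((τ0 : ℂ) * t)) :=
        (Complex.continuous_ofReal.mul continuous_const).continuousAt
      have h1 := (htend.eventually hflow).filter_mono
        (nhdsWithin_le_nhds : 𝓝[Set.Icc (0 : ℝ) 1] τ0 ≤ 𝓝 τ0)
      filter_upwards [h1, self_mem_nhdsWithin] with τ h2 hτ
      obtain ⟨s, hs, hS, hP⟩ := h2
      rw [I.Ψ_right _ (ball_subset_ball hε' (hV τ0 hτ0)), sub_add_cancel] at hP
      have hP' : PhiSum β c s = v0 - prim β cQ ((τ : ℂ) * t) := by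
        rw [← hP, add_sub_cancel_right]
      have h3 : I.Ψ (v0 - prim β cQ ((τ : ℂ) * t)) = s := by
        rw [← hP']
        apply I.Ψ_left
        · intro i; exact ball_subset_ball hδ'le (hs i)
        · rw [hP']; exact ball_subset_ball hε' (hV τ hτ)
      change S c (I.Ψ _) + _ = S c (I.Ψ _) + _
      rw [h3]
      exact hS
    unfold ContinuousWithinAt
    exact (tendsto_const_nhds (x := C τ0)).congr' (hloc.mono fun τ h => h.symm)
  have h01 := isPreconnected_Icc.constant hcont (Set.left_mem_Icc.2 zero_le_one)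
    (Set.right_mem_Icc.2 zero_le_one)
  change I.e (v0 - prim β cQ (((0 : ℝ) : ℂ) * t)) + pc (cQ.pt (((0 : ℝ) : ℂ) * t)) Q =
    I.e (v0 - prim β cQ (((1 : ℝ) : ℂ) * t)) + pc (cQ.pt (((1 : ℝ) : ℂ) * t)) Q at h01
  rw [Complex.ofReal_zero, zero_mul, prim_zero, cQ.pt_zero, pc_self, sub_zero, add_zero,
    Complex.ofReal_one, one_mul] at h01
  exact h01.symm

/-- For a chart at a place different from all `b i`, moving a little adds `Φ_Q`. -/
theorem move {Q : Place ℂ F} (cQ : Chart Q) (hQ : ∀ i, b i ≠ Q) :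
    ∃ ρ : ℝ, 0 < ρ ∧ ∀ v ∈ ball (0 : ι → ℂ) ρ, ∀ t ∈ ball (0 : ℂ) ρ,
      I.e (v + prim β cQ t) = I.e v + pc (cQ.pt t) Q := by
  classical
  obtain ⟨δ2, hδ2, hsep⟩ : ∃ δ : ℝ, 0 < δ ∧ ∀ i, ∀ t ∈ ball (0 : ℂ) δ,
      ∀ t' ∈ ball (0 : ℂ) δ, (c i).pt t ≠ cQ.pt t' := by
    have h1 : ∀ i, ∃ δ : ℝ, 0 < δ ∧ (∀ t ∈ ball (0 : ℂ) δ,
        ∀ t' ∈ ball (0 : ℂ) δ, (c i).pt t ≠ cQ.pt t') := fun i => (c i).separated cQ (hQ i)
    choose δ hδ h2 using h1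
    obtain ⟨δ0, hδ0, hle⟩ : ∃ δ0 : ℝ, 0 < δ0 ∧ ∀ p, δ0 ≤ δ p := by
      rcases isEmpty_or_nonempty ι with he | he
      · exact ⟨1, one_pos, fun p => (he.false p).elim⟩
      · obtain ⟨p0, hp0⟩ := Finite.exists_min δ
        exact ⟨δ p0, hδ p0, hp0⟩
    refine ⟨δ0, hδ0, fun i t ht t' ht' => ?_⟩
    exact h2 i t (ball_subset_ball (hle _) ht) t' (ball_subset_ball (hle _) ht')
  set δ' := min δ2 I.δ with hδ'
  have hδ'pos : 0 < δ' := lt_min hδ2 I.nice.pos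
  obtain ⟨ε', hε', hε'le, hsmall⟩ := I.small δ' hδ'pos
  have hcontQ : ContinuousAt (prim β cQ) 0 := (hasStrictDerivAt_prim β cQ).hasDerivAt.continuousAt
  have hev : ∀ᶠ t in 𝓝 (0 : ℂ), prim β cQ t ∈ ball (0 : ι → ℂ) (ε' / 4) := by
    apply hcontQ.eventually
    rw [prim_zero]
    exact ball_mem_nhds _ (by positivity)
  obtain ⟨ρ1, hρ1, h1⟩ := Metric.eventually_nhds_iff_ball.1 hev
  set δQ := min δ2 cQ.r with hδQ
  have hδQpos : 0 < δQ := lt_min hδ2 cQ.r_pos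
  set ρ := min (ε' / 4) (min ρ1 δQ) with hρ
  refine ⟨ρ, lt_min (by positivity) (lt_min hρ1 hδQpos), fun v hv t ht => ?_⟩
  have hv' : ‖v‖ < ε' / 4 := by
    rw [mem_ball_zero_iff] at hv
    exact hv.trans_le (min_le_left _ _)
  have htρ1 : t ∈ ball (0 : ℂ) ρ1 :=
    ball_subset_ball ((min_le_right _ _).trans (min_le_left _ _)) ht
  have htδQ : t ∈ ball (0 : ℂ) δQ :=
    ball_subset_ball ((min_le_right _ _).trans (min_le_right _ _)) ht
  have hp := I.path cQ hδ'pos (min_le_right _ _) (min_le_right _ _ : δQ ≤ cQ.r)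
    (fun i t ht t' ht' => hsep i t (ball_subset_ball (min_le_left _ _) ht) t'
      (ball_subset_ball (min_le_left _ _) ht')) hε'le hsmall
    (v0 := v + prim β cQ t) htδQ (by
      intro τ hτ
      have h2 : (τ : ℂ) * t ∈ ball (0 : ℂ) ρ1 := by
        rw [mem_ball_zero_iff] at htρ1 ⊢
        rw [norm_mul, Complex.norm_real, Real.norm_of_nonneg hτ.1]
        calc τ * ‖t‖ ≤ 1 * ‖t‖ := mul_le_mul_of_nonneg_right hτ.2 (norm_nonneg _)
          _ < ρ1 := by simpa using htρ1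
      have h3 := h1 _ h2
      have h4 := h1 _ htρ1
      rw [mem_ball_zero_iff] at h3 h4 ⊢
      calc ‖v + prim β cQ t - prim β cQ ((τ : ℂ) * t)‖
          ≤ ‖v‖ + ‖prim β cQ t‖ + ‖prim β cQ ((τ : ℂ) * t)‖ :=
            (norm_sub_le _ _).trans (by gcongr; exact norm_add_le _ _)
        _ < ε' / 4 + ε' / 4 + ε' / 4 := by gcongr
        _ < ε' := by linarith)
  rw [add_sub_cancel_right] at hp
  -- hp : e v + pc = e (v + prim)
  exact hp.symm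

/-- Additivity, using an auxiliary family disjoint from the first. -/
theorem exists_add {b' : ι → Place ℂ F} (c' : ∀ i, Chart (b' i))
    (hind' : ∀ w : ι → ℂ, ∑ i, w i • cls (b' i) (c' i).z⁻¹ = 0 → w = 0)
    (hbb' : ∀ i j, b i ≠ b' j) :
    ∃ ρ : ℝ, 0 < ρ ∧ ∀ v ∈ ball (0 : ι → ℂ) ρ, ∀ w ∈ ball (0 : ι → ℂ) ρ,
      I.e (v + w) = I.e v + I.e w := by
  classical
  have hmove := fun j => I.move (c' j) (fun i => hbb' i j)
  choose ρ hρ hmv using hmove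
  obtain ⟨ρ0, hρ0, hle⟩ : ∃ δ0 : ℝ, 0 < δ0 ∧ ∀ p, δ0 ≤ ρ p := by
    rcases isEmpty_or_nonempty ι with he | he
    · exact ⟨1, one_pos, fun p => (he.false p).elim⟩
    · obtain ⟨p0, hp0⟩ := Finite.exists_min ρ
      exact ⟨ρ p0, hρ p0, hp0⟩
  -- smallness of the primitives
  set N : ℝ := (Fintype.card ι : ℝ) + 1 with hN
  have hNpos : 0 < N := by positivity
  have hev : ∀ j, ∀ᶠ t in 𝓝 (0 : ℂ), prim β (c' j) t ∈ ball (0 : ι → ℂ) (ρ0 / (2 * N)) := by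
    intro j
    have hcontQ : ContinuousAt (prim β (c' j)) 0 :=
      (hasStrictDerivAt_prim β (c' j)).hasDerivAt.continuousAt
    apply hcontQ.eventually
    rw [prim_zero]
    exact ball_mem_nhds _ (by positivity)
  obtain ⟨ρ1, hρ1, h1⟩ := Metric.eventually_nhds_iff_ball.1 (eventually_all.2 hev)
  set ρ2 := min ρ0 ρ1 with hρ2
  have hρ2pos : 0 < ρ2 := lt_min hρ0 hρ1
  -- iterate
  have hiter : ∀ v ∈ ball (0 : ι → ℂ) (ρ0 / 2), ∀ s : ι → ℂ, (∀ j, s j ∈ ball (0 : ℂ) ρ2) →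
      ∀ A : Finset ι, I.e (v + ∑ j ∈ A, prim β (c' j) (s j)) =
        I.e v + ∑ j ∈ A, pc ((c' j).pt (s j)) (b' j) := by
    intro v hv s hs A
    induction A using Finset.induction_on with
    | empty => simp
    | insert j A hj ih =>
      rw [Finset.sum_insert hj, Finset.sum_insert hj]
      have hnorm : ‖v + ∑ j ∈ A, prim β (c' j) (s j)‖ < ρ0 := by
        have h2 : ‖∑ j ∈ A, prim β (c' j) (s j)‖ ≤ ∑ j ∈ A, ρ0 / (2 * N) := by
          refine (norm_sum_le _ _).trans (Finset.sum_le_sum fun j _ => ?_)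
          have := h1 _ (ball_subset_ball (min_le_right _ _) (hs j)) j
          rw [mem_ball_zero_iff] at this
          exact this.le
        rw [Finset.sum_const, nsmul_eq_mul] at h2
        have h3 : (A.card : ℝ) * (ρ0 / (2 * N)) ≤ ρ0 / 2 := by
          have h4 : (A.card : ℝ) ≤ N := by
            have : A.card ≤ Fintype.card ι := Finset.card_le_univ A
            have : (A.card : ℝ) ≤ (Fintype.card ι : ℝ) := by exact_mod_cast this
            linarith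
          calc (A.card : ℝ) * (ρ0 / (2 * N)) ≤ N * (ρ0 / (2 * N)) := by gcongr
            _ = ρ0 / 2 := by field_simp
        rw [mem_ball_zero_iff] at hv
        calc ‖v + ∑ j ∈ A, prim β (c' j) (s j)‖ ≤ ‖v‖ + ‖∑ j ∈ A, prim β (c' j) (s j)‖ :=
              norm_add_le _ _
          _ < ρ0 / 2 + ρ0 / 2 := by linarith
          _ = ρ0 := by ring
      have h5 := hmv j (v + ∑ j ∈ A, prim β (c' j) (s j))
        (by rw [mem_ball_zero_iff]; exact hnorm.trans_le (hle j)) (s j)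
        (ball_subset_ball ((min_le_left _ _).trans (hle j)) (hs j))
      have h6 : v + (prim β (c' j) (s j) + ∑ j ∈ A, prim β (c' j) (s j)) =
          v + ∑ j ∈ A, prim β (c' j) (s j) + prim β (c' j) (s j) := by abel
      rw [h6, h5, ih]
      abel
  obtain ⟨L, hL⟩ := exists_strict_PhiSum β c' hind'
  have h7 : PhiSum β c' '' ball (0 : ι → ℂ) ρ2 ∈ 𝓝 (PhiSum β c' 0) := by
    rw [← hL.map_nhds_eq_of_equiv]
    exact image_mem_map (ball_mem_nhds _ hρ2pos)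
  rw [PhiSum_zero] at h7
  obtain ⟨ρ3, hρ3, h8⟩ := Metric.mem_nhds_iff.1 h7
  refine ⟨min (ρ0 / 2) ρ3, lt_min (by positivity) hρ3, fun v hv w hw => ?_⟩
  obtain ⟨s, hs, hsw⟩ := h8 (ball_subset_ball (min_le_right _ _) hw)
  have hs' : ∀ j, s j ∈ ball (0 : ℂ) ρ2 := by rwa [mem_polydisc_iff hρ2pos]
  have h9 := hiter v (ball_subset_ball (min_le_left _ _) hv) s hs' Finset.univ
  have h10 := hiter 0 (mem_ball_self (by positivity)) s hs' Finset.univ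
  have h11 : ∑ j, prim β (c' j) (s j) = w := hsw
  rw [h11] at h9 h10
  rw [zero_add, I.e_zero, zero_add] at h10
  rw [h9, h10]

/-- Points near `b i` in the chart `c i`. -/
theorem e_self (i : ι) : ∃ ρ : ℝ, 0 < ρ ∧ ∀ t ∈ ball (0 : ℂ) ρ,
    prim β (c i) t ∈ ball (0 : ι → ℂ) I.ε ∧
    I.e (prim β (c i) t) = pc ((c i).pt t) (b i) := by
  classical
  have hev : ∀ᶠ t in 𝓝 (0 : ℂ), prim β (c i) t ∈ ball (0 : ι → ℂ) I.ε := by
    have hcontQ : ContinuousAt (prim β (c i)) 0 :=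
      (hasStrictDerivAt_prim β (c i)).hasDerivAt.continuousAt
    apply hcontQ.eventually
    rw [prim_zero]
    exact ball_mem_nhds _ I.ε_pos
  obtain ⟨ρ1, hρ1, h1⟩ := Metric.eventually_nhds_iff_ball.1 hev
  refine ⟨min ρ1 I.δ, lt_min hρ1 I.nice.pos, fun t ht => ?_⟩
  have ht1 := h1 t (ball_subset_ball (min_le_left _ _) ht)
  refine ⟨ht1, ?_⟩
  let s : ι → ℂ := Pi.single i t
  have hs : ∀ j, s j ∈ ball (0 : ℂ) I.δ := by
    intro j
    by_cases h : j = i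
    · subst h; simp only [s, Pi.single_eq_same]; exact ball_subset_ball (min_le_right _ _) ht
    · simp only [s, Pi.single_eq_of_ne h]; exact mem_ball_self I.nice.pos
  have hP : PhiSum β c s = prim β (c i) t := by
    unfold PhiSum
    rw [Finset.sum_eq_single i]
    · simp [s]
    · intro j _ hj
      simp only [s, Pi.single_eq_of_ne hj]
      exact prim_zero _ _
    · intro h; exact absurd (Finset.mem_univ i) h
  have hΨ : I.Ψ (prim β (c i) t) = s := by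
    rw [← hP]
    apply I.Ψ_left hs
    rw [hP]; exact ht1
  unfold e
  rw [hΨ]
  unfold S
  rw [Finset.sum_eq_single i]
  · simp [s]
  · intro j _ hj
    simp only [s, Pi.single_eq_of_ne hj]
    rw [(c j).pt_zero, pc_self]
  · intro h; exact absurd (Finset.mem_univ i) h

end LocInv

end Fermat.Agent.S27C
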