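import Mathlib
import Fermat.Agent.S27C.Compact
import Fermat.Agent.S27C.LocalHom
import Fermat.Agent.S27C.Lattice
import Fermat.Agent.FunField.Kaehler

/-!
# Torsion of `Pic0` over `ℂ`
-/

set_option autoImplicit false

noncomputable section


open AlgebraicCurve Filter Metric
open scoped Topology
open Fermat.Agent.FunField (IsFF)

namespace Fermat.Agent.S27C

section Effective

variable {K F : Type*} [Field K] [Field F] [Algebra K F] [IsAlgClosed K] [IsCurveOver K F]

/-- Effective divisors are sums of places. -/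
theorem exists_eq_sum_single (n : ℕ) : ∀ E : Divisor K F, (∀ v, 0 ≤ E v) →
    Divisor.degree E = n → ∃ v : Fin n → Place K F, E = ∑ i, Finsupp.single (v i) 1 := by
  classical
  induction n with
  | zero =>
    intro E hE hdeg
    exact ⟨Fin.elim0, by simpa using eq_zero_of_degree_zero hE (by simpa using hdeg)⟩
  | succ n ih =>
    intro E hE hdeg
    have hne : ∃ v0, 1 ≤ E v0 := by
      by_contra hcon
      push Not at hcon
      have h0 : E = 0 := by
        ext v
        have h1 := hE v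
        have h2 := hcon v
        rw [Finsupp.zero_apply]
        omega
      rw [h0, map_zero] at hdeg
      push_cast at hdeg
      omega
    obtain ⟨v0, hv0⟩ := hne
    obtain ⟨w, hw⟩ := ih (E - Finsupp.single v0 1) (by
      intro v
      rw [Finsupp.sub_apply, Finsupp.single_apply]
      split_ifs with h
      · subst h; omega
      · have := hE v; omega) (by
      rw [map_sub, hdeg, degree_single']; push_cast; ring)
    refine ⟨Fin.cons v0 w, ?_⟩
    rw [Fin.sum_univ_succ]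
    simp only [Fin.cons_zero, Fin.cons_succ]
    rw [← hw]
    abel

/-- Every class is a sum of `g` classes `[v] - [P0]`. -/
theorem exists_sum_pc [IsFF K F] (P0 : Place K F) (x : Pic0 K F) :
    ∃ v : Fin (genusFF K F) → Place K F, x = ∑ i, pc (v i) P0 := by
  classical
  obtain ⟨D, rfl⟩ := QuotientAddGroup.mk_surjective x
  set g := genusFF K F with hg
  set D' : Divisor K F := (D : Divisor K F) + Finsupp.single P0 (g : ℤ) with hD'
  have hdegD : Divisor.degree (D : Divisor K F) = 0 := Divisor.mem_degZero.1 D.2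
  have hdeg : Divisor.degree D' = g := by
    rw [hD', map_add, hdegD, degree_single', zero_add]
  have hRR := FunField.riemann_roch (K := K) (F := F) D'
  rw [hdeg, ← hg] at hRR
  have hpos : 0 < Module.finrank K (riemannRochSpace D') := by
    have : (0 : ℤ) < Module.finrank K (riemannRochSpace D') := by
      have h1 : (0 : ℤ) ≤ Module.finrank K (H1 D') := Int.natCast_nonneg _
      linarith
    exact_mod_cast this
  obtain ⟨f, hf, hf0⟩ := FunField.exists_ne_zero_of_finrank_pos hpos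
  rw [mem_riemannRochSpace_iff] at hf
  obtain ⟨G, hG, hG0⟩ := HasPrincipalDivisors.exists_divisor (K := K) f hf0
  obtain ⟨v, hv⟩ := exists_eq_sum_single g (G + D') (by
    intro w
    have h1 := (hf w).resolve_left hf0
    rw [Finsupp.add_apply, hG w]
    omega) (by rw [map_add, hG0, hdeg, zero_add])
  refine ⟨v, ?_⟩
  have hmem : (∑ i, (Finsupp.single (v i) 1 - Finsupp.single P0 1) : Divisor K F) ∈
      Divisor.degZero (K := K) (F := F) := by
    rw [Divisor.mem_degZero, map_sum]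
    apply Finset.sum_eq_zero
    intro i _
    rw [map_sub, degree_single', degree_single', sub_self]
  rw [sum_pc_eq Finset.univ v (fun _ => P0) hmem]
  have hsum : (∑ i, (Finsupp.single (v i) 1 - Finsupp.single P0 1) : Divisor K F) =
      G + (D : Divisor K F) := by
    rw [Finset.sum_sub_distrib, ← hv, Finset.sum_const, Finset.card_univ, Fintype.card_fin, hD',
      ← add_assoc, Finsupp.smul_single]
    simp
  change Pic0.mk D = _
  rw [← sub_eq_zero]
  have h2 : Pic0.mk D - Pic0.mk ⟨_, hmem⟩ = Pic0.mk (D - ⟨_, hmem⟩) := rfl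
  rw [h2, pic0_mk_eq_zero_iff]
  have h3 : ((D - ⟨_, hmem⟩ : Divisor.degZero (K := K) (F := F)) : Divisor K F) = -G := by
    change (D : Divisor K F) - ∑ i, (Finsupp.single (v i) 1 - Finsupp.single P0 1) = -G
    rw [hsum]
    abel
  rw [h3]
  refine ⟨f⁻¹, inv_ne_zero hf0, fun w => ?_⟩
  rw [Finsupp.neg_apply, hG w, Place.ord_inv]

end Effective

variable {F : Type*} [Field F] [Algebra ℂ F] [IsCurveOver ℂ F]

variable (F) in
/-- The exponential map `ℂ^g → Pic0`: a homomorphism, injective near `0`, surjective already on a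
bounded set. -/
theorem exists_exp [IsFF ℂ F] : ∃ (φ : (Fin (genusFF ℂ F) → ℂ) →+ Pic0 ℂ F) (ε R : ℝ),
    0 < ε ∧ (∀ v, ‖v‖ < ε → φ v = 0 → v = 0) ∧ ∀ x, ∃ v, ‖v‖ ≤ R ∧ φ v = x := by
  classical
  let β : H1 (0 : Divisor ℂ F) ≃ₗ[ℂ] (Fin (genusFF ℂ F) → ℂ) :=
    (Module.finBasis ℂ (H1 (0 : Divisor ℂ F))).equivFun
  obtain ⟨b, hb, -, hind⟩ := exists_family (F := F) ∅
  obtain ⟨b', hb', hdisj, hind'⟩ := exists_family (F := F) (Finset.univ.image b)
  have hbb' : ∀ i j, b i ≠ b' j := by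
    intro i j h
    exact hdisj j (by rw [← h]; exact Finset.mem_image_of_mem b (Finset.mem_univ i))
  obtain ⟨I⟩ := exists_locInv β hb (fun i => chartAt (b i)) hind
  obtain ⟨ρ, hρ, hadd⟩ := I.exists_add (fun i => chartAt (b' i)) hind' hbb'
  obtain ⟨φ, hφ⟩ := exists_hom_of_local I.e ρ hρ (by
    intro v w hv hw
    exact hadd v (by rwa [mem_ball_zero_iff]) w (by rwa [mem_ball_zero_iff]))
  -- injectivity near zero
  have hinj : ∀ v : Fin (genusFF ℂ F) → ℂ, ‖v‖ < min ρ I.ε → φ v = 0 → v = 0 := by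
    intro v hv h0
    rw [hφ v (hv.trans_le (min_le_left _ _)), ← I.e_zero] at h0
    exact I.e_injOn (by rw [mem_ball_zero_iff]; exact hv.trans_le (min_le_right _ _))
      I.zero_mem_ball h0
  -- local surjectivity
  have hloc : ∀ Q : Place ℂ F, ∃ r : ℝ, 0 < r ∧ ∀ t ∈ ball (0 : ℂ) r,
      ∃ x : Fin (genusFF ℂ F) → ℂ, ‖x‖ ≤ 1 ∧ φ x = pc ((chartAt Q).pt t) Q := by
    intro Q
    have hcont : ∀ᶠ t in 𝓝 (0 : ℂ), prim β (chartAt Q) t ∈
        ball (0 : Fin (genusFF ℂ F) → ℂ) (min ρ 1) := by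
      have hcontQ : ContinuousAt (prim β (chartAt Q)) 0 :=
        (hasStrictDerivAt_prim β (chartAt Q)).hasDerivAt.continuousAt
      apply hcontQ.eventually
      rw [prim_zero]
      exact ball_mem_nhds _ (lt_min hρ one_pos)
    obtain ⟨r1, hr1, h1⟩ := Metric.eventually_nhds_iff_ball.1 hcont
    obtain ⟨r2, hr2, h2⟩ : ∃ r2 : ℝ, 0 < r2 ∧ ∀ t ∈ ball (0 : ℂ) r2,
        I.e (prim β (chartAt Q) t) = pc ((chartAt Q).pt t) Q := by
      by_cases hQ : ∃ i, b i = Q
      · obtain ⟨i, rfl⟩ := hQ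
        obtain ⟨r2, hr2, h2⟩ := I.e_self i
        exact ⟨r2, hr2, fun t ht => (h2 t ht).2⟩
      · push Not at hQ
        obtain ⟨r2, hr2, h2⟩ := I.move (chartAt Q) hQ
        refine ⟨r2, hr2, fun t ht => ?_⟩
        have := h2 0 (mem_ball_self hr2) t ht
        rwa [zero_add, I.e_zero, zero_add] at this
    refine ⟨min r1 r2, lt_min hr1 hr2, fun t ht => ⟨prim β (chartAt Q) t, ?_, ?_⟩⟩
    · have h3 := h1 t (ball_subset_ball (min_le_left _ _) ht)
      rw [mem_ball_zero_iff] at h3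
      exact (h3.trans_le (min_le_right _ _)).le
    · have h3 := h1 t (ball_subset_ball (min_le_left _ _) ht)
      rw [mem_ball_zero_iff] at h3
      rw [hφ _ (h3.trans_le (min_le_left _ _))]
      exact h2 t (ball_subset_ball (min_le_right _ _) ht)
  -- connectedness
  have hconn : ∀ v w : Place ℂ F, ∃ x, φ x = pc v w := by
    apply connected (fun v w => ∃ x, φ x = pc v w)
    · refine ⟨fun v => ⟨0, by rw [map_zero, pc_self]⟩, ?_, ?_⟩
      · rintro v w ⟨x, hx⟩
        exact ⟨-x, by rw [map_neg, hx, pc_neg]⟩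
      · rintro u v w ⟨x, hx⟩ ⟨y, hy⟩
        exact ⟨x + y, by rw [map_add, hx, hy, pc_add]⟩
    · intro Q
      obtain ⟨r, hr, h⟩ := hloc Q
      refine ⟨r, hr, fun t ht => ?_⟩
      obtain ⟨x, -, hx⟩ := h t ht
      exact ⟨x, hx⟩
  -- bounded surjectivity
  choose r hr hloc' using hloc
  obtain ⟨T, hT⟩ := exists_finite_cover r hr
  obtain ⟨P0⟩ := FunField.exists_place (K := ℂ) (F := F)
  choose a ha using fun Q => hconn Q P0
  set R0 : ℝ := 1 + ∑ Q ∈ T, ‖a Q‖ with hR0
  have hbdd : ∀ v : Place ℂ F, ∃ x, ‖x‖ ≤ R0 ∧ φ x = pc v P0 := by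
    intro v
    obtain ⟨Q, hQ, t, ht, rfl⟩ := hT v
    obtain ⟨x, hx1, hx2⟩ := hloc' Q t ht
    refine ⟨x + a Q, ?_, by rw [map_add, hx2, ha, pc_add]⟩
    refine (norm_add_le _ _).trans (add_le_add hx1 ?_)
    exact Finset.single_le_sum (f := fun Q => ‖a Q‖) (fun _ _ => norm_nonneg _) hQ
  refine ⟨φ, min ρ I.ε, (genusFF ℂ F : ℝ) * R0, lt_min hρ I.ε_pos, hinj, fun x => ?_⟩
  obtain ⟨v, hv⟩ := exists_sum_pc P0 x
  choose y hy1 hy2 using fun i => hbdd (v i)
  refine ⟨∑ i, y i, ?_, by rw [map_sum, hv]; exact Finset.sum_congr rfl fun i _ => hy2 i⟩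
  refine (norm_sum_le _ _).trans ((Finset.sum_le_sum fun i _ => hy1 i).trans ?_)
  rw [Finset.sum_const, Finset.card_univ, Fintype.card_fin, nsmul_eq_mul]

theorem natCard_torsion_complex_aux [IsFF ℂ F] (n : ℕ) (hn : 0 < n) :
    Nat.card {x : Pic0 ℂ F // (n : ℤ) • x = 0} = n ^ (2 * genusFF ℂ F) := by
  obtain ⟨φ, ε, R, hε, hinj, hR⟩ := exists_exp F
  rw [natCard_torsion_of_exp φ ε hε hinj R hR n hn]
  congr 1
  rw [Module.finrank_pi_fintype]
  simp [Complex.finrank_real_complex, mul_comm]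

/-- The number of `n`-torsion points of `Pic0` of a curve over `ℂ`. -/
theorem natCard_torsion_complex [Algebra.EssFiniteType ℂ F] (n : ℕ) (hn : 0 < n) :
    Nat.card {x : Pic0 ℂ F // (n : ℤ) • x = 0} = n ^ (2 * genusFF ℂ F) := by
  haveI : IsFF ℂ F := FunField.isFF_of_isCurveOver
  exact natCard_torsion_complex_aux n hn

/-- `Pic0` of a curve over `ℂ` is divisible. -/
theorem divisible_complex [IsFF ℂ F] (n : ℕ) (hn : 0 < n) (x : Pic0 ℂ F) :
    ∃ y : Pic0 ℂ F, n • y = x := by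
  obtain ⟨φ, ε, R, -, -, hR⟩ := exists_exp F
  obtain ⟨v, -, rfl⟩ := hR x
  refine ⟨φ ((n : ℂ)⁻¹ • v), ?_⟩
  rw [← map_nsmul, ← Nat.cast_smul_eq_nsmul ℂ, smul_smul,
    mul_inv_cancel₀ (Nat.cast_ne_zero.2 hn.ne'), one_smul]

/-- The `n`-torsion of `Pic0` of a curve over `ℂ` is finite. -/
theorem finite_torsion_complex [IsFF ℂ F] (n : ℕ) (hn : 0 < n) :
    Finite {x : Pic0 ℂ F // (n : ℤ) • x = 0} := by
  apply Nat.finite_of_card_ne_zero
  rw [natCard_torsion_complex_aux n hn]
  exact pow_ne_zero _ hn.ne'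

end Fermat.Agent.S27C
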